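import Fermat.Agent.LanglandsTunnell.Datum
import Fermat.Agent.Density.Inertia

/-!
# The bad primes of a datum

Primes other than `3` where inertia in the group of `M` acts nontrivially.
-/

set_option autoImplicit false

noncomputable section

namespace FLTAgent.LanglandsTunnell

namespace Datum

variable (D : Datum)

theorem IsBad.ne_three {D : Datum} {q : ℕ} (h : D.IsBad q) : q ≠ 3 := h.2.1

theorem finite_isBad : {q : ℕ | D.IsBad q}.Finite := by
  obtain ⟨S, hS⟩ := Density.exists_finset_unramified D.factors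
  refine S.finite_toSet.subset fun q ⟨hq, _, A, hA, σ, hσ, _, hne⟩ => ?_
  by_contra h
  exact hne (hS q hq h A hA σ hσ)

theorem badPart_eq : D.badPart = ∏ q ∈ D.finite_isBad.toFinset, q :=
  finprod_mem_eq_finite_toFinset_prod _ D.finite_isBad

theorem badPart_ne_zero : D.badPart ≠ 0 := by
  rw [badPart_eq]
  exact Finset.prod_ne_zero_iff.mpr fun q hq => (D.finite_isBad.mem_toFinset.mp hq).1.ne_zero

theorem dvd_badPart {q : ℕ} (h : D.IsBad q) : q ∣ D.badPart := by
  rw [badPart_eq]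
  exact Finset.dvd_prod_of_mem _ (D.finite_isBad.mem_toFinset.mpr h)

theorem prime_dvd_badPart {q : ℕ} (hq : q.Prime) : q ∣ D.badPart ↔ D.IsBad q := by
  refine ⟨fun h => ?_, D.dvd_badPart⟩
  rw [badPart_eq, hq.prime.dvd_finsetProd_iff] at h
  obtain ⟨p, hp, hd⟩ := h
  have hp' : D.IsBad p := D.finite_isBad.mem_toFinset.mp hp
  rwa [(Nat.prime_dvd_prime_iff_eq hq hp'.1).mp hd]

theorem not_three_dvd_badPart : ¬ 3 ∣ D.badPart := fun h =>
  ((D.prime_dvd_badPart Nat.prime_three).mp h).2.1 rfl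

theorem not_sq_dvd_badPart {q : ℕ} (hq : q.Prime) : ¬ q ^ 2 ∣ D.badPart := by
  intro h
  have hq' : D.IsBad q := (D.prime_dvd_badPart hq).mp ((dvd_pow_self q two_ne_zero).trans h)
  rw [badPart_eq, ← Finset.mul_prod_erase _ _ (D.finite_isBad.mem_toFinset.mpr hq'), pow_two] at h
  obtain ⟨p, hp, hd⟩ := (hq.prime.dvd_finsetProd_iff _).mp (Nat.dvd_of_mul_dvd_mul_left hq.pos h)
  obtain ⟨hne, hp⟩ := Finset.mem_erase.mp hp
  exact hne ((Nat.prime_dvd_prime_iff_eq hq (D.finite_isBad.mem_toFinset.mp hp).1).mp hd).symm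

end Datum

end FLTAgent.LanglandsTunnell

end
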