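import Fermat.Agent.LanglandsTunnell.Basic
import Fermat.Prelude.Def_GaloisRep_ModThreeCyclotomic
import Fermat.Prelude.Def_GaloisRep_Residual
import Fermat.Prelude.Def_FLTPrelim_Ramification
import Fermat.Prelude.Def_EllipticCurve_FrobeniusTrace
import Fermat.Prelude.Def_FLTPrelim_Modularity

/-!
# The Galois datum of the octahedral descent

A surjective mod `3` representation with the inertia shapes allowed by the descent, its two fields
`E ⊆ M`, and the complex character of its lift.
-/

set_option autoImplicit false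

noncomputable section

namespace FLTAgent.LanglandsTunnell

open NumberField Matrix
open scoped WeierstrassCurve.Affine

/-- The algebraic numbers. -/
abbrev QB : Type := AlgebraicClosure ℚ

/-- Their automorphism group. -/
abbrev GQ : Type := QB ≃ₐ[ℚ] QB

/-- The elements of the quaternion subgroup of `SL(2, 𝔽₃)`. -/
def InQ8 (g : GL (Fin 2) (ZMod 3)) : Prop :=
  g.1.det = 1 ∧ (g.1.trace = 0 ∨ g.1 = 1 ∨ g.1 = -1)

/-- The character of the faithful two dimensional lift of `GL(2, 𝔽₃)` (with `√-2` reducing to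
`-1`). -/
def trLift (g : GL (Fin 2) (ZMod 3)) : ℂ :=
  if g.1.det = 1 then
    (if g.1 = 1 then 2 else if g.1 = -1 then -2 else if g.1.trace = 0 then 0
      else if g.1.trace = 1 then 1 else -1)
  else
    (if g.1.trace = 0 then 0
      else if g.1.trace = 1 then -(Real.sqrt 2 : ℂ) * Complex.I else (Real.sqrt 2 : ℂ) * Complex.I)

/-- At a place over `3`: every inertia element fixes a nonzero vector. -/
def LineShape (ρ : GQ →* GL (Fin 2) (ZMod 3)) (A : ValuationSubring QB) : Prop :=
  ∀ σ ∈ A.inertiaSubgroupIn ℚ, ((ρ σ).1 - 1).det = 0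

/-- At a place over `3`: inertia has image a cyclic group of order `8`. -/
def SupersingularShape (ρ : GQ →* GL (Fin 2) (ZMod 3)) (A : ValuationSubring QB) : Prop :=
  IsCyclic ((A.inertiaSubgroupIn ℚ).map ρ) ∧ Nat.card ((A.inertiaSubgroupIn ℚ).map ρ) = 8

/-- The input of the descent. -/
structure Datum : Type where
  ρ : GQ →* GL (Fin 2) (ZMod 3)
  factors : GaloisFactorsThroughFiniteLevel ρ
  surjective : Function.Surjective ρ
  det : ∀ σ : GQ, Matrix.GeneralLinearGroup.det (ρ σ) = WeierstrassCurve.modThreeCyclotomicChar σ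
  odd_inertia : ∀ q : ℕ, q.Prime → q ≠ 2 → q ≠ 3 → ∀ A : ValuationSubring QB, A.LiesOverPrime q →
    (∀ σ ∈ A.inertiaSubgroupIn ℚ, ((ρ σ).1 - 1) * ((ρ σ).1 - 1) = 0) ∨
      (IsCyclic ((A.inertiaSubgroupIn ℚ).map ρ) ∧
        ∃ σ ∈ A.inertiaSubgroupIn ℚ, (ρ σ).1.trace = 0)
  three : ∀ A : ValuationSubring QB, A.LiesOverPrime 3 →
    LineShape ρ A ∨ SupersingularShape ρ A

namespace Datum

variable (D : Datum)

/-- The Galois group of `E = ℚ(√-3)`. -/
def galE : Subgroup GQ := (Matrix.GeneralLinearGroup.det.comp D.ρ).ker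

/-- The Galois group of the sextic field `M`. -/
def galM : Subgroup GQ := Subgroup.closure {σ | InQ8 (D.ρ σ)}

theorem galM_le_galE : D.galM ≤ D.galE := by
  rw [galM, Subgroup.closure_le]
  intro σ hσ
  exact Units.ext (by simpa [Matrix.GeneralLinearGroup.val_det_apply] using hσ.1)

/-- `ℚ(√-3)`. -/
def E : IntermediateField ℚ QB := IntermediateField.fixedField D.galE

/-- The cubic extension of `E`. -/
def M : IntermediateField ℚ QB := IntermediateField.fixedField D.galM

theorem E_le_M : D.E ≤ D.M := fun x hx => by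
  rw [M, IntermediateField.mem_fixedField_iff]
  intro σ hσ
  exact (IntermediateField.mem_fixedField_iff _ _).mp hx σ (D.galM_le_galE hσ)

/-- A subgroup containing the kernel has a finite dimensional fixed field. -/
theorem finiteDimensional_fixedField {H : Subgroup GQ} (hH : D.ρ.ker ≤ H) :
    FiniteDimensional ℚ (IntermediateField.fixedField H) := by
  obtain ⟨L, hL, h⟩ := D.factors
  have := hL
  have : IsGalois ℚ QB := by
    have : IsAlgClosure ℚ QB := ⟨inferInstance, AlgebraicClosure.isAlgebraic ℚ⟩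
    exact IsAlgClosure.isGalois ℚ QB
  have hle : IntermediateField.fixedField H ≤ L := by
    have h1 : L.fixingSubgroup ≤ H := fun σ hσ =>
      hH (h σ ((IntermediateField.mem_fixingSubgroup_iff _ _).mp hσ))
    intro x hx
    rw [← InfiniteGalois.fixedField_fixingSubgroup L, IntermediateField.mem_fixedField_iff]
    intro σ hσ
    exact (IntermediateField.mem_fixedField_iff _ _).mp hx σ (h1 hσ)
  exact FiniteDimensional.of_injective (IntermediateField.inclusion hle).toLinearMap
    (IntermediateField.inclusion hle).injective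

instance finiteDimensional_E : FiniteDimensional ℚ D.E :=
  D.finiteDimensional_fixedField fun σ hσ => by
    simp [galE, MonoidHom.mem_ker, MonoidHom.mem_ker.mp hσ]

instance finiteDimensional_M : FiniteDimensional ℚ D.M :=
  D.finiteDimensional_fixedField fun σ hσ => Subgroup.subset_closure (by
    simp [InQ8, MonoidHom.mem_ker.mp hσ])

instance numberField_E : NumberField D.E where

instance numberField_M : NumberField D.M where

/-- The inclusion `E → M`. -/
def incl : D.E →+* D.M := (IntermediateField.inclusion D.E_le_M).toRingHom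

end Datum

/-- `g` is a Frobenius element of `F` over the prime `w`. -/
def IsFrobOver (F : IntermediateField ℚ QB) [NumberField F] (w : Ideal (𝓞 F)) (g : GQ) : Prop :=
  g ∈ F.fixingSubgroup ∧ ∃ A : ValuationSubring QB,
    (∀ x : 𝓞 F, x ∈ w ↔ (((x : F)) : QB) ∈ A.nonunits) ∧ A.IsFrobeniusAt g (Ideal.absNorm w)

/-- Embeddings of `E` and `M`, compatible, one for each infinite place. -/
structure ExtPlaces (D : Datum) : Type where
  placesE : PlaceChoice D.E Unit
  placesM : PlaceChoice D.M (Fin 3)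
  compat : ∀ i, (placesM.emb i).comp D.incl = placesE.emb ()

/-- Some inertia element at `q` lies in the group of `M` and acts nontrivially. -/
def Datum.IsBad (D : Datum) (q : ℕ) : Prop :=
  q.Prime ∧ q ≠ 3 ∧ ∃ A : ValuationSubring QB, A.LiesOverPrime q ∧
    ∃ σ ∈ A.inertiaSubgroupIn ℚ, σ ∈ D.galM ∧ D.ρ σ ≠ 1

/-- The product of the bad primes. -/
def Datum.badPart (D : Datum) : ℕ := ∏ᶠ q ∈ {q : ℕ | D.IsBad q}, q

/-- The inertia image at `3` has order at most `2`. -/
def Datum.SplitAtThree (D : Datum) : Prop :=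
  ∀ A : ValuationSubring QB, A.LiesOverPrime 3 → Nat.card ((A.inertiaSubgroupIn ℚ).map D.ρ) ≤ 2

/-- The datum belongs to the curve `W`. -/
def Datum.BelongsTo (D : Datum) (W : WeierstrassCurve ℤ) : Prop :=
  (∀ ℓ : ℕ, ℓ.Prime → W.IsGoodPrimeFor ℓ → ℓ ≠ 3 →
    ∀ A : ValuationSubring QB, A.LiesOverPrime ℓ → (∀ σ ∈ A.inertiaSubgroupIn ℚ, D.ρ σ = 1) ∧
      ∀ σ : GQ, A.IsFrobeniusAt σ ℓ → (D.ρ σ).1.trace = (W.apOfModel ℓ : ZMod 3)) ∧
  ((∃ A : ValuationSubring QB, A.LiesOverPrime 3 ∧
      ∃ x : Submodule.torsionBy ℤ ((W.map (Int.castRingHom ℚ))⁄QB).Point (3 : ℕ),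
        (∀ σ ∈ A.inertiaSubgroupIn ℚ, σ • x = x) ∧ x ≠ 0) → D.SplitAtThree) ∧
  ∀ q : ℕ, ¬ D.IsBad q

end FLTAgent.LanglandsTunnell
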