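import Fermat.Agent.LanglandsTunnell.Basic

/-!
# Elementary two by two matrices

The calculus of `upperUnip` and `diagUnit` shared by the expansion, killing, period and local
modules.
-/

set_option autoImplicit false

noncomputable section

namespace FLTAgent.LanglandsTunnell

open Matrix NumberField

/-- `GL₂(𝔽₃)` has `48` elements. -/
theorem natCard_GL_three : Nat.card (GL (Fin 2) (ZMod 3)) = 48 := by
  rw [Matrix.card_GL_field]; simp [Fin.prod_univ_two, ZMod.card]

variable {R S : Type}

/-- Two by two matrices with equal entries are equal. -/
theorem finTwo_congr {a b c d a' b' c' d' : R} (h1 : a = a') (h2 : b = b')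
    (h3 : c = c') (h4 : d = d') : !![a, b; c, d] = !![a', b'; c', d'] := by
  rw [h1, h2, h3, h4]

variable [CommRing R] [CommRing S]

/-- Unipotent matrices commute with ring maps. -/
theorem map_upperUnip (f : R →+* S) (x : R) :
    GeneralLinearGroup.map f (upperUnip x) = upperUnip (f x) := by
  ext i j
  fin_cases i <;> fin_cases j <;> simp [upperUnip]

/-- Diagonal units commute with ring maps. -/
theorem map_diagUnit (f : R →+* S) (u : Rˣ) :
    GeneralLinearGroup.map f (diagUnit u) = diagUnit (Units.map (f : R →* S) u) := by
  ext i j
  fin_cases i <;> fin_cases j <;> simp [diagUnit]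

/-- The diagonal matrix of `1`. -/
theorem diagUnit_one : diagUnit (1 : Rˣ) = 1 := by
  ext i j
  fin_cases i <;> fin_cases j <;> simp [diagUnit]

/-- A diagonal matrix commutes past a unipotent by scaling it. -/
theorem diagUnit_mul_upperUnip (u : Rˣ) (x : R) :
    diagUnit u * upperUnip x = upperUnip ((u : R) * x) * diagUnit u := by
  ext i j
  fin_cases i <;> fin_cases j <;> simp [upperUnip, diagUnit]

/-- Unipotents with entry in the adelic ideal lie in the principal subgroup. -/
theorem upperUnip_mem_principal {F : Type} [Field F] {n : Ideal (𝓞 F)} {x : AF F}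
    (hx : x ∈ idealAF F n) : upperUnip x ∈ principalSubgroup n := by
  refine ⟨fun i j => ?_, fun i j => ?_⟩ <;> fin_cases i <;> fin_cases j <;>
    simp [upperUnip, hx, neg_mem hx]

end FLTAgent.LanglandsTunnell
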