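import Fermat.Agent.LanglandsTunnell.Datum
import Fermat.Prelude.Def_FLTPrelim_ModularRep
import Fermat.Prelude.Def_Deformations_MatrixRepresentation

/-!
# Statements of the main steps of the weight one construction

Class field theory inputs, the form over the sextic field, cubic descent, period, theta lift and
the statement of Deligne and Serre; `LanglandsTunnell.Assembly` composes their proofs.
-/

set_option autoImplicit false

noncomputable section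

namespace FLTAgent.LanglandsTunnell

open NumberField Matrix CongruenceSubgroup MeasureTheory
open scoped MatrixGroups WeierstrassCurve.Affine

/-! ### Class field theory inputs -/

/-- Reciprocity for characters of order dividing `2`, `3` or `4`, with exact support of the
modulus. -/
def ReciprocitySpec : Prop :=
  ∀ (L : IntermediateField ℚ QB) [NumberField L], IsTotallyComplex L →
    ∀ (m : ℕ), m ∈ ({2, 3, 4} : Finset ℕ) → ∀ χ : L.fixingSubgroup →* ℂˣ,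
      (∀ g, χ g ^ m = 1) →
      (∃ L' : IntermediateField ℚ QB, FiniteDimensional ℚ L' ∧
        ∀ g : L.fixingSubgroup, (∀ x ∈ L', (g : GQ) x = x) → χ g = 1) →
      ∃ (f : Ideal (𝓞 L)) (ψ : Ideal (𝓞 L) → ℂ), f ≠ ⊥ ∧
        (∀ P : Ideal (𝓞 L), P.IsPrime → P ∣ f → ∃ A : ValuationSubring QB,
          (∀ x : 𝓞 L, x ∈ P ↔ ((x : L) : QB) ∈ A.nonunits) ∧
          ∃ (σ : GQ) (hσ : σ ∈ L.fixingSubgroup), σ ∈ A.inertiaSubgroupIn ℚ ∧
            χ ⟨σ, hσ⟩ ≠ 1) ∧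
        (∀ I J, ψ (I * J) = ψ I * ψ J) ∧
        (∀ P : Ideal (𝓞 L), P.IsPrime → P ≠ ⊥ → ¬ P ∣ f →
          ∀ (g : GQ) (hg : g ∈ L.fixingSubgroup), IsFrobOver L P g → ψ P = (χ ⟨g, hg⟩ : ℂ)) ∧
        ∀ a b : 𝓞 L, a ≠ 0 → b ≠ 0 → Ideal.span {a} ⊔ f = ⊤ → a - b ∈ f →
          ψ (Ideal.span {a}) = ψ (Ideal.span {b})

/-- The Hasse norm theorem for cyclic cubic extensions, with congruences in place of local
fields. -/
def HasseNormSpec : Prop :=
  ∀ (L L' : IntermediateField ℚ QB) [NumberField L] [NumberField L'] (_ : L ≤ L') (σ : GQ),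
    (∀ x ∈ L, σ x = x) → (∀ x ∈ L', σ x ∈ L') → (∀ x ∈ L', σ (σ (σ x)) = x) →
    (∀ x ∈ L', σ x = x → x ∈ L) → (∃ x ∈ L', σ x ≠ x) →
    ∀ x : L, x ≠ 0 →
      (∀ v : Ideal (𝓞 L), v.IsPrime → v ≠ ⊥ → ∀ k : ℕ, ∃ y : L', y ≠ 0 ∧
        ∃ a b : 𝓞 L, b ∉ v ∧ a ∈ v ^ k ∧
          ((y : QB) * σ y * σ (σ y) - (x : QB)) * ((b : L) : QB) = (x : QB) * ((a : L) : QB)) →
      ∃ y : L', (y : QB) * σ y * σ (σ y) = (x : QB)

/-! ### The form over `M` -/

/-- Invariance under `Gal(M/E)`. -/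
def GalInvariant {D : Datum} (P : ExtPlaces D) {n : Ideal (𝓞 D.M)}
    (φ : Pt D.M (Fin 3) n → ℂ) : Prop :=
  ∀ (σ : D.M ≃ₐ[ℚ] D.M) (e : Fin 3 ≃ Fin 3), (∀ x, σ (D.incl x) = D.incl x) →
    (∀ i, P.placesM.emb (e i) = (P.placesM.emb i).comp (σ : D.M ≃ₐ[ℚ] D.M).toAlgHom.toRingHom) →
    ∀ (g : GL (Fin 2) (AF D.M)) (Q : Fin 3 → H3),
      φ ((Matrix.GeneralLinearGroup.map
          (mapAF (σ : D.M ≃ₐ[ℚ] D.M).toAlgHom.toRingHom).toRingHom g : FinPt D.M n),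
        fun i => Q (e i)) = φ ((g : FinPt D.M n), Q)

/-- The dihedral form over `M`. -/
def SeedSpec : Prop :=
  ∀ (D : Datum) (P : ExtPlaces D),
    ∃ (k B : ℕ) (φ : Pt D.M (Fin 3) (Ideal.span {((3 ^ k * D.badPart ^ B : ℕ) : 𝓞 D.M)}) → ℂ)
      (a : Ideal (𝓞 D.M) → ℂ),
      IsEigenform P.placesM φ a ∧ GalInvariant P φ ∧
      ((∀ A : ValuationSubring QB, A.LiesOverPrime 3 → LineShape D.ρ A) → k = 0) ∧
      ∀ w : Ideal (𝓞 D.M), w.IsPrime → w ≠ ⊥ →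
        ¬ w ∣ Ideal.span {((3 ^ k * D.badPart ^ B : ℕ) : 𝓞 D.M)} →
        ∀ g, IsFrobOver D.M w g → a w = trLift (D.ρ g)

/-! ### The form over `E` -/

/-- What the descent delivers: nothing is required at places whose Frobenius is outside
`Gal(QB/M)` beyond the reality of the eigenvalue. -/
structure Descended (D : Datum) (P : ExtPlaces D) (N : ℕ)
    (φ : Pt D.E Unit (Ideal.span {(N : 𝓞 D.E)}) → ℂ) (a : Ideal (𝓞 D.E) → ℂ) : Prop where
  ne_zero : N ≠ 0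
  eigen : IsEigenform P.placesE φ a
  squarefree_away : ∀ q : ℕ, q.Prime → q ^ 2 ∣ N → q = 3 ∨ D.IsBad q
  three_not_dvd : D.SplitAtThree → ¬ 3 ∣ N
  three_dvd : ¬ D.SplitAtThree → 3 ∣ N
  real : ∀ v : Ideal (𝓞 D.E), v.IsPrime → v ≠ ⊥ → ¬ v ∣ Ideal.span {(N : 𝓞 D.E)} →
    (a v).im = 0 ∧ ‖a v‖ ≤ Real.sqrt (Ideal.absNorm v) + 1 / Real.sqrt (Ideal.absNorm v)
  splitPlaces : ∀ v : Ideal (𝓞 D.E), v.IsPrime → v ≠ ⊥ → ¬ v ∣ Ideal.span {(N : 𝓞 D.E)} →
    ∀ g, IsFrobOver D.E v g → g ∈ D.galM → a v = trLift (D.ρ g)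

/-- The cubic descent. -/
def DescentSpec : Prop :=
  ∀ (D : Datum) (P : ExtPlaces D), ∃ N φ a, Descended D P N φ a

/-- Invariance under integral diagonal units. -/
def DiagInvariant {F : Type} [Field F] {ι : Type} {n : Ideal (𝓞 F)} (φ : Pt F ι n → ℂ) : Prop :=
  ∀ u : (AF F)ˣ, (u : AF F) ∈ intAF F → ((u⁻¹ : (AF F)ˣ) : AF F) ∈ intAF F →
    ∀ g Q, φ (((g * diagUnit u : GL (Fin 2) (AF F)) : FinPt F n), Q) = φ ((g : FinPt F n), Q)

/-- The point of the plane `z ∈ iℝ` over a point of the upper half plane. -/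
def planePoint (τ : UpperHalfPlane) : H3 where
  z := (Real.sqrt 3 : ℂ) * Complex.I * (τ.re : ℂ)
  t := Real.sqrt 3 * τ.im
  t_pos := mul_pos (Real.sqrt_pos.mpr (by norm_num)) τ.im_pos

/-- The period over the modular curve inside `X_E`. -/
def planePeriod {F : Type} [Field F] (N : ℕ) (φ : Pt F Unit (Ideal.span {(N : 𝓞 F)}) → ℂ) : ℂ :=
  ∑ᶠ q : SL(2, ℤ) ⧸ CongruenceSubgroup.Gamma (3 * N),
    ∫ τ in ModularGroup.fd, φ (((1 : GL (Fin 2) (AF F)) : FinPt F (Ideal.span {(N : 𝓞 F)})),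
      fun _ => planePoint (q.out⁻¹ • τ))

/-- The period is nonzero for a suitable vector. -/
def PeriodSpec : Prop :=
  ∀ (D : Datum) (P : ExtPlaces D) N φ a, Descended D P N φ a →
    ∃ N' φ' a', Descended D P N' φ' a' ∧ DiagInvariant φ' ∧ planePeriod N' φ' ≠ 0

/-! ### Weight one -/

/-- The weight one eigenform attached to the datum. -/
def HasWeightOneForm (D : Datum) : Prop :=
  ∃ (N : ℕ) (_ : NeZero N) (ε : DirichletCharacter ℂ N) (f : CuspForm (Gamma1 N) 1),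
    ModularFormClass.qCoeff f 1 = 1 ∧
    (∀ p : ℕ, p.Prime → ¬ p ∣ N → ∀ n : ℕ,
      ModularFormClass.qCoeff f (p * n) +
          ε (p : ZMod N) * (if p ∣ n then ModularFormClass.qCoeff f (n / p) else 0) =
        ModularFormClass.qCoeff f p * ModularFormClass.qCoeff f n) ∧
    (∀ q : ℕ, q.Prime → q ≠ 3 → ¬ D.IsBad q → ¬ q ^ 3 ∣ N) ∧
    (D.SplitAtThree → ¬ 3 ^ 2 ∣ N) ∧
    ∀ p : ℕ, p.Prime → ¬ p ∣ N → ∀ A : ValuationSubring QB, A.LiesOverPrime p →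
      ∀ σ : GQ, A.IsFrobeniusAt σ p → InQ8 (D.ρ σ) →
        ModularFormClass.qCoeff f p = trLift (D.ρ σ)

/-- The theta lift. -/
def LiftSpec : Prop :=
  ∀ (D : Datum) (P : ExtPlaces D) N φ a, Descended D P N φ a → DiagInvariant φ →
    planePeriod N φ ≠ 0 → HasWeightOneForm D

/-! ### Deligne and Serre, and the conclusion -/

/-- The statement of Deligne and Serre. -/
def DeligneSerreInput : Prop :=
  ∀ (N : ℕ) [NeZero N] (ε : DirichletCharacter ℂ N) (f : CuspForm (Gamma1 N) 1),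
    ModularFormClass.qCoeff f 1 = 1 →
    (∀ p : ℕ, p.Prime → ¬ p ∣ N → ∀ n : ℕ,
        ModularFormClass.qCoeff f (p * n) +
            ε (p : ZMod N) * (if p ∣ n then ModularFormClass.qCoeff f (n / p) else 0) =
          ModularFormClass.qCoeff f p * ModularFormClass.qCoeff f n) →
    ∃ ρ : GQ →* GL (Fin 2) ℂ, GaloisFactorsThroughFiniteLevel ρ ∧
      (Deformation.matrixRepresentation ρ).IsIrreducible ∧
      ∀ p : ℕ, p.Prime → ¬ p ∣ N →
        ∀ A : ValuationSubring QB, A.LiesOverPrime p →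
          (∀ σ ∈ A.inertiaSubgroupIn ℚ, ρ σ = 1) ∧
          ∀ σ : GQ, A.IsFrobeniusAt σ p →
            ((ρ σ : GL (Fin 2) ℂ) : Matrix (Fin 2) (Fin 2) ℂ).trace = ModularFormClass.qCoeff f p ∧
            ((ρ σ : GL (Fin 2) ℂ) : Matrix (Fin 2) (Fin 2) ℂ).det = ε (p : ZMod N)

/-- The conclusion of residual modularity at `3`. -/
def ResiduallyModularThree (W : WeierstrassCurve ℤ) : Prop :=
  ∃ M : ℕ, 0 < M ∧ W.IsResiduallyModularOfLevel 3 M ∧
    (∀ q : ℕ, q.Prime → q ≠ 3 → ¬ q ^ 3 ∣ M) ∧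
    (3 ^ 2 ∣ M →
      ∀ A : ValuationSubring QB, A.LiesOverPrime 3 →
        ∀ x : Submodule.torsionBy ℤ ((W.map (Int.castRingHom ℚ))⁄QB).Point (3 : ℕ),
          (∀ σ ∈ A.inertiaSubgroupIn ℚ, σ • x = x) → x = 0)

end FLTAgent.LanglandsTunnell
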