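import Fermat.Agent.LanglandsTunnell.Isolation.DescentSpec
import Fermat.Agent.LanglandsTunnell.Period.PeriodSpec
import Fermat.Agent.LanglandsTunnell.Lift.Spec
import Fermat.Agent.WeightOneWiring.DatumOfCurve
import Fermat.Agent.WeightOneWiring.Endgame
import Fermat.Agent.WeightOneWiring.Places
import Fermat.Agent.DeligneSerre.Final

/-!
# The weight one form of a datum and residual modularity at `3`

Cubic descent, period and theta lift give every datum a weight one form; the theorem of Deligne
and Serre turns the form into residual modularity at `3`.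
-/

set_option autoImplicit false

noncomputable section

open WeierstrassCurve WeierstrassCurve.Affine WeierstrassCurve.Affine.Point
open scoped WeierstrassCurve.Affine
open WeierstrassCurve

namespace FLTAgent.LanglandsTunnell

/-- The theorem of Deligne and Serre. -/
theorem deligneSerreInput : DeligneSerreInput := fun N _ ε f h1 hT =>
  FLTAgent.DeligneSerre.exists_galoisRep_weightOne N ε f h1 hT

/-- Every datum has a weight one form: cubic descent, period, theta lift. -/
theorem exists_weightOneForm (D : Datum) : HasWeightOneForm D := by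
  obtain ⟨P⟩ := WeightOneWiring.nonempty_extPlaces D
  obtain ⟨N, φ, a, h⟩ := LanglandsTunnell.Isolation.descentSpec D P
  obtain ⟨N', φ', a', h', hdiag, hne⟩ := LanglandsTunnell.Period.periodSpec D P N φ a h
  exact LanglandsTunnell.Lift.liftSpec D P N' φ' a' h' hdiag hne

/-- Residual modularity at `3`. -/
theorem residual_three (W : WeierstrassCurve ℤ) (hΔ : W.Δ ≠ 0) (hW : W.IsSemistableModel)
    (h3 : W.ModRepIsIrreducible 3) :
    ∃ M : ℕ, 0 < M ∧ W.IsResiduallyModularOfLevel 3 M ∧
      (∀ q : ℕ, q.Prime → q ≠ 3 → ¬ q ^ 3 ∣ M) ∧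
      (3 ^ 2 ∣ M →
        ∀ A : ValuationSubring (AlgebraicClosure ℚ), A.LiesOverPrime 3 →
          ∀ x : Submodule.torsionBy ℤ
              ((W.map (Int.castRingHom ℚ))⁄(AlgebraicClosure ℚ)).Point (3 : ℕ),
            (∀ σ ∈ A.inertiaSubgroupIn ℚ, σ • x = x) → x = 0) := by
  obtain ⟨D, hD⟩ := WeightOneWiring.exists_datum W hΔ hW h3
  exact WeightOneWiring.residuallyModularThree deligneSerreInput hD (exists_weightOneForm D)

end FLTAgent.LanglandsTunnell

end
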