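import Fermat.Agent.LanglandsTunnell.AdelicUnits
import Fermat.Agent.LanglandsTunnell.Matrices

/-!
# Strong approximation and the decomposition of `GL(2)` of the finite adeles

`SL(2, F)` is dense, every element of `GL(2, AF)` is a rational matrix times `diag(t, 1)` times an
element of the congruence subgroup, and every coset is a rational translate of `diag(t, 1)` for
`t` the idele of an ideal prime to `n` (`exists_smul_diagUnit`).
-/

set_option autoImplicit false
set_option linter.unusedSectionVars false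

noncomputable section

namespace FLTAgent.LanglandsTunnell

open scoped TensorProduct
open NumberField

/-- Determinant one two by two matrices. -/
abbrev SL2R (R : Type) [CommRing R] : Type := Matrix.SpecialLinearGroup (Fin 2) R

section Elementary

variable {R : Type} [CommRing R]

/-- Upper elementary matrix. -/
def sUpper (x : R) : SL2R R := ⟨!![1, x; 0, 1], by simp [Matrix.det_fin_two]⟩

/-- Lower elementary matrix. -/
def sLower (x : R) : SL2R R := ⟨!![1, 0; x, 1], by simp [Matrix.det_fin_two]⟩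

theorem sUpper_val (x : R) : (sUpper x).1 = !![1, x; 0, 1] := rfl

theorem sLower_val (x : R) : (sLower x).1 = !![1, 0; x, 1] := rfl

/-- Lower unipotent matrix. -/
def lowerUnip (x : R) : GL (Fin 2) R := Matrix.SpecialLinearGroup.toGL (sLower x)

@[simp] theorem lowerUnip_val (x : R) : (lowerUnip x).1 = !![1, 0; x, 1] := rfl

theorem map_sUpper {S : Type} [CommRing S] (f : R →+* S) (x : R) :
    Matrix.SpecialLinearGroup.map f (sUpper x) = sUpper (f x) := by
  apply Subtype.ext
  show (sUpper x).1.map f = (sUpper (f x)).1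
  ext i j; fin_cases i <;> fin_cases j <;> simp [sUpper_val]

theorem map_sLower {S : Type} [CommRing S] (f : R →+* S) (x : R) :
    Matrix.SpecialLinearGroup.map f (sLower x) = sLower (f x) := by
  apply Subtype.ext
  show (sLower x).1.map f = (sLower (f x)).1
  ext i j; fin_cases i <;> fin_cases j <;> simp [sLower_val]

theorem sUpper_mul (x y : R) : sUpper x * sUpper y = sUpper (x + y) := by
  apply Subtype.ext
  show (sUpper x).1 * (sUpper y).1 = (sUpper (x + y)).1
  simp only [sUpper_val, Matrix.mul_fin_two]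
  ext i j; fin_cases i <;> fin_cases j <;> simp [add_comm]

theorem sLower_mul (x y : R) : sLower x * sLower y = sLower (x + y) := by
  apply Subtype.ext
  show (sLower x).1 * (sLower y).1 = (sLower (x + y)).1
  simp only [sLower_val, Matrix.mul_fin_two]
  ext i j; fin_cases i <;> fin_cases j <;> simp [add_comm]

variable (R) in
/-- The monoid generated by elementary matrices. -/
def elemGen : Submonoid (SL2R R) :=
  Submonoid.closure (Set.range sUpper ∪ Set.range sLower)

theorem sUpper_mem (x : R) : sUpper x ∈ elemGen R :=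
  Submonoid.subset_closure (Or.inl ⟨x, rfl⟩)

theorem sLower_mem (x : R) : sLower x ∈ elemGen R :=
  Submonoid.subset_closure (Or.inr ⟨x, rfl⟩)

theorem weylUnit_val {u v : R} (h : u * v = 1) :
    (sUpper u * sLower (-v) * sUpper u).1 = !![0, u; -v, 0] := by
  show (sUpper u).1 * (sLower (-v)).1 * (sUpper u).1 = _
  simp only [sUpper_val, sLower_val, Matrix.mul_fin_two]
  ext i j
  fin_cases i <;> fin_cases j <;> simp
  · linear_combination -h
  · linear_combination -u * h
  · linear_combination -h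

/-- A matrix with invertible upper left entry is a product of elementary matrices. -/
theorem mem_elemGen_of_isUnit (g : SL2R R) (h : IsUnit (g.1 0 0)) : g ∈ elemGen R := by
  obtain ⟨u, hu⟩ := h
  have hdet : g.1 0 0 * g.1 1 1 - g.1 0 1 * g.1 1 0 = 1 := by
    rw [← Matrix.det_fin_two]; exact g.2
  rw [← hu] at hdet
  set v : R := ((u⁻¹ : Rˣ) : R) with hv
  have h1 : (u : R) * v = 1 := u.mul_inv
  have e : g = sLower (g.1 1 0 * v) * ((sUpper (u : R) * sLower (-v) * sUpper (u : R)) *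
      (sUpper (-1 : R) * sLower (-(-1 : R)) * sUpper (-1 : R))) * sUpper (v * g.1 0 1) := by
    apply Subtype.ext
    show g.1 = (sLower (g.1 1 0 * v)).1 * ((sUpper (u : R) * sLower (-v) * sUpper (u : R)).1 *
      (sUpper (-1 : R) * sLower (-(-1 : R)) * sUpper (-1 : R)).1) * (sUpper (v * g.1 0 1)).1
    rw [weylUnit_val h1, weylUnit_val (u := (-1 : R)) (v := -1) (by simp)]
    simp only [sUpper_val, sLower_val, Matrix.mul_fin_two]
    ext i j
    fin_cases i <;> fin_cases j <;> simp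
    · linear_combination -hu
    · linear_combination -g.1 0 1 * h1
    · linear_combination -g.1 1 0 * h1
    · linear_combination v * hdet - (g.1 1 1 + v * g.1 0 1 * g.1 1 0) * h1
  rw [e]
  exact mul_mem (mul_mem (sLower_mem _) (mul_mem (mul_mem (mul_mem (sUpper_mem _) (sLower_mem _))
    (sUpper_mem _)) (mul_mem (mul_mem (sUpper_mem _) (sLower_mem _)) (sUpper_mem _))))
    (sUpper_mem _)

/-- Stable range one for finite rings. -/
theorem exists_isUnit_add_mul [Finite R] {a c : R} (h : Ideal.span {a, c} = ⊤) :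
    ∃ x : R, IsUnit (a + x * c) := by
  classical
  have : Finite (Ideal R) := Finite.of_injective ((↑) : Ideal R → Set R) SetLike.coe_injective
  let I : {m : Ideal R // m.IsMaximal} → Ideal R := Subtype.val
  obtain ⟨x, hx⟩ := Ideal.exists_forall_sub_mem_ideal (I := I)
    (fun i j hij => haveI := i.2; haveI := j.2; Ideal.isCoprime_of_isMaximal (I := i.1) (J := j.1)
      (fun h => hij (Subtype.ext h)))
    (fun m => if a ∈ m.1 then (1 : R) else 0)
  refine ⟨x, by_contra fun hu => ?_⟩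
  obtain ⟨m, hm, hmem⟩ := exists_max_ideal_of_mem_nonunits hu
  have h1 := hx ⟨m, hm⟩
  simp only [I] at h1
  by_cases ha : a ∈ m
  · rw [if_pos ha] at h1
    have hxc : x * c ∈ m := by simpa using sub_mem hmem ha
    have hc : c ∈ m := by
      have : c = x * c - (x - 1) * c := by ring
      rw [this]
      exact sub_mem hxc (Ideal.mul_mem_right _ _ h1)
    exact hm.ne_top (top_le_iff.mp (h ▸ Ideal.span_le.mpr (by
      rintro y (rfl | rfl) <;> assumption)))
  · rw [if_neg ha, sub_zero] at h1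
    exact ha (by simpa using sub_mem hmem (Ideal.mul_mem_right c _ h1))

/-- Over a finite ring elementary matrices generate. -/
theorem elemGen_eq_top [Finite R] : elemGen R = ⊤ := by
  refine eq_top_iff.mpr fun g _ => ?_
  have hdet : g.1 0 0 * g.1 1 1 - g.1 0 1 * g.1 1 0 = 1 := by
    rw [← Matrix.det_fin_two]; exact g.2
  have h : Ideal.span {g.1 0 0, g.1 1 0} = ⊤ := by
    have h1 : g.1 0 0 * g.1 1 1 - g.1 0 1 * g.1 1 0 ∈ Ideal.span {g.1 0 0, g.1 1 0} :=
      sub_mem (Ideal.mul_mem_right _ _ (Ideal.subset_span (by simp)))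
        (Ideal.mul_mem_left _ _ (Ideal.subset_span (by simp)))
    rw [hdet] at h1
    exact (Ideal.eq_top_iff_one _).mpr h1
  obtain ⟨x, hx⟩ := exists_isUnit_add_mul h
  have hg : sUpper x * g ∈ elemGen R := mem_elemGen_of_isUnit _ (by
    show IsUnit (((sUpper x).1 * g.1) 0 0)
    simpa [sUpper_val, Matrix.mul_apply, Fin.sum_univ_two] using hx)
  have : g = sUpper (-x) * (sUpper x * g) := by
    rw [← mul_assoc, sUpper_mul, neg_add_cancel,
      show sUpper (0 : R) = 1 from Subtype.ext (Matrix.one_fin_two (α := R)).symm, one_mul]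
  rw [this]
  exact mul_mem (sUpper_mem _) hg

/-- Reduction `SL(2)` is surjective onto a finite quotient. -/
theorem map_SL2_surjective {S : Type} [CommRing S] [Finite S] (f : R →+* S)
    (hf : Function.Surjective f) :
    Function.Surjective (Matrix.SpecialLinearGroup.map (n := Fin 2) f) := by
  intro g
  have hg : g ∈ elemGen S := by rw [elemGen_eq_top]; trivial
  suffices elemGen S ≤ MonoidHom.mrange (Matrix.SpecialLinearGroup.map (n := Fin 2) f) from this hg
  refine Submonoid.closure_le.mpr ?_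
  rintro _ (⟨x, rfl⟩ | ⟨x, rfl⟩) <;> obtain ⟨y, rfl⟩ := hf x
  · exact ⟨sUpper y, map_sUpper f y⟩
  · exact ⟨sLower y, map_sLower f y⟩

end Elementary

variable {F : Type} [Field F] [NumberField F] {n : Ideal (𝓞 F)}

/-! ### Congruence subgroups -/

theorem toGL_mem_principalSubgroup (g : SL2R (AF F)) (h : CongrOne n g.1) :
    Matrix.SpecialLinearGroup.toGL g ∈ principalSubgroup n := by
  refine ⟨h, ?_⟩
  rw [← map_inv, show ((Matrix.SpecialLinearGroup.toGL g⁻¹ : GL (Fin 2) (AF F)) :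
    Matrix (Fin 2) (Fin 2) (AF F)) = (g⁻¹).1 from rfl, Matrix.SpecialLinearGroup.coe_inv,
    Matrix.adjugate_fin_two]
  intro i j
  fin_cases i <;> fin_cases j
  · simpa using h 1 1
  · simpa using neg_mem (h 0 1)
  · simpa using neg_mem (h 1 0)
  · simpa using h 0 0

theorem sUpper_mem_principalSubgroup {x : AF F} (hx : x ∈ idealAF F n) :
    Matrix.SpecialLinearGroup.toGL (sUpper x) ∈ principalSubgroup n := by
  refine toGL_mem_principalSubgroup _ fun i j => ?_
  fin_cases i <;> fin_cases j <;> simp [sUpper, hx]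

theorem sLower_mem_principalSubgroup {x : AF F} (hx : x ∈ idealAF F n) :
    Matrix.SpecialLinearGroup.toGL (sLower x) ∈ principalSubgroup n := by
  refine toGL_mem_principalSubgroup _ fun i j => ?_
  fin_cases i <;> fin_cases j <;> simp [sLower, hx]

/-- A diagonal unit congruent to one lies in the principal subgroup. -/
theorem diagUnit_mem_principalSubgroup {u : (AF F)ˣ} (h1 : (u : AF F) - 1 ∈ idealAF F n)
    (h2 : ((u⁻¹ : (AF F)ˣ) : AF F) - 1 ∈ idealAF F n) : diagUnit u ∈ principalSubgroup n := by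
  refine ⟨fun i j => ?_, fun i j => ?_⟩
  · fin_cases i <;> fin_cases j <;> simp [diagUnit, h1]
  · show (!![((u⁻¹ : (AF F)ˣ) : AF F), 0; 0, 1] - 1 : Matrix (Fin 2) (Fin 2) (AF F)) i j ∈ _
    fin_cases i <;> fin_cases j <;> simp [h2]

/-- Diagonal units multiply. -/
theorem diagUnit_mul {R : Type} [CommRing R] (u v : Rˣ) :
    diagUnit (u * v) = diagUnit u * diagUnit v := by
  ext i j
  fin_cases i <;> fin_cases j <;> simp [diagUnit]

/-- An adele in the ideal `N n` is `N` times one in `n`. -/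
theorem idealAF_span_natCast_mul {N : ℕ} {x : AF F}
    (hx : x ∈ idealAF F (Ideal.span {(N : 𝓞 F)} * n)) :
    ∃ w ∈ idealAF F n, x = (N : AF F) * w := by
  obtain ⟨y, hy, rfl⟩ := mem_idealAF.mp hx
  rw [idealOH, Ideal.map_mul, Ideal.map_span, Set.image_singleton, map_natCast] at hy
  obtain ⟨z, hz, rfl⟩ := Ideal.mem_span_singleton_mul.mp hy
  exact ⟨intHom F z, ⟨z, hz, rfl⟩, by rw [map_mul, intHom_natCast]⟩

theorem exists_natCast_mul_mem_intAF_finset {κ : Type} (s : Finset κ) (x : κ → AF F) :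
    ∃ N : ℕ, N ≠ 0 ∧ ∀ i ∈ s, (N : AF F) * x i ∈ intAF F := by
  classical
  induction s using Finset.induction_on with
  | empty => exact ⟨1, one_ne_zero, by simp⟩
  | insert i s _ ih =>
    obtain ⟨N, hN, hNs⟩ := ih
    obtain ⟨M, hM, hMi⟩ := exists_natCast_mul_mem_intAF (x i)
    refine ⟨N * M, mul_ne_zero hN hM, fun j hj => ?_⟩
    rw [Nat.cast_mul]
    rcases Finset.mem_insert.mp hj with rfl | hj
    · rw [mul_assoc]; exact mul_mem (natCast_mem _ N) hMi
    · rw [mul_right_comm]; exact mul_mem (hNs j hj) (natCast_mem _ M)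

/-- Congruence subgroups are cofinal among conjugates. -/
theorem exists_conj_mem (g : GL (Fin 2) (AF F)) (hn : n ≠ ⊥) :
    ∃ m : Ideal (𝓞 F), m ≠ ⊥ ∧ ∀ k ∈ principalSubgroup m, g⁻¹ * k * g ∈ principalSubgroup n := by
  obtain ⟨N, hN, hNg⟩ := exists_natCast_mul_mem_intAF_finset
    (Finset.univ : Finset ((Fin 2 × Fin 2) ⊕ (Fin 2 × Fin 2)))
    (Sum.elim (fun p => g.1 p.1 p.2) (fun p => (g⁻¹).1 p.1 p.2))
  have h1 : ∀ i j, (N : AF F) * g.1 i j ∈ intAF F := fun i j =>
    hNg (Sum.inl (i, j)) (Finset.mem_univ _)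
  have h2 : ∀ i j, (N : AF F) * (g⁻¹).1 i j ∈ intAF F := fun i j =>
    hNg (Sum.inr (i, j)) (Finset.mem_univ _)
  refine ⟨Ideal.span {((N * N : ℕ) : 𝓞 F)} * n, mul_ne_zero (by simpa using hN) hn, ?_⟩
  have key : ∀ k : Matrix (Fin 2) (Fin 2) (AF F),
      CongrOne (Ideal.span {((N * N : ℕ) : 𝓞 F)} * n) k → CongrOne n ((g⁻¹).1 * k * g.1) := by
    intro k hk i j
    have e : (g⁻¹).1 * k * g.1 - 1 = (g⁻¹).1 * (k - 1) * g.1 := by
      rw [Matrix.mul_sub, Matrix.sub_mul, Matrix.mul_one, ← Units.val_mul, inv_mul_cancel]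
      rfl
    rw [e, Matrix.mul_apply]
    refine sum_mem fun l _ => ?_
    rw [Matrix.mul_apply, Finset.sum_mul]
    refine sum_mem fun l' _ => ?_
    obtain ⟨w, hw, hkw⟩ := idealAF_span_natCast_mul (hk l' l)
    rw [hkw, Nat.cast_mul, show (g⁻¹).1 i l' * ((N : AF F) * N * w) * g.1 l j =
      ((N : AF F) * (g⁻¹).1 i l') * ((N : AF F) * g.1 l j) * w by ring]
    exact mul_mem_idealAF_left (mul_mem (h2 i l') (h1 l j)) hw
  intro k hk
  refine ⟨key _ hk.1, ?_⟩
  rw [show (g⁻¹ * k * g)⁻¹ = g⁻¹ * k⁻¹ * g by group]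
  exact key _ hk.2

/-! ### Strong approximation -/

/-- `g` lies in the closure of `SL(2, F)`. -/
def InSLClosure (g : GL (Fin 2) (AF F)) : Prop :=
  ∀ m : Ideal (𝓞 F), m ≠ ⊥ → ∃ (γ : SL2R F) (k : GL (Fin 2) (AF F)), k ∈ principalSubgroup m ∧
    g = Matrix.SpecialLinearGroup.toGL (Matrix.SpecialLinearGroup.map (toAF F) γ) * k

theorem InSLClosure.one : InSLClosure (F := F) (1 : GL (Fin 2) (AF F)) := fun _ _ =>
  ⟨1, 1, one_mem _, by simp⟩

theorem InSLClosure.mul {g h : GL (Fin 2) (AF F)} (hg : InSLClosure g) (hh : InSLClosure h) :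
    InSLClosure (g * h) := by
  intro m hm
  obtain ⟨δ, k₂, hk₂, rfl⟩ := hh m hm
  set d := Matrix.SpecialLinearGroup.toGL (Matrix.SpecialLinearGroup.map (toAF F) δ) with hd
  obtain ⟨m', hm', hconj⟩ := exists_conj_mem d hm
  obtain ⟨γ, k₁, hk₁, rfl⟩ := hg m' hm'
  refine ⟨γ * δ, d⁻¹ * k₁ * d * k₂, mul_mem (hconj _ hk₁) hk₂, ?_⟩
  rw [map_mul, map_mul, ← hd]
  group

theorem inSLClosure_sUpper (x : AF F) :
    InSLClosure (F := F) (Matrix.SpecialLinearGroup.toGL (sUpper x)) := by
  intro m hm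
  obtain ⟨f, hf⟩ := exists_sub_mem_idealAF hm x
  refine ⟨sUpper f, _, sUpper_mem_principalSubgroup hf, ?_⟩
  rw [map_sUpper, ← map_mul, sUpper_mul, add_sub_cancel]

theorem inSLClosure_sLower (x : AF F) :
    InSLClosure (F := F) (Matrix.SpecialLinearGroup.toGL (sLower x)) := by
  intro m hm
  obtain ⟨f, hf⟩ := exists_sub_mem_idealAF hm x
  refine ⟨sLower f, _, sLower_mem_principalSubgroup hf, ?_⟩
  rw [map_sLower, ← map_mul, sLower_mul, add_sub_cancel]

theorem inSLClosure_of_mem_elemGen {g : SL2R (AF F)} (hg : g ∈ elemGen (AF F)) :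
    InSLClosure (F := F) (Matrix.SpecialLinearGroup.toGL g) := by
  induction hg using Submonoid.closure_induction with
  | mem x hx =>
    rcases hx with ⟨y, rfl⟩ | ⟨y, rfl⟩
    · exact inSLClosure_sUpper y
    · exact inSLClosure_sLower y
  | one => rw [map_one]; exact InSLClosure.one
  | mul x y _ _ hx hy => rw [map_mul]; exact hx.mul hy

theorem inSLClosure_intSL (k : SL2R (OH F)) :
    InSLClosure (F := F) (Matrix.SpecialLinearGroup.toGL
      (Matrix.SpecialLinearGroup.map (intHom F).toRingHom k)) := by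
  intro m hm
  have : NeZero (Ideal.absNorm m) := ⟨absNorm_ne_zero hm⟩
  have : Finite (𝓞 F ⧸ m) := Ideal.finiteQuotientOfFreeOfNeBot m hm
  let res : OH F →+* 𝓞 F ⧸ m := (residueOH m _ (Ideal.absNorm_mem m)).toRingHom
  obtain ⟨γ, hγ⟩ := map_SL2_surjective (Ideal.Quotient.mk m) Ideal.Quotient.mk_surjective
    (Matrix.SpecialLinearGroup.map res k)
  let ι : 𝓞 F →+* OH F := Algebra.TensorProduct.includeLeftRingHom
  set k' := (Matrix.SpecialLinearGroup.map ι γ)⁻¹ * k with hk'
  have hres : Matrix.SpecialLinearGroup.map res k' = 1 := by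
    have : Matrix.SpecialLinearGroup.map res (Matrix.SpecialLinearGroup.map ι γ) =
        Matrix.SpecialLinearGroup.map (Ideal.Quotient.mk m) γ := by
      apply Subtype.ext
      ext i j
      exact residueOH_tmul_one m _ (Ideal.absNorm_mem m) (γ.1 i j)
    rw [hk', map_mul, map_inv, this, hγ, inv_mul_cancel]
  refine ⟨Matrix.SpecialLinearGroup.map (algebraMap (𝓞 F) F) γ,
    Matrix.SpecialLinearGroup.toGL (Matrix.SpecialLinearGroup.map (intHom F).toRingHom k'),
    toGL_mem_principalSubgroup _ fun i j => ?_, ?_⟩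
  · have hkey : (k'.1 - 1 : Matrix (Fin 2) (Fin 2) (OH F)) i j ∈ idealOH m := by
      rw [← ker_residueOH m _ (Ideal.absNorm_mem m), RingHom.mem_ker, Matrix.sub_apply, map_sub]
      have h1 : res (k'.1 i j) = (1 : Matrix (Fin 2) (Fin 2) (𝓞 F ⧸ m)) i j :=
        congrFun (congrFun (congrArg Subtype.val hres) i) j
      show res (k'.1 i j) - res ((1 : Matrix (Fin 2) (Fin 2) (OH F)) i j) = 0
      rw [h1, Matrix.one_apply, Matrix.one_apply, apply_ite res, map_one, map_zero, sub_self]
    refine ⟨_, hkey, ?_⟩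
    show (intHom F) ((k'.1 - 1) i j) = _
    rw [Matrix.sub_apply, map_sub, Matrix.sub_apply, Matrix.one_apply, Matrix.one_apply,
      apply_ite (intHom F), map_one, map_zero]
    rfl
  · rw [← map_mul]
    congr 1
    have : k = Matrix.SpecialLinearGroup.map ι γ * k' := by rw [hk', mul_inv_cancel_left]
    conv_lhs => rw [this, map_mul]
    congr 1

/-- `SL(2, AF)` is the triangular matrices times `SL(2, 𝓞 F ⊗ Ẑ)`. -/
theorem exists_intSL_mul_upper (g : SL2R (AF F)) :
    ∃ k : SL2R (OH F),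
      (g * (Matrix.SpecialLinearGroup.map (intHom F).toRingHom k)⁻¹).1 1 0 = 0 := by
  obtain ⟨M, hM, hMg⟩ := exists_natCast_mul_mem_intAF_finset
    (Finset.univ : Finset (Fin 2 × Fin 2)) (fun p => g.1 p.1 p.2)
  choose z hz using fun i j => mem_intAF.mp (hMg (i, j) (Finset.mem_univ _))
  have hdet : g.1 0 0 * g.1 1 1 - g.1 0 1 * g.1 1 0 = 1 := by
    rw [← Matrix.det_fin_two]; exact g.2
  set I : Ideal (OH F) := Ideal.span {z 1 0, z 1 1} with hI
  have hMI : ((M * M : ℕ) : OH F) ∈ I := by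
    refine Ideal.mem_span_pair.mpr ⟨-z 0 1, z 0 0, intHom_injective ?_⟩
    rw [map_add, map_mul, map_mul, map_neg, hz, hz, hz, hz, intHom_natCast, Nat.cast_mul]
    linear_combination (M : AF F) * (M : AF F) * hdet
  set J := I.comap (Algebra.TensorProduct.includeLeftRingHom : 𝓞 F →+* OH F) with hJ
  have hMM : M * M ≠ 0 := mul_ne_zero hM hM
  have hJ0 : J ≠ ⊥ := by
    intro h
    have : ((M * M : ℕ) : 𝓞 F) ∈ J := by rw [hJ, Ideal.mem_comap, map_natCast]; exact hMI
    rw [h, Ideal.mem_bot, Nat.cast_eq_zero] at this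
    exact hMM this
  obtain ⟨y, hy, hyI⟩ := exists_idealOH_eq_span hJ0
  rw [idealOH_comap hMM hMI] at hyI
  obtain ⟨c₁, hc⟩ := Ideal.mem_span_singleton'.mp
    (show z 1 0 ∈ Ideal.span {y} from hyI ▸ Ideal.subset_span (by simp))
  obtain ⟨d₁, hd⟩ := Ideal.mem_span_singleton'.mp
    (show z 1 1 ∈ Ideal.span {y} from hyI ▸ Ideal.subset_span (by simp))
  obtain ⟨u, v, huv⟩ := Ideal.mem_span_pair.mp
    (show y ∈ I from hyI.symm ▸ Ideal.mem_span_singleton_self y)
  have huv1 : u * c₁ + v * d₁ = 1 := by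
    refine intHom_injective (hy.mul_left_cancel ?_)
    rw [← map_mul, ← map_mul]
    congr 1
    linear_combination u * hc + v * hd + huv
  let k : SL2R (OH F) := ⟨!![v, -u; c₁, d₁], by rw [Matrix.det_fin_two_of]; linear_combination huv1⟩
  refine ⟨k, ?_⟩
  rw [Matrix.SpecialLinearGroup.coe_mul, Matrix.SpecialLinearGroup.coe_inv,
    Matrix.adjugate_fin_two, Matrix.mul_apply, Fin.sum_univ_two]
  have h10 : (M : AF F) * g.1 1 0 = intHom F c₁ * intHom F y := by rw [← map_mul, hc, hz]
  have h11 : (M : AF F) * g.1 1 1 = intHom F d₁ * intHom F y := by rw [← map_mul, hd, hz]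
  refine (isUnit_natCast_AF hM).mul_left_cancel ?_
  show (M : AF F) * (g.1 1 0 * intHom F (k.1 1 1) + g.1 1 1 * -intHom F (k.1 1 0)) = (M : AF F) * 0
  simp only [k, Matrix.of_apply, Matrix.cons_val', Matrix.cons_val_zero, Matrix.cons_val_one,
    Matrix.empty_val', Matrix.cons_val_fin_one, mul_zero]
  linear_combination intHom F d₁ * h10 - intHom F c₁ * h11

/-- **Strong approximation**: `SL(2, F)` is dense in `SL(2, AF)`. -/
theorem inSLClosure_toGL (g : SL2R (AF F)) :
    InSLClosure (F := F) (Matrix.SpecialLinearGroup.toGL g) := by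
  obtain ⟨k, hk⟩ := exists_intSL_mul_upper g
  set K := Matrix.SpecialLinearGroup.map (intHom F).toRingHom k
  have hu : IsUnit ((g * K⁻¹).1 0 0) := by
    have hdet : (g * K⁻¹).1 0 0 * (g * K⁻¹).1 1 1 - (g * K⁻¹).1 0 1 * (g * K⁻¹).1 1 0 = 1 := by
      rw [← Matrix.det_fin_two]; exact (g * K⁻¹).2
    rw [hk, mul_zero, sub_zero] at hdet
    exact IsUnit.of_mul_eq_one _ hdet
  have h := (inSLClosure_of_mem_elemGen (mem_elemGen_of_isUnit _ hu)).mul (inSLClosure_intSL k)
  rwa [← map_mul, inv_mul_cancel_right] at h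

theorem det_diagUnit {R : Type} [CommRing R] (u : Rˣ) :
    Matrix.GeneralLinearGroup.det (diagUnit u) = u := by
  apply Units.ext
  rw [Matrix.GeneralLinearGroup.val_det_apply]
  simp [diagUnit, Matrix.det_fin_two]

theorem exists_eq_toGL {R : Type} [CommRing R] (h : GL (Fin 2) R)
    (hh : Matrix.GeneralLinearGroup.det h = 1) :
    ∃ s : SL2R R, Matrix.SpecialLinearGroup.toGL s = h :=
  ⟨⟨h.1, by rw [← Matrix.GeneralLinearGroup.val_det_apply, hh, Units.val_one]⟩, Units.ext rfl⟩

theorem toGL_map {R S : Type} [CommRing R] [CommRing S] (f : R →+* S) (s : SL2R R) :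
    Matrix.SpecialLinearGroup.toGL (Matrix.SpecialLinearGroup.map f s) =
      Matrix.GeneralLinearGroup.map f (Matrix.SpecialLinearGroup.toGL s) := by
  ext i j
  rfl

theorem group_decomp {G : Type} [Group G] (A B g : G) (h : G) (hh : A⁻¹ * g * B⁻¹ = h) :
    g = A * h * B := by
  rw [← hh]; group

/-- `GL(2, AF) = GL(2, F) · diag(t, 1) · K(n)` with `t` congruent to `1` modulo `n`. -/
theorem exists_map_mul_diagUnit (hn : n ≠ ⊥) (g : GL (Fin 2) (AF F)) :
    ∃ (γ : GL (Fin 2) F) (J : Ideal (𝓞 F)) (t : (AF F)ˣ) (k : GL (Fin 2) (AF F)),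
      J ≠ ⊥ ∧ J ⊔ n = ⊤ ∧ IsUniformizerAt n J t ∧ k ∈ principalSubgroup n ∧
        g = Matrix.GeneralLinearGroup.map (toAF F) γ * diagUnit t * k := by
  obtain ⟨f, J, t, hJ, hJn, ht, hdet⟩ := exists_eq_toAF_mul hn (Matrix.GeneralLinearGroup.det g)
  obtain ⟨m, hm, hconj⟩ := exists_conj_mem (F := F) (diagUnit t) hn
  have hh1 : Matrix.GeneralLinearGroup.det
      ((diagUnit (Units.map (toAF F : F →* AF F) f))⁻¹ * g * (diagUnit t)⁻¹) = 1 := by
    simp only [map_mul, map_inv, det_diagUnit, hdet]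
    group
  obtain ⟨s, hs⟩ := exists_eq_toGL _ hh1
  obtain ⟨γ, k, hk, hγ⟩ := inSLClosure_toGL s m hm
  rw [toGL_map] at hγ
  refine ⟨diagUnit f * Matrix.SpecialLinearGroup.toGL γ, J, t,
    (diagUnit t)⁻¹ * k * diagUnit t, hJ, hJn, ht, hconj k hk, ?_⟩
  rw [group_decomp _ _ g _ hs.symm, hγ, map_mul, map_diagUnit]
  group

/-- Every coset is a translate of a diagonal one. -/
theorem exists_smul_diagUnit (hn : n ≠ ⊥) (v : FinPt F n) :
    ∃ (γ : GL (Fin 2) F) (J : Ideal (𝓞 F)) (t : (AF F)ˣ), J ≠ ⊥ ∧ J ⊔ n = ⊤ ∧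
      IsUniformizerAt n J t ∧
      v = Matrix.GeneralLinearGroup.map (toAF F) γ • (diagUnit t : FinPt F n) := by
  obtain ⟨g, rfl⟩ := QuotientGroup.mk_surjective v
  obtain ⟨γ, J, t, k, hJ, hJn, ht, hk, rfl⟩ := exists_map_mul_diagUnit hn g
  exact ⟨γ, J, t, hJ, hJn, ht, QuotientGroup.mk_mul_of_mem _ (Subgroup.mem_sup_left hk)⟩

end FLTAgent.LanglandsTunnell
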