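import Fermat.Agent.LanglandsTunnell.AdelicGroup

/-!
# Hecke neighbours

At a prime `w` not dividing `n` the neighbours of a coset are given by `N(w) + 1` explicit
representatives (`nbrs_eq_range`).
-/

set_option autoImplicit false
set_option linter.unusedSectionVars false

noncomputable section

namespace FLTAgent.LanglandsTunnell

open scoped TensorProduct
open NumberField

variable {F : Type} [Field F] [NumberField F] {n w : Ideal (𝓞 F)}

theorem commGroup_conj {G : Type} [CommGroup G] (a b : G) : a⁻¹ * b * a = b := by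
  rw [mul_right_comm, inv_mul_cancel, one_mul]

/-- The determinant in coordinates. -/
theorem det_eq_GLdet {R : Type} [CommRing R] (g : GL (Fin 2) R) :
    g.1 0 0 * g.1 1 1 - g.1 0 1 * g.1 1 0 = (Matrix.GeneralLinearGroup.det g : R) := by
  rw [Matrix.GeneralLinearGroup.val_det_apply, Matrix.det_fin_two]

theorem inv_val_fin_two {R : Type} [CommRing R] (g : GL (Fin 2) R) :
    (g⁻¹ : GL (Fin 2) R).1 = ((Matrix.GeneralLinearGroup.det g)⁻¹ : Rˣ).1 •
      !![g.1 1 1, -g.1 0 1; -g.1 1 0, g.1 0 0] := by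
  have h := det_eq_GLdet g
  have h1 : ((Matrix.GeneralLinearGroup.det g)⁻¹ : Rˣ).1 *
      (Matrix.GeneralLinearGroup.det g : R) = 1 := Units.inv_mul _
  rw [← h] at h1
  refine left_inv_eq_right_inv (a := g.1) g.inv_mul ?_
  generalize ((Matrix.GeneralLinearGroup.det g)⁻¹ : Rˣ).1 = v at h1 ⊢
  rw [Matrix.mul_smul]
  conv_lhs => rw [Matrix.eta_fin_two g.1, Matrix.mul_fin_two]
  ext i j
  fin_cases i <;> fin_cases j <;> simp
  · linear_combination h1
  · ring
  · ring
  · linear_combination h1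

/-! ### Congruent matrices -/

theorem CongrOne.mem_intAF {M : Matrix (Fin 2) (Fin 2) (AF F)} (h : CongrOne n M) (i j : Fin 2) :
    M i j ∈ intAF F := by
  have h1 := add_mem (idealAF_le_intAF (h i j))
    (show (1 : Matrix (Fin 2) (Fin 2) (AF F)) i j ∈ (intAF F).toAddSubgroup by
      rw [Matrix.one_apply]; split_ifs
      · exact one_mem (intAF F)
      · exact zero_mem _)
  simpa using h1

/-- A congruent matrix with congruent unit determinant lies in the congruence subgroup. -/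
theorem mem_principalSubgroup_of_det (g : GL (Fin 2) (AF F)) (h : CongrOne n g.1)
    (hdi : ((Matrix.GeneralLinearGroup.det g)⁻¹ : (AF F)ˣ).1 ∈ intAF F) :
    g ∈ principalSubgroup n := by
  refine ⟨h, ?_⟩
  set u := Matrix.GeneralLinearGroup.det g with hu
  have h00 : g.1 0 0 - 1 ∈ idealAF F n := by simpa using h 0 0
  have h01 : g.1 0 1 ∈ idealAF F n := by simpa using h 0 1
  have h10 : g.1 1 0 ∈ idealAF F n := by simpa using h 1 0
  have h11 : g.1 1 1 - 1 ∈ idealAF F n := by simpa using h 1 1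
  have hd : ((u : AF F) - 1) ∈ idealAF F n := by
    rw [← det_eq_GLdet, show g.1 0 0 * g.1 1 1 - g.1 0 1 * g.1 1 0 - 1 =
      g.1 1 1 * (g.1 0 0 - 1) + (g.1 1 1 - 1) - g.1 0 1 * g.1 1 0 by ring]
    exact sub_mem (add_mem (mul_mem_idealAF_left (h.mem_intAF 1 1) h00) h11)
      (mul_mem_idealAF_left (h.mem_intAF 0 1) h10)
  have hdi' : (u⁻¹ : (AF F)ˣ).1 - 1 ∈ idealAF F n := by
    have : (u⁻¹ : (AF F)ˣ).1 - 1 = -((u⁻¹ : (AF F)ˣ).1 * ((u : AF F) - 1)) := by
      rw [mul_sub, Units.inv_mul]; ring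
    rw [this]
    exact neg_mem (mul_mem_idealAF_left hdi hd)
  have hcomb : ∀ {x : AF F}, x - 1 ∈ idealAF F n → (u⁻¹ : (AF F)ˣ).1 * x - 1 ∈ idealAF F n := by
    intro x hx
    rw [show (u⁻¹ : (AF F)ˣ).1 * x - 1 =
      (u⁻¹ : (AF F)ˣ).1 * (x - 1) + ((u⁻¹ : (AF F)ˣ).1 - 1) by ring]
    exact add_mem (mul_mem_idealAF_left hdi hx) hdi'
  intro i j
  rw [Matrix.sub_apply, inv_val_fin_two, ← hu]
  generalize (u⁻¹ : (AF F)ˣ).1 = v at hcomb hdi ⊢
  fin_cases i <;> fin_cases j
  · simpa using hcomb h11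
  · simpa using mul_mem_idealAF_left hdi (neg_mem h01)
  · simpa using mul_mem_idealAF_left hdi (neg_mem h10)
  · simpa using hcomb h00

/-- Congruence subgroups are normal in `GL(2, 𝓞 F ⊗ Ẑ)`. -/
theorem conj_mem_principalSubgroup {κ k : GL (Fin 2) (AF F)} (hκ : κ ∈ principalSubgroup ⊤)
    (hk : k ∈ principalSubgroup n) : κ⁻¹ * k * κ ∈ principalSubgroup n := by
  have key : ∀ A : Matrix (Fin 2) (Fin 2) (AF F), CongrOne n A →
      CongrOne n ((κ⁻¹).1 * A * κ.1) := by
    intro A hA i j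
    have e : (κ⁻¹).1 * A * κ.1 - 1 = (κ⁻¹).1 * (A - 1) * κ.1 := by
      rw [Matrix.mul_sub, Matrix.sub_mul, Matrix.mul_one, ← Units.val_mul, inv_mul_cancel]
      rfl
    rw [e, Matrix.mul_apply]
    refine sum_mem fun l _ => ?_
    rw [Matrix.mul_apply, Finset.sum_mul]
    refine sum_mem fun l' _ => ?_
    rw [mul_right_comm]
    exact mul_mem_idealAF_left (mul_mem (hκ.2.mem_intAF i l') (hκ.1.mem_intAF l j)) (hA l' l)
  refine ⟨key _ hk.1, ?_⟩
  rw [show (κ⁻¹ * k * κ)⁻¹ = κ⁻¹ * k⁻¹ * κ by group]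
  exact key _ hk.2

theorem conj_mem_levelGroup {κ l : GL (Fin 2) (AF F)} (hκ : κ ∈ principalSubgroup ⊤)
    (hl : l ∈ levelGroup n) : κ⁻¹ * l * κ ∈ levelGroup n := by
  rw [levelGroup] at hl ⊢
  obtain ⟨k, hk, z, hz, rfl⟩ := Subgroup.mem_sup_of_normal_right.mp hl
  rw [show κ⁻¹ * (k * z) * κ = κ⁻¹ * k * κ * z by
    rw [mul_assoc, mul_assoc k z κ, ← Subgroup.mem_center_iff.mp hz κ]
    group]
  exact mul_mem (Subgroup.mem_sup_left (conj_mem_principalSubgroup hκ hk))
    (Subgroup.mem_sup_right hz)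

/-! ### Representatives -/

/-- Elements of the double coset at `w`. -/
def IsHeckeElt (n w : Ideal (𝓞 F)) (g : GL (Fin 2) (AF F)) : Prop :=
  CongrOne n g.1 ∧ IsUniformizerAt n w (Matrix.GeneralLinearGroup.det g)

/-- A section of the residue map at `w` with values congruent to `0` modulo `n`. -/
structure IsResidueSection {ρ : Type} (n w : Ideal (𝓞 F)) (c : ρ → AF F) : Prop where
  mem : ∀ r, c r ∈ idealAF F n
  exists_unique : ∀ x ∈ intAF F, ∃! r, x - c r ∈ idealAF F w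

/-- The representatives. -/
def hRep {ρ : Type} (π : (AF F)ˣ) (c : ρ → AF F) : Option ρ → GL (Fin 2) (AF F)
  | none =>
    { val := !![1, 0; 0, (π : AF F)]
      inv := !![1, 0; 0, ((π⁻¹ : (AF F)ˣ) : AF F)]
      val_inv := by
        rw [Matrix.mul_fin_two, Matrix.one_fin_two]
        simp only [mul_one, mul_zero, zero_mul, add_zero, zero_add, Units.mul_inv]
      inv_val := by
        rw [Matrix.mul_fin_two, Matrix.one_fin_two]
        simp only [mul_one, mul_zero, zero_mul, add_zero, zero_add, Units.inv_mul] }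
  | some r => upperUnip (c r) * diagUnit π

/-- The upper triangular Hecke representatives. -/
theorem hRep_some_val {ρ : Type} (π : (AF F)ˣ) (c : ρ → AF F) (r : ρ) :
    (hRep π c (some r)).1 = !![(π : AF F), c r; 0, 1] := by
  show !![1, c r; 0, 1] * !![(π : AF F), 0; 0, 1] = _
  rw [Matrix.mul_fin_two]
  simp only [mul_one, one_mul, mul_zero, zero_mul, add_zero, zero_add]

theorem hRep_some_inv {ρ : Type} (π : (AF F)ˣ) (c : ρ → AF F) (r : ρ) :
    ((hRep π c (some r))⁻¹).1 =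
      !![((π⁻¹ : (AF F)ˣ) : AF F), -(((π⁻¹ : (AF F)ˣ) : AF F) * c r); 0, 1] := by
  show ((upperUnip (c r) * diagUnit π)⁻¹).1 = _
  rw [mul_inv_rev, Units.val_mul]
  show !![((π⁻¹ : (AF F)ˣ) : AF F), 0; 0, 1] * !![1, -c r; 0, 1] = _
  rw [Matrix.mul_fin_two]
  simp only [mul_one, mul_zero, zero_mul, add_zero, zero_add]
  rw [show ((π⁻¹ : (AF F)ˣ) : AF F) * -c r = -(((π⁻¹ : (AF F)ˣ) : AF F) * c r) from
    mul_neg (((π⁻¹ : (AF F)ˣ) : AF F)) (c r)]

theorem det_hRep {ρ : Type} (π : (AF F)ˣ) (c : ρ → AF F) (i : Option ρ) :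
    Matrix.GeneralLinearGroup.det (n := Fin 2) (R := AF F) (hRep π c i) = π := by
  cases i with
  | none =>
    apply Units.ext
    rw [Matrix.GeneralLinearGroup.val_det_apply]
    show (!![1, 0; 0, (π : AF F)] : Matrix (Fin 2) (Fin 2) (AF F)).det = (π : AF F)
    rw [Matrix.det_fin_two_of, one_mul, mul_zero, sub_zero]
  | some r => rw [hRep, map_mul, det_diagUnit,
    show Matrix.GeneralLinearGroup.det (upperUnip (c r)) = 1 from
      Units.ext (by
        rw [Matrix.GeneralLinearGroup.val_det_apply]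
        simp [upperUnip, Matrix.det_fin_two]), one_mul]

theorem isHeckeElt_hRep {ρ : Type} {π : (AF F)ˣ} (hπ : IsUniformizerAt n w π) {c : ρ → AF F}
    (hc : IsResidueSection n w c) (i : Option ρ) : IsHeckeElt n w (hRep π c i) := by
  refine ⟨?_, by rw [det_hRep]; exact hπ⟩
  intro a b
  cases i with
  | none => fin_cases a <;> fin_cases b <;> simp [hRep, hπ.1]
  | some r =>
    rw [Matrix.sub_apply, hRep_some_val]
    fin_cases a <;> fin_cases b <;> simp [hπ.1, hc.mem r]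

theorem IsUniformizerAt.exists_eq_mul {π : (AF F)ˣ} (hπ : IsUniformizerAt n w π) {x : AF F}
    (hx : x ∈ idealAF F w) : ∃ y ∈ intAF F, x = (π : AF F) * y := by
  rw [hπ.2] at hx
  obtain ⟨y, hy, rfl⟩ := hx
  exact ⟨y, hy, rfl⟩

theorem IsUniformizerAt.inv_mul_sub {π : (AF F)ˣ} (hπ : IsUniformizerAt n w π) {x δ : AF F}
    (hx : x ∈ idealAF F w) (hδ : x - δ ∈ idealAF F n) :
    ((π⁻¹ : (AF F)ˣ) : AF F) * x - δ ∈ idealAF F n := by
  obtain ⟨y, hy, rfl⟩ := hπ.exists_eq_mul hx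
  rw [Units.inv_mul_cancel_left,
    show y - δ = ((π : AF F) * y - δ) - y * ((π : AF F) - 1) by ring]
  exact sub_mem hδ (mul_mem_idealAF_left hy hπ.1)

/-- Residue field linear algebra at `w`. -/
theorem exists_residue_ratio (hw : w.IsPrime) (hw0 : w ≠ ⊥) {a b c d : AF F} (ha : a ∈ intAF F)
    (hb : b ∈ intAF F) (hc : c ∈ intAF F) (hd : d ∈ intAF F)
    (h : a * d - b * c ∈ idealAF F w) :
    (c ∈ idealAF F w ∧ d ∈ idealAF F w) ∨
      ∃ x ∈ intAF F, a - x * c ∈ idealAF F w ∧ b - x * d ∈ idealAF F w := by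
  have : NeZero (Ideal.absNorm w) := ⟨absNorm_ne_zero hw0⟩
  have := hw.isMaximal hw0
  let : Field (𝓞 F ⧸ w) := Ideal.Quotient.field w
  set ψ := (residueOH w _ (Ideal.absNorm_mem w)).toRingHom
  have hψ : ∀ X : OH F, intHom F X ∈ idealAF F w ↔ ψ X = 0 := fun X => by
    rw [intHom_mem_idealAF_iff, ← ker_residueOH w _ (Ideal.absNorm_mem w), RingHom.mem_ker]
  have hψs : Function.Surjective ψ := fun r => by
    obtain ⟨z, rfl⟩ := Ideal.Quotient.mk_surjective r
    exact ⟨z ⊗ₜ 1, residueOH_tmul_one _ _ _ z⟩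
  obtain ⟨A, rfl⟩ := mem_intAF.mp ha
  obtain ⟨B, rfl⟩ := mem_intAF.mp hb
  obtain ⟨C, rfl⟩ := mem_intAF.mp hc
  obtain ⟨D, rfl⟩ := mem_intAF.mp hd
  rw [← map_mul, ← map_mul, ← map_sub, hψ, map_sub, map_mul, map_mul] at h
  by_cases hC : ψ C = 0
  · by_cases hD : ψ D = 0
    · exact Or.inl ⟨(hψ C).mpr hC, (hψ D).mpr hD⟩
    · obtain ⟨X, hX⟩ := hψs (ψ B / ψ D)
      refine Or.inr ⟨intHom F X, ⟨X, rfl⟩, ?_, ?_⟩
      · rw [← map_mul, ← map_sub, hψ, map_sub, map_mul, hX, hC, mul_zero, sub_zero]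
        rw [hC, mul_zero, sub_zero] at h
        exact (mul_eq_zero.mp h).resolve_right hD
      · rw [← map_mul, ← map_sub, hψ, map_sub, map_mul, hX, div_mul_cancel₀ _ hD, sub_self]
  · obtain ⟨X, hX⟩ := hψs (ψ A / ψ C)
    refine Or.inr ⟨intHom F X, ⟨X, rfl⟩, ?_, ?_⟩
    · rw [← map_mul, ← map_sub, hψ, map_sub, map_mul, hX, div_mul_cancel₀ _ hC, sub_self]
    · rw [← map_mul, ← map_sub, hψ, map_sub, map_mul, hX]
      field_simp
      linear_combination -h

theorem inv_hRep_mul_mem {ρ : Type} {π : (AF F)ˣ} (hπ : IsUniformizerAt n w π) {c : ρ → AF F}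
    (g : GL (Fin 2) (AF F)) (hg : IsHeckeElt n w g) (i : Option ρ)
    (h : CongrOne n ((hRep π c i)⁻¹ * g).1) : (hRep π c i)⁻¹ * g ∈ principalSubgroup n := by
  obtain ⟨u, hu, -, hu', -, -⟩ := hπ.exists_mul_eq hg.2
  refine mem_principalSubgroup_of_det _ h ?_
  rw [map_mul, map_inv, det_hRep, hu, inv_mul_cancel_left]
  exact hu'

theorem exists_inv_hRep_none_mul_mem {ρ : Type} {π : (AF F)ˣ} (hπ : IsUniformizerAt n w π)
    (c : ρ → AF F) (g : GL (Fin 2) (AF F)) (hg : IsHeckeElt n w g)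
    (h0 : g.1 1 0 ∈ idealAF F w) (h1 : g.1 1 1 ∈ idealAF F w) :
    (hRep π c none)⁻¹ * g ∈ principalSubgroup n := by
  refine inv_hRep_mul_mem hπ g hg none fun a b => ?_
  rw [Matrix.sub_apply, Units.val_mul]
  show ((!![1, 0; 0, ((π⁻¹ : (AF F)ˣ) : AF F)] : Matrix (Fin 2) (Fin 2) (AF F)) * g.1) a b -
    (1 : Matrix (Fin 2) (Fin 2) (AF F)) a b ∈ idealAF F n
  fin_cases a <;> fin_cases b <;> simp [Matrix.mul_apply, Fin.sum_univ_two]
  · simpa using hg.1 0 0
  · simpa using hg.1 0 1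
  · simpa using hπ.inv_mul_sub h0 (δ := 0) (by simpa using hg.1 1 0)
  · simpa using hπ.inv_mul_sub h1 (δ := 1) (by simpa using hg.1 1 1)

/-- Every element of the double coset lies in one of the cosets. -/
theorem exists_hRep (hw : w.IsPrime) (hw0 : w ≠ ⊥) {ρ : Type} {π : (AF F)ˣ}
    (hπ : IsUniformizerAt n w π) {c : ρ → AF F} (hc : IsResidueSection n w c)
    (g : GL (Fin 2) (AF F)) (hg : IsHeckeElt n w g) :
    ∃ i, (hRep π c i)⁻¹ * g ∈ principalSubgroup n := by
  have hint := hg.1.mem_intAF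
  have hdet : g.1 0 0 * g.1 1 1 - g.1 0 1 * g.1 1 0 ∈ idealAF F w := by
    rw [det_eq_GLdet, hg.2.2]
    exact ⟨1, one_mem (intAF F), mul_one _⟩
  rcases exists_residue_ratio hw hw0 (hint 0 0) (hint 0 1) (hint 1 0) (hint 1 1) hdet with
    ⟨h0, h1⟩ | ⟨x, hx, ha, hb⟩
  · exact ⟨none, exists_inv_hRep_none_mul_mem hπ c g hg h0 h1⟩
  obtain ⟨r, hr, -⟩ := hc.exists_unique x hx
  have hxw : ∀ {a y : AF F}, y ∈ intAF F → a - x * y ∈ idealAF F w →
      a - c r * y ∈ idealAF F w := by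
    intro a y hy h
    rw [show a - c r * y = (a - x * y) + y * (x - c r) by ring]
    exact add_mem h (mul_mem_idealAF_left hy hr)
  refine ⟨some r, inv_hRep_mul_mem hπ g hg _ fun a b => ?_⟩
  rw [Matrix.sub_apply, Units.val_mul, hRep_some_inv]
  fin_cases a <;> fin_cases b <;> simp [Matrix.mul_apply, Fin.sum_univ_two]
  · have h := hπ.inv_mul_sub (δ := 1) (hxw (hint 1 0) ha) (by
      rw [show g.1 0 0 - c r * g.1 1 0 - 1 = (g.1 0 0 - 1) - g.1 1 0 * c r by ring]
      exact sub_mem (by simpa using hg.1 0 0) (mul_mem_idealAF_left (hint 1 0) (hc.mem r)))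
    convert h using 1
    ring
  · have h := hπ.inv_mul_sub (δ := 0) (hxw (hint 1 1) hb) (by
      rw [show g.1 0 1 - c r * g.1 1 1 - 0 = g.1 0 1 - g.1 1 1 * c r by ring]
      exact sub_mem (by simpa using hg.1 0 1) (mul_mem_idealAF_left (hint 1 1) (hc.mem r)))
    convert h using 1
    ring
  · simpa using hg.1 1 0
  · simpa using hg.1 1 1

/-- The double coset is invariant under the congruence subgroup. -/
theorem IsHeckeElt.mul_principal {g k : GL (Fin 2) (AF F)} (hg : IsHeckeElt n w g)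
    (hk : k ∈ principalSubgroup n) : IsHeckeElt n w (k * g) ∧ IsHeckeElt n w (g * k) := by
  have hkd : ∀ {k : GL (Fin 2) (AF F)}, k ∈ principalSubgroup n →
      (Matrix.GeneralLinearGroup.det k : AF F) - 1 ∈ idealAF F n ∧
        (Matrix.GeneralLinearGroup.det k : AF F) ∈ intAF F := by
    intro k hk
    rw [← det_eq_GLdet]
    refine ⟨?_, sub_mem (mul_mem (hk.1.mem_intAF 0 0) (hk.1.mem_intAF 1 1))
      (mul_mem (hk.1.mem_intAF 0 1) (hk.1.mem_intAF 1 0))⟩
    rw [show k.1 0 0 * k.1 1 1 - k.1 0 1 * k.1 1 0 - 1 =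
      k.1 1 1 * (k.1 0 0 - 1) + (k.1 1 1 - 1) - k.1 0 1 * k.1 1 0 by ring]
    exact sub_mem (add_mem (mul_mem_idealAF_left (hk.1.mem_intAF 1 1) (by simpa using hk.1 0 0))
      (by simpa using hk.1 1 1))
      (mul_mem_idealAF_left (hk.1.mem_intAF 0 1) (by simpa using hk.1 1 0))
  have h1 := hkd hk
  have h2 := hkd (inv_mem hk)
  rw [map_inv] at h2
  have key : IsUniformizerAt n w
      (Matrix.GeneralLinearGroup.det g * Matrix.GeneralLinearGroup.det k) := by
    refine ⟨?_, le_antisymm ?_ ?_⟩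
    · rw [Units.val_mul, show (Matrix.GeneralLinearGroup.det g : AF F) *
        Matrix.GeneralLinearGroup.det k - 1 = (Matrix.GeneralLinearGroup.det k : AF F) *
          ((Matrix.GeneralLinearGroup.det g : AF F) - 1) +
          ((Matrix.GeneralLinearGroup.det k : AF F) - 1) by ring]
      exact add_mem (mul_mem_idealAF_left h1.2 hg.2.1) h1.1
    · intro x hx
      obtain ⟨y, hy, rfl⟩ := hg.2.exists_eq_mul hx
      refine ⟨((Matrix.GeneralLinearGroup.det k)⁻¹ : (AF F)ˣ).1 * y,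
        mul_mem (S := Subring (AF F)) h2.2 hy, ?_⟩
      show (Matrix.GeneralLinearGroup.det g * Matrix.GeneralLinearGroup.det k : (AF F)ˣ).1 * _ = _
      rw [Units.val_mul, mul_assoc, Units.mul_inv_cancel_left]
    · rintro _ ⟨y, hy, rfl⟩
      show (Matrix.GeneralLinearGroup.det g * Matrix.GeneralLinearGroup.det k : (AF F)ˣ).1 * y ∈ _
      rw [hg.2.2, Units.val_mul, mul_assoc]
      exact ⟨_, mul_mem (S := Subring (AF F)) h1.2 hy, rfl⟩
  refine ⟨⟨?_, ?_⟩, ⟨?_, ?_⟩⟩
  · rw [Units.val_mul]; exact hk.1.mul hg.1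
  · rw [map_mul]; exact (mul_comm (Matrix.GeneralLinearGroup.det g) _) ▸ key
  · rw [Units.val_mul]; exact hg.1.mul hk.1
  · rw [map_mul]; exact key

/-- Hecke elements are stable under conjugation by integral matrices. -/
theorem IsHeckeElt.conj {g κ : GL (Fin 2) (AF F)} (hg : IsHeckeElt n w g)
    (hκ : κ ∈ principalSubgroup ⊤) : IsHeckeElt n w (κ⁻¹ * g * κ) := by
  refine ⟨fun i j => ?_, ?_⟩
  · rw [Units.val_mul, Units.val_mul, show (κ⁻¹).1 * g.1 * κ.1 - 1 = (κ⁻¹).1 * (g.1 - 1) * κ.1 by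
      rw [Matrix.mul_sub, Matrix.sub_mul, Matrix.mul_one, ← Units.val_mul κ⁻¹ κ, inv_mul_cancel]
      rfl, Matrix.mul_apply]
    refine sum_mem fun l _ => ?_
    rw [Matrix.mul_apply, Finset.sum_mul]
    refine sum_mem fun l' _ => ?_
    rw [mul_right_comm]
    exact mul_mem_idealAF_left (mul_mem (hκ.2.mem_intAF i l') (hκ.1.mem_intAF l j)) (hg.1 l' l)
  · have : Matrix.GeneralLinearGroup.det (κ⁻¹ * g * κ) = Matrix.GeneralLinearGroup.det g := by
      simp only [map_mul, map_inv]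
      exact commGroup_conj _ _
    rw [this]
    exact hg.2

/-- Every element of the double coset is `k diag(π, 1) k'`. -/
theorem IsHeckeElt.exists_eq (hw : w.IsPrime) (hw0 : w ≠ ⊥) (hwn : w ⊔ n = ⊤) {π : (AF F)ˣ}
    (hπ : IsUniformizerAt n w π) {ρ : Type} {c : ρ → AF F} (hc : IsResidueSection n w c)
    {g : GL (Fin 2) (AF F)} (hg : IsHeckeElt n w g) :
    ∃ k ∈ principalSubgroup n, ∃ k' ∈ principalSubgroup n, g = k * diagUnit π * k' := by
  obtain ⟨i, hi⟩ := exists_hRep hw hw0 hπ hc g hg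
  cases i with
  | some r =>
    refine ⟨upperUnip (c r), ?_, _, hi, ?_⟩
    · refine ⟨fun a b => ?_, fun a b => ?_⟩
      · fin_cases a <;> fin_cases b <;> simp [upperUnip, hc.mem r]
      · show ((!![1, -c r; 0, 1] : Matrix (Fin 2) (Fin 2) (AF F)) - 1) a b ∈ _
        fin_cases a <;> fin_cases b <;> simp [hc.mem r]
    · show g = hRep π c (some r) * ((hRep π c (some r))⁻¹ * g)
      rw [mul_inv_cancel_left]
  | none =>
    obtain ⟨d, hd, e, he, hde⟩ := Submodule.mem_sup.mp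
      (hwn ▸ Submodule.mem_top : (1 : 𝓞 F) ∈ w ⊔ n)
    set E : AF F := toAF F (e : F) with hE
    have hEn : E ∈ idealAF F n := toAF_mem_idealAF he
    have hEw : E - 1 ∈ idealAF F w := by
      have : E - 1 = -toAF F (d : F) := by
        rw [hE, ← map_one (toAF F), ← map_sub, ← map_neg]
        congr 1
        have h := congrArg (algebraMap (𝓞 F) F) hde
        rw [map_add, map_one] at h
        show algebraMap (𝓞 F) F e - algebraMap (𝓞 F) F 1 = -algebraMap (𝓞 F) F d
        rw [map_one]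
        linear_combination h
      rw [this]
      exact neg_mem (toAF_mem_idealAF hd)
    have hEi : E ∈ intAF F := idealAF_le_intAF hEn
    set W : GL (Fin 2) (AF F) := Matrix.SpecialLinearGroup.toGL (sUpper E) *
      Matrix.SpecialLinearGroup.toGL (sLower (-E)) * Matrix.SpecialLinearGroup.toGL (sUpper E)
    have hW : W ∈ principalSubgroup n :=
      mul_mem (mul_mem (sUpper_mem_principalSubgroup hEn)
        (sLower_mem_principalSubgroup (neg_mem hEn))) (sUpper_mem_principalSubgroup hEn)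
    have hWπ : IsHeckeElt n w (W * diagUnit π) := by
      refine ((?_ : IsHeckeElt n w (diagUnit π)).mul_principal hW).1
      refine ⟨fun a b => ?_, by rw [det_diagUnit]; exact hπ⟩
      fin_cases a <;> fin_cases b <;> simp [diagUnit, hπ.1]
    have hval : (W * diagUnit π).1 =
        (sUpper E).1 * (sLower (-E)).1 * (sUpper E).1 * (diagUnit π).1 := rfl
    have hπw : (π : AF F) ∈ idealAF F w := hπ.2 ▸ ⟨1, one_mem (intAF F), mul_one _⟩
    have h' : (hRep π c none)⁻¹ * (W * diagUnit π) ∈ principalSubgroup n := by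
      refine exists_inv_hRep_none_mul_mem hπ c _ hWπ ?_ ?_
      · rw [hval, sUpper_val, sLower_val,
          show (diagUnit π).1 = !![(π : AF F), 0; 0, 1] from rfl,
          Matrix.mul_fin_two, Matrix.mul_fin_two, Matrix.mul_fin_two]
        show ((0 * 1 + 1 * -E) * 1 + (0 * 0 + 1 * 1) * 0) * (π : AF F) +
          ((0 * 1 + 1 * -E) * E + (0 * 0 + 1 * 1) * 1) * 0 ∈ _
        simp only [mul_one, one_mul, mul_zero, add_zero, zero_add]
        exact mul_mem_idealAF_left (neg_mem hEi) hπw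
      · rw [hval, sUpper_val, sLower_val,
          show (diagUnit π).1 = !![(π : AF F), 0; 0, 1] from rfl,
          Matrix.mul_fin_two, Matrix.mul_fin_two, Matrix.mul_fin_two]
        show ((0 * 1 + 1 * -E) * 1 + (0 * 0 + 1 * 1) * 0) * 0 +
          ((0 * 1 + 1 * -E) * E + (0 * 0 + 1 * 1) * 1) * 1 ∈ _
        simp only [mul_one, one_mul, mul_zero, add_zero, zero_add]
        rw [show -E * E + 1 = -((E + 1) * (E - 1)) by ring]
        exact neg_mem (mul_mem_idealAF_left (add_mem hEi (one_mem _)) hEw)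
    refine ⟨W, hW, ((hRep π c none)⁻¹ * (W * diagUnit π))⁻¹ * ((hRep π c none)⁻¹ * g),
      mul_mem (inv_mem h') hi, ?_⟩
    group

/-- The cosets of the representatives are distinct, even modulo the centre. -/
theorem hRep_injective (hw : w.IsPrime) (hw0 : w ≠ ⊥) {ρ : Type} {π : (AF F)ˣ}
    (hπ : IsUniformizerAt n w π) {c : ρ → AF F} (hc : IsResidueSection n w c) {i j : Option ρ}
    (h : (hRep π c i)⁻¹ * hRep π c j ∈ levelGroup n) : i = j := by
  have hπw : ((π⁻¹ : (AF F)ˣ) : AF F) * ((π⁻¹ : (AF F)ˣ) : AF F) ∈ intAF F → False := by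
    intro hint
    have hmem : (π : AF F) ∈ idealAF F w := hπ.2 ▸ ⟨1, one_mem (intAF F), mul_one _⟩
    have h1 := mul_mem_idealAF_left hint (mul_mem_idealAF hmem hmem)
    rw [mul_mul_mul_comm, Units.inv_mul, one_mul, ← map_one (toAF F),
      ← map_one (algebraMap (𝓞 F) F)] at h1
    exact hw.ne_top (top_le_iff.mp (((Ideal.eq_top_iff_one _).mpr
      ((toAF_mem_idealAF_iff (mul_ne_zero hw0 hw0)).mp h1)).ge.trans Ideal.mul_le_left))
  rw [levelGroup] at h
  obtain ⟨k, hk, z, hz, hkz⟩ := Subgroup.mem_sup_of_normal_right.mp h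
  have hzs : z.1 0 1 = 0 ∧ z.1 1 0 = 0 ∧ z.1 0 0 = z.1 1 1 := by
    have hU := congrArg Units.val (Subgroup.mem_center_iff.mp hz (upperUnip (1 : AF F)))
    have hL := congrArg Units.val (Subgroup.mem_center_iff.mp hz
      (Matrix.SpecialLinearGroup.toGL (sLower (1 : AF F))))
    rw [Units.val_mul, Units.val_mul] at hU hL
    have u00 := congrFun (congrFun hU 0) 0
    have u01 := congrFun (congrFun hU 0) 1
    have l11 := congrFun (congrFun hL 1) 1
    simp [upperUnip, sLower_val, Matrix.mul_apply, Fin.sum_univ_two] at u00 u01 l11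
    refine ⟨l11, u00, ?_⟩
    linear_combination -u01
  obtain ⟨hz01, hz10, hz00⟩ := hzs
  set s := z.1 1 1 with hs
  have hval : ((hRep π c i)⁻¹ * hRep π c j).1 = k.1 * z.1 := by rw [← hkz, Units.val_mul]
  have hentry : ∀ a b, ((hRep π c i)⁻¹ * hRep π c j).1 a b = k.1 a b * s := by
    intro a b
    rw [hval]
    fin_cases b <;> simp [Matrix.mul_apply, Fin.sum_univ_two, hz01, hz10, hz00, hs]
  have hdet : k.1 0 0 * k.1 1 1 * (s * s) - k.1 0 1 * k.1 1 0 * (s * s) = 1 := by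
    have h := det_eq_GLdet ((hRep π c i)⁻¹ * hRep π c j)
    rw [map_mul, map_inv, det_hRep, det_hRep, inv_mul_cancel, Units.val_one, hentry, hentry,
      hentry, hentry] at h
    linear_combination h
  have hss : s * s ∈ intAF F := by
    have h1 := det_eq_GLdet k⁻¹
    rw [map_inv] at h1
    have h2 : ((Matrix.GeneralLinearGroup.det k)⁻¹ : (AF F)ˣ).1 = s * s := by
      refine Units.inv_eq_of_mul_eq_one_right ?_
      rw [← det_eq_GLdet]
      linear_combination hdet
    rw [← h2, ← h1]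
    exact sub_mem (mul_mem (hk.2.mem_intAF 0 0) (hk.2.mem_intAF 1 1))
      (mul_mem (hk.2.mem_intAF 0 1) (hk.2.mem_intAF 1 0))
  cases i with
  | none =>
    cases j with
    | none => rfl
    | some r =>
      exfalso
      have h11 := hentry 1 1
      rw [Units.val_mul, hRep_some_val] at h11
      change ((!![1, 0; 0, ((π⁻¹ : (AF F)ˣ) : AF F)] : Matrix (Fin 2) (Fin 2) (AF F)) *
        !![(π : AF F), c r; 0, 1]) 1 1 = _ at h11
      rw [Matrix.mul_fin_two] at h11
      simp at h11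
      refine hπw ?_
      rw [h11, mul_mul_mul_comm]
      exact mul_mem (mul_mem (hk.1.mem_intAF 1 1) (hk.1.mem_intAF 1 1)) hss
  | some r =>
    cases j with
    | none =>
      exfalso
      have h00 := hentry 0 0
      rw [Units.val_mul, hRep_some_inv] at h00
      change (!![((π⁻¹ : (AF F)ˣ) : AF F), -(((π⁻¹ : (AF F)ˣ) : AF F) * c r); 0, 1] *
        (!![1, 0; 0, (π : AF F)] : Matrix (Fin 2) (Fin 2) (AF F))) 0 0 = _ at h00
      rw [Matrix.mul_fin_two] at h00
      simp at h00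
      refine hπw ?_
      rw [h00, mul_mul_mul_comm]
      exact mul_mem (mul_mem (hk.1.mem_intAF 0 0) (hk.1.mem_intAF 0 0)) hss
    | some r' =>
      have h01 := hentry 0 1
      have h11 := hentry 1 1
      rw [Units.val_mul, hRep_some_inv, hRep_some_val] at h01 h11
      rw [Matrix.mul_fin_two] at h01 h11
      simp at h01 h11
      have hsint : s ∈ intAF F := by
        rw [show s = k.1 1 1 * (s * s) by rw [← mul_assoc, ← h11, one_mul]]
        exact mul_mem (hk.1.mem_intAF 1 1) hss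
      have hmem : c r' - c r ∈ idealAF F w := by
        rw [hπ.2]
        refine ⟨k.1 0 1 * s, mul_mem (S := Subring (AF F)) (hk.1.mem_intAF 0 1) hsint, ?_⟩
        show (π : AF F) * (k.1 0 1 * s) = c r' - c r
        rw [← h01]
        linear_combination (c r' - c r) * π.mul_inv
      obtain ⟨r₀, -, huniq⟩ := hc.exists_unique (c r') (idealAF_le_intAF (hc.mem r'))
      exact congrArg some ((huniq r hmem).trans (huniq r' (by simp)).symm)

/-- **The Hecke neighbours.** -/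
theorem nbrs_eq_range (hw : w.IsPrime) (hw0 : w ≠ ⊥) (hwn : ¬ w ∣ n) {π : (AF F)ˣ}
    (hπ : IsUniformizerAt n w π) {ρ : Type} {c : ρ → AF F} (hc : IsResidueSection n w c)
    (g : GL (Fin 2) (AF F)) {κ : GL (Fin 2) (AF F)} (hκ : κ ∈ principalSubgroup ⊤) :
    nbrs n w ((g * κ : GL (Fin 2) (AF F)) : FinPt F n) =
        Set.range (fun i => ((g * hRep π c i * κ : GL (Fin 2) (AF F)) : FinPt F n)) ∧
      Function.Injective (fun i => ((g * hRep π c i * κ : GL (Fin 2) (AF F)) : FinPt F n)) := by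
  have hcop : w ⊔ n = ⊤ := (hw.isMaximal hw0).out.2 _ (lt_of_le_of_ne le_sup_left fun h =>
    hwn (Ideal.dvd_iff_le.mpr (h ▸ le_sup_right)))
  have hκ' : κ⁻¹ ∈ principalSubgroup (F := F) ⊤ := inv_mem hκ
  constructor
  · ext v'
    constructor
    · rintro ⟨g', k, π', hg', hk, hπ', rfl⟩
      obtain ⟨l, hl, rfl⟩ : ∃ l ∈ levelGroup n, g' = g * κ * l :=
        ⟨(g * κ)⁻¹ * g', QuotientGroup.eq.mp hg'.symm, by group⟩
      obtain ⟨k₀, hk₀, z, hz, rfl⟩ := Subgroup.mem_sup_of_normal_right.mp hl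
      have hx : IsHeckeElt n w (k₀ * k * diagUnit π') := by
        refine ((?_ : IsHeckeElt n w (diagUnit π')).mul_principal (mul_mem hk₀ hk)).1
        refine ⟨fun a b => ?_, by rw [det_diagUnit]; exact hπ'⟩
        fin_cases a <;> fin_cases b <;> simp [diagUnit, hπ'.1]
      have hy := hx.conj hκ'
      rw [inv_inv] at hy
      obtain ⟨i, hi⟩ := exists_hRep hw hw0 hπ hc _ hy
      refine ⟨i, QuotientGroup.eq.mpr ?_⟩
      have e : (g * hRep π c i * κ)⁻¹ * (g * κ * (k₀ * z) * k * diagUnit π') =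
          κ⁻¹ * ((hRep π c i)⁻¹ * (κ * (k₀ * k * diagUnit π') * κ⁻¹)) * κ * z := by
        rw [show g * κ * (k₀ * z) * k * diagUnit π' = g * κ * k₀ * k * diagUnit π' * z by
          have hc' := fun y => Subgroup.mem_center_iff.mp hz y
          simp only [mul_assoc]
          rw [← hc' (k * diagUnit π')]
          simp only [mul_assoc]]
        group
      rw [e]
      exact mul_mem (Subgroup.mem_sup_left (conj_mem_principalSubgroup hκ hi))
        (Subgroup.mem_sup_right hz)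
    · rintro ⟨i, rfl⟩
      obtain ⟨k, hk, k', hk', he⟩ :=
        ((isHeckeElt_hRep hπ hc i).conj hκ).exists_eq hw hw0 hcop hπ hc
      refine ⟨g * κ, k, π, rfl, hk, hπ, QuotientGroup.eq.mpr ?_⟩
      have e : (g * κ * k * diagUnit π)⁻¹ * (g * hRep π c i * κ) =
          (k * diagUnit π)⁻¹ * (κ⁻¹ * hRep π c i * κ) := by group
      rw [e, he, ← mul_assoc, inv_mul_cancel, one_mul]
      exact Subgroup.mem_sup_left hk'
  · intro i j hij
    refine hRep_injective hw hw0 hπ hc ?_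
    have h := conj_mem_levelGroup hκ' (QuotientGroup.eq.mp hij)
    rw [inv_inv] at h
    convert h using 1
    group

/-- Global residue representatives divisible by `n`. -/
theorem exists_residue_reps (hwn : w ⊔ n = ⊤) :
    ∃ a : 𝓞 F ⧸ w → 𝓞 F, (∀ r, a r ∈ n) ∧ ∀ r, Ideal.Quotient.mk w (a r) = r := by
  have hex : ∀ r : 𝓞 F ⧸ w, ∃ a ∈ n, Ideal.Quotient.mk w a = r := by
    intro r
    obtain ⟨a, rfl⟩ := Ideal.Quotient.mk_surjective r
    obtain ⟨d, hd, e, he, hde⟩ := Submodule.mem_sup.mp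
      (hwn ▸ Submodule.mem_top : (1 : 𝓞 F) ∈ w ⊔ n)
    refine ⟨a * e, Ideal.mul_mem_left _ a he, Ideal.Quotient.eq.mpr ?_⟩
    rw [show a * e - a = -(a * d) by linear_combination a * hde]
    exact neg_mem (Ideal.mul_mem_left _ a hd)
  choose a ha hmk using hex
  exact ⟨a, ha, hmk⟩

theorem isResidueSection_toAF (hw0 : w ≠ ⊥) {a : 𝓞 F ⧸ w → 𝓞 F} (ha : ∀ r, a r ∈ n)
    (hmk : ∀ r, Ideal.Quotient.mk w (a r) = r) :
    IsResidueSection n w (fun r => toAF F (a r : F)) := by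
  refine ⟨fun r => toAF_mem_idealAF (ha r), fun x hx => ?_⟩
  obtain ⟨X, rfl⟩ := mem_intAF.mp hx
  obtain ⟨b, hb⟩ := exists_sub_mem_idealOH hw0 X
  have key : ∀ r, intHom F X - toAF F (a r : F) ∈ idealAF F w ↔ Ideal.Quotient.mk w b = r := by
    intro r
    rw [← intHom_tmul_one, ← map_sub, intHom_mem_idealAF_iff]
    conv_rhs => rw [← hmk r]
    rw [Ideal.Quotient.eq, ← tmul_one_mem_idealOH_iff hw0, TensorProduct.sub_tmul,
      show X - a r ⊗ₜ[ℤ] (1 : Zhat) = (X - b ⊗ₜ 1) + (b ⊗ₜ 1 - a r ⊗ₜ 1) by ring]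
    exact (idealOH w).add_mem_iff_right hb
  exact ⟨Ideal.Quotient.mk w b, (key _).mpr rfl, fun r hr => ((key r).mp hr).symm⟩

/-- A residue section exists at a prime not dividing `n`. -/
theorem exists_isResidueSection (hw0 : w ≠ ⊥) (hwn : w ⊔ n = ⊤) :
    ∃ c : 𝓞 F ⧸ w → AF F, IsResidueSection n w c := by
  obtain ⟨a, ha, hmk⟩ := exists_residue_reps (n := n) hwn
  exact ⟨_, isResidueSection_toAF hw0 ha hmk⟩

/-- A sum over neighbours is a sum over the representatives. -/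
theorem finsum_nbrs {α : Type*} [AddCommMonoid α] (hw : w.IsPrime) (hw0 : w ≠ ⊥) (hwn : ¬ w ∣ n)
    {π : (AF F)ˣ} (hπ : IsUniformizerAt n w π) {ρ : Type} [Fintype ρ] {c : ρ → AF F}
    (hc : IsResidueSection n w c) (g : GL (Fin 2) (AF F)) {κ : GL (Fin 2) (AF F)}
    (hκ : κ ∈ principalSubgroup ⊤) (f : FinPt F n → α) :
    ∑ᶠ v ∈ nbrs n w ((g * κ : GL (Fin 2) (AF F)) : FinPt F n), f v =
      ∑ i, f ((g * hRep π c i * κ : GL (Fin 2) (AF F)) : FinPt F n) := by
  obtain ⟨h1, h2⟩ := nbrs_eq_range hw hw0 hwn hπ hc g hκ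
  rw [h1, finsum_mem_range h2, finsum_eq_sum_of_fintype]

end FLTAgent.LanglandsTunnell
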