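import Fermat.Agent.LanglandsTunnell.Basic

/-!
# The ring of finite adeles `F ⊗ Ẑ`

Approximation of profinite integers, the residue maps `𝓞 F ⊗ Ẑ → 𝓞 F / n`, density of `F`,
denominators and the calculus of the subgroups `idealAF`.
-/

set_option autoImplicit false
set_option linter.unusedSectionVars false

noncomputable section

namespace FLTAgent.LanglandsTunnell

open scoped TensorProduct
open NumberField

/-! ### Profinite integers -/

theorem zhat_natCast_apply (m : ℕ) (p : Nat.Primes) : (m : Zhat) p = (m : ℤ_[(p : ℕ)]) := rfl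

/-- Every profinite integer is an integer modulo `m`. -/
theorem zhat_exists_int_add {m : ℕ} (hm : m ≠ 0) (z : Zhat) :
    ∃ (k : ℤ) (z' : Zhat), z = (k : Zhat) + (m : Zhat) * z' := by
  classical
  have hpow : ∀ p : Nat.Primes, ∃ k : ℕ,
      ((p : ℕ) : ℤ_[(p : ℕ)]) ^ m.factorization p ∣ z p - (k : ℤ_[(p : ℕ)]) :=
    fun p => ⟨(z p).appr (m.factorization p),
      Ideal.mem_span_singleton.mp (PadicInt.appr_spec _ (z p))⟩
  choose a ha using hpow
  let a' : ℕ → ℕ := fun q => if h : q.Prime then a ⟨q, h⟩ else 0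
  obtain ⟨k, hk⟩ := Nat.chineseRemainderOfFinset a' (fun q => q ^ m.factorization q) m.primeFactors
    (fun q hq => pow_ne_zero _ (Nat.prime_of_mem_primeFactors hq).ne_zero) (by
      intro q hq r hr hqr
      exact Nat.Coprime.pow _ _ ((Nat.coprime_primes (Nat.prime_of_mem_primeFactors hq)
        (Nat.prime_of_mem_primeFactors hr)).mpr hqr))
  have hdvd : ∀ p : Nat.Primes, (m : ℤ_[(p : ℕ)]) ∣ z p - (k : ℤ_[(p : ℕ)]) := by
    intro p
    obtain ⟨u, hu, hu'⟩ : ∃ u : ℕ, m = (p : ℕ) ^ m.factorization p * u ∧ ¬ (p : ℕ) ∣ u :=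
      ⟨m / (p : ℕ) ^ m.factorization p, (Nat.ordProj_mul_ordCompl_eq_self m p).symm,
        Nat.not_dvd_ordCompl p.2 hm⟩
    have hunit : IsUnit (u : ℤ_[(p : ℕ)]) := by
      rw [PadicInt.isUnit_iff]
      refine le_antisymm (PadicInt.norm_le_one _) (not_lt.mp fun h => hu' ?_)
      have := (PadicInt.norm_int_lt_one_iff_dvd (p := (p : ℕ)) (u : ℤ)).mp (by simpa using h)
      exact_mod_cast this
    have hm' : (m : ℤ_[(p : ℕ)]) =
        ((p : ℕ) : ℤ_[(p : ℕ)]) ^ m.factorization p * (u : ℤ_[(p : ℕ)]) := by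
      rw [← Nat.cast_pow, ← Nat.cast_mul, ← hu]
    rw [hm', IsUnit.mul_right_dvd hunit]
    by_cases hp : (p : ℕ) ∈ m.primeFactors
    · have h1 := hk _ hp
      simp only [a', dif_pos p.2] at h1
      have h2 : (((p : ℕ) ^ m.factorization p : ℕ) : ℤ_[(p : ℕ)]) ∣
          (a p : ℤ_[(p : ℕ)]) - (k : ℤ_[(p : ℕ)]) := by
        obtain ⟨c, hc⟩ := Nat.modEq_iff_dvd.mp h1
        refine ⟨(c : ℤ_[(p : ℕ)]), ?_⟩
        have := congrArg (fun x : ℤ => (x : ℤ_[(p : ℕ)])) hc
        push_cast at this ⊢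
        exact this
      rw [Nat.cast_pow] at h2
      simpa using dvd_add (ha p) h2
    · have : m.factorization p = 0 := by
        by_contra hne
        exact hp (Nat.support_factorization m ▸ Finsupp.mem_support_iff.mpr hne)
      rw [this, pow_zero]
      exact one_dvd _
  choose z' hz' using hdvd
  exact ⟨(k : ℤ), z', funext fun p => by
    have := hz' p
    simp only [Pi.add_apply, Pi.mul_apply, zhat_natCast_apply, Int.cast_natCast]
    linear_combination this⟩

/-- An integer divisible by `m` in `Ẑ` is divisible by `m`. -/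
theorem zhat_dvd_int {m : ℕ} (hm : m ≠ 0) {k : ℤ} (h : (m : Zhat) ∣ (k : Zhat)) : (m : ℤ) ∣ k := by
  obtain ⟨z, hz⟩ := h
  have hq : ∀ q : ℕ, q.Prime → ((q : ℤ) ^ m.factorization q) ∣ k := by
    intro q hq
    have : Fact q.Prime := ⟨hq⟩
    have h1 : (m : ℤ_[q]) ∣ (k : ℤ_[q]) := ⟨z ⟨q, hq⟩, congrFun hz ⟨q, hq⟩⟩
    have h2 : ((q : ℤ_[q]) ^ m.factorization q) ∣ (k : ℤ_[q]) := by
      refine dvd_trans ?_ h1
      rw [← Nat.cast_pow]
      exact (Nat.castRingHom ℤ_[q]).map_dvd (Nat.ordProj_dvd m q)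
    exact (PadicInt.pow_p_dvd_int_iff _ k).mp h2
  rw [← Int.natAbs_dvd_natAbs, Int.natAbs_natCast]
  rcases eq_or_ne k 0 with rfl | hk
  · exact dvd_zero m
  refine (Nat.factorization_le_iff_dvd hm (Int.natAbs_ne_zero.mpr hk)).mp fun q => ?_
  by_cases hq' : q.Prime
  · refine (hq'.pow_dvd_iff_le_factorization (Int.natAbs_ne_zero.mpr hk)).mp ?_
    exact Int.natCast_dvd.mp (by exact_mod_cast hq q hq')
  · rw [Nat.factorization_eq_zero_of_not_prime _ hq']
    exact Nat.zero_le _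

/-- An integer congruent to a profinite integer modulo `m`. -/
def zhatRes (m : ℕ) [NeZero m] (z : Zhat) : ℤ := (zhat_exists_int_add (NeZero.ne m) z).choose

theorem zhatRes_spec (m : ℕ) [NeZero m] (z : Zhat) :
    (m : Zhat) ∣ z - (zhatRes m z : Zhat) := by
  obtain ⟨a, ha⟩ := (zhat_exists_int_add (NeZero.ne m) z).choose_spec
  exact ⟨a, by rw [sub_eq_iff_eq_add']; exact ha⟩

theorem zhatRes_eq {m : ℕ} [NeZero m] {z : Zhat} {k : ℤ} (h : (m : Zhat) ∣ z - (k : Zhat)) :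
    (zhatRes m z : ZMod m) = (k : ZMod m) := by
  rw [ZMod.intCast_eq_intCast_iff_dvd_sub]
  refine zhat_dvd_int (NeZero.ne m) ?_
  have := dvd_sub (zhatRes_spec m z) h
  rw [sub_sub_sub_cancel_left] at this
  rwa [Int.cast_sub]

/-- Reduction of profinite integers modulo `m`. -/
def zhatMod (m : ℕ) [NeZero m] : Zhat →+* ZMod m where
  toFun z := (zhatRes m z : ZMod m)
  map_one' := by rw [zhatRes_eq (k := 1) (by simp)]; exact Int.cast_one
  map_zero' := by rw [zhatRes_eq (k := 0) (by simp)]; exact Int.cast_zero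
  map_mul' z w := by
    obtain ⟨a, ha⟩ := zhatRes_spec m z
    obtain ⟨b, hb⟩ := zhatRes_spec m w
    rw [← Int.cast_mul]
    refine zhatRes_eq ⟨(zhatRes m z : Zhat) * b + w * a, ?_⟩
    push_cast
    linear_combination (w : Zhat) * ha + (zhatRes m z : Zhat) * hb
  map_add' z w := by
    obtain ⟨a, ha⟩ := zhatRes_spec m z
    obtain ⟨b, hb⟩ := zhatRes_spec m w
    rw [← Int.cast_add]
    refine zhatRes_eq ⟨a + b, ?_⟩
    push_cast
    linear_combination ha + hb

variable (F : Type) [Field F] [NumberField F]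

/-- `𝓞 F ⊗ Ẑ`. -/
abbrev OH : Type := 𝓞 F ⊗[ℤ] Zhat

variable {F}

/-- Every element of `𝓞 F ⊗ Ẑ` is principal modulo `m`. -/
theorem oh_exists_add {m : ℕ} (hm : m ≠ 0) (x : OH F) :
    ∃ (a : 𝓞 F) (y : OH F), x = a ⊗ₜ[ℤ] 1 + (m : OH F) * y := by
  induction x using TensorProduct.induction_on with
  | zero => exact ⟨0, 0, by simp⟩
  | tmul a z =>
    obtain ⟨k, z', rfl⟩ := zhat_exists_int_add hm z
    refine ⟨k • a, a ⊗ₜ z', ?_⟩
    rw [TensorProduct.tmul_add, TensorProduct.smul_tmul, zsmul_one]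
    congr 1
    rw [← nsmul_eq_mul, ← nsmul_eq_mul, TensorProduct.tmul_smul]
  | add x y hx hy =>
    obtain ⟨a, u, rfl⟩ := hx
    obtain ⟨b, v, rfl⟩ := hy
    exact ⟨a + b, u + v, by rw [TensorProduct.add_tmul]; ring⟩

/-- The map of integral adeles is injective. -/
theorem intHom_injective : Function.Injective (intHom F) := by
  have h : Function.Injective (((algebraMap (𝓞 F) F).toIntAlgHom.toLinearMap).rTensor Zhat) :=
    Module.Flat.rTensor_preserves_injective_linearMap _ RingOfIntegers.coe_injective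
  exact h

/-- The residue map `𝓞 F ⊗ Ẑ → 𝓞 F / n` for an ideal containing the nonzero integer `N`. -/
def residueOH (n : Ideal (𝓞 F)) (N : ℕ) [NeZero N] (hN : (N : 𝓞 F) ∈ n) : OH F →ₐ[ℤ] 𝓞 F ⧸ n :=
  haveI := ringChar.charP (𝓞 F ⧸ n)
  Algebra.TensorProduct.lift (Ideal.Quotient.mk n).toIntAlgHom
    ((ZMod.castHom (ringChar.dvd (R := 𝓞 F ⧸ n) (x := N)
      (by rw [← map_natCast (Ideal.Quotient.mk n), Ideal.Quotient.eq_zero_iff_mem]; exact hN))
      (𝓞 F ⧸ n)).comp (zhatMod N)).toIntAlgHom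
    fun _ _ => Commute.all _ _

theorem residueOH_tmul_one (n : Ideal (𝓞 F)) (N : ℕ) [NeZero N] (hN : (N : 𝓞 F) ∈ n) (a : 𝓞 F) :
    residueOH n N hN (a ⊗ₜ 1) = Ideal.Quotient.mk n a := by
  refine (Algebra.TensorProduct.lift_tmul _ _ _ a 1).trans ?_
  refine Eq.trans (congrArg (_ * ·) (map_one _)) ?_
  exact mul_one _

/-- The ideal of a level given by a natural number. -/
abbrev lv (F : Type) [Field F] (N : ℕ) : Ideal (𝓞 F) := Ideal.span {(N : 𝓞 F)}

/-- The ideal of a nonzero level is nonzero. -/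
theorem lv_ne_bot {N : ℕ} (hN : N ≠ 0) : lv F N ≠ ⊥ := by
  rw [Ne, Ideal.span_singleton_eq_bot]
  exact Nat.cast_ne_zero.mpr hN

/-- An automorphism on the integers. -/
abbrev intAut (σ : F ≃ₐ[ℚ] F) : 𝓞 F →+* 𝓞 F := RingOfIntegers.mapRingHom σ.toAlgHom.toRingHom

variable {n m : Ideal (𝓞 F)}

/-- Extension of an ideal to `𝓞 F ⊗ Ẑ`. -/
abbrev idealOH (n : Ideal (𝓞 F)) : Ideal (OH F) :=
  Ideal.map (Algebra.TensorProduct.includeLeftRingHom : 𝓞 F →+* OH F) n

/-- An element of an ideal gives an element of its adelic closure. -/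
theorem tmul_one_mem_idealOH {a : 𝓞 F} (h : a ∈ n) : a ⊗ₜ[ℤ] (1 : Zhat) ∈ idealOH n :=
  Ideal.mem_map_of_mem _ h

/-- An integer in `n` lies in its adelic closure. -/
theorem natCast_mem_idealOH {N : ℕ} (hN : (N : 𝓞 F) ∈ n) : (N : OH F) ∈ idealOH n := by
  have := Ideal.mem_map_of_mem (Algebra.TensorProduct.includeLeftRingHom : 𝓞 F →+* OH F) hN
  rwa [map_natCast] at this

/-- A nonzero ideal has nonzero norm. -/
theorem absNorm_ne_zero (hn : n ≠ ⊥) : Ideal.absNorm n ≠ 0 := fun h =>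
  hn (Ideal.absNorm_eq_zero_iff.mp h)

theorem ker_residueOH (n : Ideal (𝓞 F)) (N : ℕ) [NeZero N] (hN : (N : 𝓞 F) ∈ n) :
    RingHom.ker (residueOH n N hN).toRingHom = idealOH n := by
  refine le_antisymm (fun x hx => ?_) ?_
  · obtain ⟨a, y, rfl⟩ := oh_exists_add (F := F) (NeZero.ne N) x
    have h0 : residueOH n N hN (a ⊗ₜ 1 + (N : OH F) * y) = 0 := hx
    rw [map_add, map_mul, map_natCast, residueOH_tmul_one, ← map_natCast (Ideal.Quotient.mk n),
      Ideal.Quotient.eq_zero_iff_mem.mpr hN, zero_mul, add_zero,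
      Ideal.Quotient.eq_zero_iff_mem] at h0
    exact add_mem (tmul_one_mem_idealOH h0) (Ideal.mul_mem_right _ _ (natCast_mem_idealOH hN))
  · rw [idealOH, Ideal.map_le_iff_le_comap]
    intro a ha
    show residueOH n N hN (a ⊗ₜ 1) = 0
    rw [residueOH_tmul_one, Ideal.Quotient.eq_zero_iff_mem]
    exact ha

/-- An ideal meets `𝓞 F` in itself. -/
theorem tmul_one_mem_idealOH_iff (hn : n ≠ ⊥) {a : 𝓞 F} :
    a ⊗ₜ[ℤ] (1 : Zhat) ∈ idealOH n ↔ a ∈ n := by
  refine ⟨fun h => ?_, tmul_one_mem_idealOH⟩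
  have : NeZero (Ideal.absNorm n) := ⟨absNorm_ne_zero hn⟩
  rw [← ker_residueOH n _ (Ideal.absNorm_mem n)] at h
  have : residueOH n _ (Ideal.absNorm_mem n) (a ⊗ₜ 1) = 0 := h
  rwa [residueOH_tmul_one, Ideal.Quotient.eq_zero_iff_mem] at this

/-- `𝓞 F` is dense in `𝓞 F ⊗ Ẑ`. -/
theorem exists_sub_mem_idealOH (hn : n ≠ ⊥) (x : OH F) :
    ∃ a : 𝓞 F, x - a ⊗ₜ 1 ∈ idealOH n := by
  obtain ⟨a, y, rfl⟩ := oh_exists_add (F := F) (absNorm_ne_zero hn) x
  exact ⟨a, by
    rw [add_sub_cancel_left]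
    exact Ideal.mul_mem_right _ _ (natCast_mem_idealOH (Ideal.absNorm_mem n))⟩

/-- An ideal of `𝓞 F ⊗ Ẑ` containing a nonzero integer is extended from `𝓞 F`. -/
theorem idealOH_comap {J : Ideal (OH F)} {N : ℕ} (hN : N ≠ 0) (hJ : (N : OH F) ∈ J) :
    idealOH (J.comap Algebra.TensorProduct.includeLeftRingHom) = J := by
  refine le_antisymm Ideal.map_comap_le fun x hx => ?_
  obtain ⟨a, y, rfl⟩ := oh_exists_add (F := F) hN x
  have hNy := Ideal.mul_mem_right y J hJ
  refine add_mem (tmul_one_mem_idealOH ?_) (Ideal.mul_mem_right _ _ (natCast_mem_idealOH ?_))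
  · show a ⊗ₜ[ℤ] (1 : Zhat) ∈ J
    exact (J.add_mem_iff_left hNy).mp hx
  · show (algebraMap (𝓞 F) (OH F)) (N : 𝓞 F) ∈ J
    rwa [map_natCast]

/-! ### Transport to `AF F` -/

/-- On integers the map of integral adeles is the diagonal. -/
theorem intHom_tmul_one (a : 𝓞 F) : intHom F (a ⊗ₜ 1) = toAF F a := by
  simp [intHom, toAF]

/-- Membership in the integral adeles. -/
theorem mem_intAF {x : AF F} : x ∈ intAF F ↔ ∃ y, intHom F y = x := Iff.rfl

/-- Membership in an adelic ideal. -/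
theorem mem_idealAF {x : AF F} : x ∈ idealAF F n ↔ ∃ y ∈ idealOH n, intHom F y = x := Iff.rfl

/-- Algebraic integers are integral adeles. -/
theorem toAF_mem_intAF (a : 𝓞 F) : toAF F a ∈ intAF F := ⟨a ⊗ₜ 1, intHom_tmul_one a⟩

/-- An adelic ideal consists of integral adeles. -/
theorem idealAF_le_intAF : idealAF F n ≤ (intAF F).toAddSubgroup := by
  rintro _ ⟨y, -, rfl⟩
  exact ⟨y, rfl⟩

/-- The adelic unit ideal is the ring of integral adeles. -/
theorem idealAF_top : idealAF F (⊤ : Ideal (𝓞 F)) = (intAF F).toAddSubgroup := by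
  refine le_antisymm idealAF_le_intAF ?_
  rintro _ ⟨y, rfl⟩
  exact ⟨y, by show y ∈ idealOH (⊤ : Ideal (𝓞 F)); rw [idealOH, Ideal.map_top]; trivial, rfl⟩

/-- Adelic ideals are monotone. -/
theorem idealAF_mono (h : n ≤ m) : idealAF F n ≤ idealAF F m := by
  rintro _ ⟨y, hy, rfl⟩
  exact ⟨y, Ideal.map_mono h hy, rfl⟩

/-- Adelic ideals absorb integral adeles. -/
theorem mul_mem_idealAF_left {x y : AF F} (hx : x ∈ intAF F) (hy : y ∈ idealAF F n) :
    x * y ∈ idealAF F n := by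
  obtain ⟨a, rfl⟩ := hx
  obtain ⟨b, hb, rfl⟩ := hy
  exact ⟨a * b, Ideal.mul_mem_left _ a hb, map_mul (intHom F) a b⟩

theorem mul_mem_idealAF {x y : AF F} (hx : x ∈ idealAF F n) (hy : y ∈ idealAF F m) :
    x * y ∈ idealAF F (n * m) := by
  obtain ⟨a, ha, rfl⟩ := hx
  obtain ⟨b, hb, rfl⟩ := hy
  refine ⟨a * b, ?_, map_mul (intHom F) a b⟩
  show a * b ∈ idealOH (n * m)
  rw [idealOH, Ideal.map_mul]
  exact Ideal.mul_mem_mul ha hb

/-- An element of `n` lies in the adelic ideal. -/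
theorem toAF_mem_idealAF {a : 𝓞 F} (h : a ∈ n) : toAF F a ∈ idealAF F n :=
  ⟨a ⊗ₜ 1, tmul_one_mem_idealOH h, intHom_tmul_one a⟩

/-- An integer in `n` lies in the adelic ideal. -/
theorem natCast_mem_idealAF {N : ℕ} (hN : (N : 𝓞 F) ∈ n) : (N : AF F) ∈ idealAF F n :=
  ⟨N, natCast_mem_idealOH hN, map_natCast (intHom F) N⟩

/-- Elements of `𝓞 F` in `idealAF` lie in the ideal. -/
theorem toAF_mem_idealAF_iff (hn : n ≠ ⊥) {a : 𝓞 F} :
    toAF F (a : F) ∈ idealAF F n ↔ a ∈ n := by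
  refine ⟨?_, toAF_mem_idealAF⟩
  rintro ⟨y, hy, hya⟩
  have : y = a ⊗ₜ 1 := intHom_injective (hya.trans (intHom_tmul_one a).symm)
  rw [this] at hy
  exact (tmul_one_mem_idealOH_iff hn).mp hy

/-- A common integral denominator. -/
theorem exists_natCast_mul_mem_intAF (x : AF F) : ∃ N : ℕ, N ≠ 0 ∧ (N : AF F) * x ∈ intAF F := by
  induction x using TensorProduct.induction_on with
  | zero => exact ⟨1, one_ne_zero, by simp⟩
  | tmul f z =>
    obtain ⟨b, c, hc, hbc⟩ := IsFractionRing.div_surjective (A := 𝓞 F) f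
    have hc0 : c ≠ 0 := nonZeroDivisors.ne_zero hc
    set N := Ideal.absNorm (Ideal.span {c})
    obtain ⟨d, hd⟩ := Ideal.mem_span_singleton'.mp (Ideal.absNorm_mem (Ideal.span {c}))
    refine ⟨N, absNorm_ne_zero (by simpa using hc0), (d * b) ⊗ₜ z, ?_⟩
    have hf : (N : F) * f = algebraMap (𝓞 F) F (d * b) := by
      rw [← hbc, map_mul, ← map_natCast (algebraMap (𝓞 F) F), ← hd, map_mul]
      field_simp [RingOfIntegers.coe_ne_zero_iff.mpr hc0]
    show intHom F ((d * b) ⊗ₜ z) = (N : AF F) * (f ⊗ₜ z)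
    rw [show (N : AF F) = (N : F) ⊗ₜ[ℤ] (1 : Zhat) from (map_natCast (toAF F) N).symm,
      Algebra.TensorProduct.tmul_mul_tmul, one_mul, hf]
    simp [intHom]
  | add x y hx hy =>
    obtain ⟨M, hM, hx⟩ := hx
    obtain ⟨N, hN, hy⟩ := hy
    refine ⟨M * N, mul_ne_zero hM hN, ?_⟩
    rw [Nat.cast_mul, mul_add]
    refine add_mem ?_ ?_
    · rw [mul_right_comm]; exact mul_mem hx (natCast_mem _ N)
    · rw [mul_assoc]; exact mul_mem (natCast_mem _ M) hy

/-- A nonzero integer is a unit of the adeles. -/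
theorem isUnit_natCast_AF {N : ℕ} (hN : N ≠ 0) : IsUnit (N : AF F) := by
  rw [← map_natCast (toAF F) N]
  exact (Ne.isUnit (Nat.cast_ne_zero.mpr hN)).map (toAF F)

/-- `F` is dense: `AF = F + n Ô`. -/
theorem exists_sub_mem_idealAF (hn : n ≠ ⊥) (x : AF F) : ∃ f : F, x - toAF F f ∈ idealAF F n := by
  obtain ⟨N, hN, y, hy⟩ := exists_natCast_mul_mem_intAF x
  have hmn : Ideal.span {(N : 𝓞 F)} * n ≠ ⊥ :=
    mul_ne_zero (by simpa using hN) hn
  obtain ⟨a, ha⟩ := exists_sub_mem_idealOH hmn y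
  refine ⟨(a : F) / N, ?_⟩
  rw [idealOH, Ideal.map_mul, Ideal.map_span, Set.image_singleton, map_natCast] at ha
  obtain ⟨z, hz, hzy⟩ := Ideal.mem_span_singleton_mul.mp ha
  refine ⟨z, hz, (isUnit_natCast_AF hN).mul_left_cancel ?_⟩
  have h1 : (N : AF F) * toAF F ((a : F) / N) = intHom F (a ⊗ₜ 1) := by
    rw [intHom_tmul_one, ← map_natCast (toAF F), ← map_mul,
      mul_div_cancel₀ _ (Nat.cast_ne_zero.mpr hN)]
  rw [mul_sub, h1, ← map_natCast (intHom F) N]
  show intHom F (N : OH F) * intHom F z = _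
  rw [← map_mul, hzy, map_sub, map_natCast]
  exact congrArg₂ (· - ·) hy rfl

/-- A rational element which is integral at all finite places is integral. -/
theorem exists_eq_of_toAF_mem_intAF {f : F} (h : toAF F f ∈ intAF F) : ∃ a : 𝓞 F, (a : F) = f := by
  obtain ⟨b, c, hc, rfl⟩ := IsFractionRing.div_surjective (A := 𝓞 F) f
  have hc0 : c ≠ 0 := nonZeroDivisors.ne_zero hc
  obtain ⟨y, hy⟩ := h
  suffices hb : b ∈ Ideal.span {c} by
    obtain ⟨d, rfl⟩ := Ideal.mem_span_singleton'.mp hb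
    exact ⟨d, by
      rw [map_mul]
      exact (mul_div_cancel_right₀ _ (RingOfIntegers.coe_ne_zero_iff.mpr hc0)).symm⟩
  refine (tmul_one_mem_idealOH_iff (by simpa using hc0)).mp ?_
  have : b ⊗ₜ[ℤ] (1 : Zhat) = c ⊗ₜ 1 * y := intHom_injective <| by
    rw [map_mul, intHom_tmul_one, intHom_tmul_one]
    refine Eq.trans ?_ (congrArg (fun t => toAF F (c : F) * t) hy.symm)
    rw [← map_mul, mul_div_cancel₀ _ (RingOfIntegers.coe_ne_zero_iff.mpr hc0)]
  rw [this]
  exact Ideal.mul_mem_right _ _ (tmul_one_mem_idealOH (Ideal.mem_span_singleton_self c))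

/-! ### Functoriality -/

theorem mapAF_tmul {F' : Type} [Field F'] (f : F →+* F') (x : F) (z : Zhat) :
    mapAF f (x ⊗ₜ z) = f x ⊗ₜ z := by
  simp [mapAF]

/-- Base change of adeles extends the field map. -/
theorem mapAF_toAF {F' : Type} [Field F'] (f : F →+* F') (x : F) :
    mapAF f (toAF F x) = toAF F' (f x) := by
  simp [mapAF, toAF]

theorem mapAF_comp {F' F'' : Type} [Field F'] [Field F''] (f : F →+* F') (g : F' →+* F'') :
    (mapAF g).comp (mapAF f) = mapAF (g.comp f) := by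
  ext <;> simp [mapAF]

theorem mapAF_intHom {F' : Type} [Field F'] (f : F →+* F') (y : OH F) :
    mapAF f (intHom F y) =
      intHom F' (Algebra.TensorProduct.map (RingOfIntegers.mapRingHom f).toIntAlgHom
        (AlgHom.id ℤ Zhat) y) := by
  induction y using TensorProduct.induction_on with
  | zero => simp
  | tmul a z =>
    simp [mapAF, intHom]
  | add x y hx hy => simp only [map_add, hx, hy]

/-- Base change preserves integral adeles. -/
theorem mapAF_mem_intAF {F' : Type} [Field F'] (f : F →+* F') {x : AF F} (hx : x ∈ intAF F) :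
    mapAF f x ∈ intAF F' := by
  obtain ⟨y, rfl⟩ := hx
  exact ⟨_, (mapAF_intHom f y).symm⟩

/-- Base change sends an adelic ideal into that of the extended ideal. -/
theorem mapAF_mem_idealAF {F' : Type} [Field F'] (f : F →+* F') {x : AF F}
    (hx : x ∈ idealAF F n) : mapAF f x ∈ idealAF F' (n.map (RingOfIntegers.mapRingHom f)) := by
  obtain ⟨y, hy, rfl⟩ := hx
  refine ⟨_, ?_, (mapAF_intHom f y).symm⟩
  let g : OH F →+* OH F' := (Algebra.TensorProduct.map (RingOfIntegers.mapRingHom f).toIntAlgHom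
    (AlgHom.id ℤ Zhat)).toRingHom
  have h := Ideal.mem_map_of_mem g hy
  rw [Ideal.map_map] at h
  show g y ∈ idealOH (n.map (RingOfIntegers.mapRingHom f))
  unfold idealOH
  rw [Ideal.map_map]
  have hcomp : g.comp (Algebra.TensorProduct.includeLeftRingHom : 𝓞 F →+* OH F) =
      (Algebra.TensorProduct.includeLeftRingHom : 𝓞 F' →+* OH F').comp
        (RingOfIntegers.mapRingHom f) := by
    ext a
    simp [g]
  rwa [hcomp] at h

end FLTAgent.LanglandsTunnell
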