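import Fermat.Agent.LanglandsTunnell.AdelicRing

/-!
# Generators of ideals among the finite ideles

Every nonzero ideal has an idele generator, congruent to `1` modulo `n` when the ideal is prime to
`n`, and every idele is a principal one times such a generator.
-/

set_option autoImplicit false

noncomputable section

namespace FLTAgent.LanglandsTunnell

open scoped TensorProduct
open NumberField

variable {F : Type} [Field F] [NumberField F] {n w J K : Ideal (𝓞 F)}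

/-! ### Idempotents -/

/-- The idempotent of the prime `p`. -/
def deltaZhat (p : Nat.Primes) : Zhat := Pi.single p 1

theorem deltaZhat_mul_self (p : Nat.Primes) : deltaZhat p * deltaZhat p = deltaZhat p := by
  rw [deltaZhat, ← Pi.single_mul, one_mul]

theorem exists_natCast_mul_eq_deltaZhat (p : Nat.Primes) {N : ℕ} (hN : ¬ (p : ℕ) ∣ N) :
    ∃ u : Zhat, (N : Zhat) * u = deltaZhat p := by
  have hu : IsUnit (N : ℤ_[(p : ℕ)]) := by
    rw [PadicInt.isUnit_iff, PadicInt.norm_natCast_eq_one_iff]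
    exact p.2.coprime_iff_not_dvd.mpr hN
  refine ⟨Pi.single p ((hu.unit⁻¹ : ℤ_[(p : ℕ)]ˣ) : ℤ_[(p : ℕ)]), funext fun q => ?_⟩
  rcases eq_or_ne q p with rfl | hq
  · simp [deltaZhat, IsUnit.mul_val_inv hu]
  · simp [deltaZhat, hq]

theorem exists_natCast_mul_eq_one_sub_deltaZhat (p : Nat.Primes) :
    ∃ v : Zhat, ((p : ℕ) : Zhat) * v = 1 - deltaZhat p := by
  have h : ∀ q : Nat.Primes, ((p : ℕ) : ℤ_[(q : ℕ)]) ∣ (1 - deltaZhat p) q := by
    intro q
    rcases eq_or_ne q p with rfl | hq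
    · simp [deltaZhat]
    · refine IsUnit.dvd ?_
      rw [PadicInt.isUnit_iff, PadicInt.norm_natCast_eq_one_iff]
      exact (Nat.coprime_primes q.2 p.2).mpr fun h => hq (Subtype.ext h)
  choose v hv using h
  exact ⟨v, funext fun q => (hv q).symm⟩

/-! ### Membership -/

/-- A nonzero prime ideal contains a rational prime. -/
theorem exists_prime_natCast_mem (hw : w.IsPrime) (hw0 : w ≠ ⊥) :
    ∃ p : Nat.Primes, ((p : ℕ) : 𝓞 F) ∈ w := by
  have key : ∀ N : ℕ, N ≠ 0 → (N : 𝓞 F) ∈ w → ∃ p : Nat.Primes, ((p : ℕ) : 𝓞 F) ∈ w := by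
    intro N
    induction N using induction_on_primes with
    | zero => simp
    | one =>
      intro _ h
      rw [Nat.cast_one] at h
      exact absurd (w.eq_top_of_isUnit_mem h isUnit_one) hw.ne_top
    | prime_mul q N hq ih =>
      intro h0 h
      rw [Nat.cast_mul] at h
      rcases hw.mem_or_mem h with h | h
      · exact ⟨⟨q, hq⟩, h⟩
      · exact ih (right_ne_zero_of_mul h0) h
  exact key _ (absNorm_ne_zero hw0) (Ideal.absNorm_mem w)

/-- Membership of an integral adele in an adelic ideal. -/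
theorem intHom_mem_idealAF_iff {x : OH F} : intHom F x ∈ idealAF F n ↔ x ∈ idealOH n := by
  refine ⟨?_, fun h => ⟨x, h, rfl⟩⟩
  rintro ⟨y, hy, hxy⟩
  rwa [← intHom_injective hxy]

omit [NumberField F] in
theorem intHom_natCast (N : ℕ) : intHom F (N : OH F) = (N : AF F) := map_natCast (intHom F) N

/-- A uniformizer in terms of `𝓞 F ⊗ Ẑ`. -/
theorem isUniformizerAt_iff {π : (AF F)ˣ} :
    IsUniformizerAt n J π ↔ ∃ π₀ : OH F, intHom F π₀ = π ∧ π₀ - 1 ∈ idealOH n ∧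
      idealOH J = Ideal.span {π₀} := by
  constructor
  · rintro ⟨h1, h2⟩
    have hmem : (π : AF F) ∈ idealAF F J := h2 ▸ ⟨1, one_mem (intAF F), mul_one _⟩
    obtain ⟨π₀, hπ₀, hπ⟩ := mem_idealAF.mp hmem
    refine ⟨π₀, hπ, ?_, le_antisymm (fun x hx => ?_) ((Ideal.span_singleton_le_iff_mem _).mpr hπ₀)⟩
    · rw [← intHom_mem_idealAF_iff, map_sub, map_one, hπ]
      exact h1
    · have : intHom F x ∈ idealAF F J := ⟨x, hx, rfl⟩
      rw [h2] at this
      obtain ⟨_, ⟨y, rfl⟩, hyx⟩ := this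
      refine Ideal.mem_span_singleton'.mpr ⟨y, intHom_injective ?_⟩
      rw [map_mul, hπ, mul_comm]
      exact hyx
  · rintro ⟨π₀, hπ, h1, h2⟩
    refine ⟨?_, le_antisymm ?_ ?_⟩
    · rw [← hπ, ← map_one (intHom F), ← map_sub]
      exact intHom_mem_idealAF_iff.mpr h1
    · rintro _ ⟨x, hx, rfl⟩
      obtain ⟨y, rfl⟩ := Ideal.mem_span_singleton.mp
        (show x ∈ Ideal.span {π₀} from h2 ▸ hx)
      refine ⟨intHom F y, ⟨y, rfl⟩, ?_⟩
      show (π : AF F) * intHom F y = intHom F (π₀ * y)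
      rw [map_mul, hπ]
    · rintro _ ⟨_, ⟨y, rfl⟩, rfl⟩
      refine ⟨π₀ * y, (show π₀ * y ∈ idealOH J from h2.symm ▸
        Ideal.mem_span_singleton.mpr (dvd_mul_right π₀ y)), ?_⟩
      show intHom F (π₀ * y) = (π : AF F) * intHom F y
      rw [map_mul, hπ]

theorem isUniformizerAt_one : IsUniformizerAt n ⊤ (1 : (AF F)ˣ) :=
  isUniformizerAt_iff.mpr ⟨1, map_one _, by simp, by simp [idealOH, Ideal.map_top]⟩

theorem IsUniformizerAt.mul {π π' : (AF F)ˣ} (h : IsUniformizerAt n J π)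
    (h' : IsUniformizerAt n K π') : IsUniformizerAt n (J * K) (π * π') := by
  rw [isUniformizerAt_iff] at *
  obtain ⟨a, ha, ha1, haJ⟩ := h
  obtain ⟨b, hb, hb1, hbK⟩ := h'
  refine ⟨a * b, by rw [map_mul, ha, hb, Units.val_mul], ?_, ?_⟩
  · have : a * b - 1 = a * (b - 1) + (a - 1) := by ring
    rw [this]
    exact add_mem (Ideal.mul_mem_left _ a hb1) ha1
  · have : idealOH (J * K) = idealOH J * idealOH K := Ideal.map_mul _ _ _
    rw [this, haJ, hbK, Ideal.span_singleton_mul_span_singleton]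

/-- Two uniformizers differ by an integral unit congruent to `1`. -/
theorem IsUniformizerAt.exists_mul_eq {π π' : (AF F)ˣ} (h : IsUniformizerAt n J π)
    (h' : IsUniformizerAt n J π') :
    ∃ u : (AF F)ˣ, π' = π * u ∧ (u : AF F) ∈ intAF F ∧ ((u⁻¹ : (AF F)ˣ) : AF F) ∈ intAF F ∧
      (u : AF F) - 1 ∈ idealAF F n ∧ ((u⁻¹ : (AF F)ˣ) : AF F) - 1 ∈ idealAF F n := by
  have key : ∀ {π π' : (AF F)ˣ}, IsUniformizerAt n J π → IsUniformizerAt n J π' →
      ((π⁻¹ * π' : (AF F)ˣ) : AF F) ∈ intAF F ∧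
        ((π⁻¹ * π' : (AF F)ˣ) : AF F) - 1 ∈ idealAF F n := by
    intro π π' h h'
    have hmem : (π' : AF F) ∈ idealAF F J := h'.2 ▸ ⟨1, one_mem (intAF F), mul_one _⟩
    rw [h.2] at hmem
    obtain ⟨y, hy, hyπ⟩ := hmem
    have hval : ((π⁻¹ * π' : (AF F)ˣ) : AF F) = y := by
      rw [Units.val_mul, ← hyπ]
      exact Units.inv_mul_cancel_left π y
    refine ⟨hval ▸ hy, ?_⟩
    rw [hval]
    have : y - 1 = ((π' : AF F) - 1) - y * ((π : AF F) - 1) := by
      rw [← hyπ]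
      show y - 1 = ((π : AF F) * y - 1) - y * ((π : AF F) - 1)
      ring
    rw [this]
    exact sub_mem h'.1 (mul_mem_idealAF_left hy h.1)
  obtain ⟨a1, a2⟩ := key h h'
  obtain ⟨b1, b2⟩ := key h' h
  refine ⟨π⁻¹ * π', (mul_inv_cancel_left π π').symm, a1, ?_, a2, ?_⟩ <;>
    rw [mul_inv_rev, inv_inv] <;> assumption

/-- A local generator of a prime `w` not dividing `n`. -/
theorem exists_local_generator (hw : w.IsPrime) (hw0 : w ≠ ⊥) (hwn : ¬ w ∣ n) {p : Nat.Primes}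
    (hp : ((p : ℕ) : 𝓞 F) ∈ w) :
    ∃ (a : 𝓞 F) (J : Ideal (𝓞 F)) (N : ℕ), a ≠ 0 ∧ a ∈ w ∧ a - 1 ∈ n ∧
      Ideal.span {a} = w * J ∧ ¬ (p : ℕ) ∣ N ∧ (N : 𝓞 F) ∈ J := by
  classical
  have hwP : Prime w := Ideal.prime_of_isPrime hw0 hw
  set q : Ideal (𝓞 F) := ∏ v ∈ ((UniqueFactorizationMonoid.normalizedFactors
    (Ideal.span {((p : ℕ) : 𝓞 F)})).toFinset.erase w), v with hq
  have hwq : ¬ w ∣ q := by
    rw [hq, Prime.dvd_finsetProd_iff hwP]
    rintro ⟨v, hv, hdvd⟩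
    obtain ⟨hne, hv⟩ := Finset.mem_erase.mp hv
    have hvP := UniqueFactorizationMonoid.prime_of_normalized_factor v (Multiset.mem_toFinset.mp hv)
    exact hne (associated_iff_eq.mp (hwP.associated_of_dvd hvP hdvd)).symm
  have hcop : ∀ I : Ideal (𝓞 F), ¬ w ∣ I → IsCoprime w I := by
    intro I hI
    rw [Ideal.isCoprime_iff_sup_eq]
    exact (hw.isMaximal hw0).out.2 _ (lt_of_le_of_ne le_sup_left fun h =>
      hI (Ideal.dvd_iff_le.mpr (h ▸ le_sup_right)))
  obtain ⟨a₀, ha₀⟩ := IsDedekindDomain.exists_sup_span_eq (Ideal.mul_le_left (I := w) (J := w))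
    (mul_ne_zero hw0 hw0)
  have hnq : ¬ w ∣ n * q := fun h => (hwP.dvd_or_dvd h).elim hwn hwq
  obtain ⟨s, hs, t, ht, hst⟩ := Ideal.isCoprime_iff_exists.mp
    (((hcop _ hnq).mul_left (hcop _ hnq)) : IsCoprime (w * w) (n * q))
  set a : 𝓞 F := a₀ * t + s with ha
  have ha1 : a - 1 ∈ n * q := by
    have : a - 1 = (a₀ - 1) * t := by rw [ha]; linear_combination hst
    rw [this]
    exact Ideal.mul_mem_left _ _ ht
  have ha₀w : a₀ ∈ w := by rw [← ha₀]; exact Ideal.mem_sup_right (Ideal.mem_span_singleton_self _)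
  have haa : a - a₀ ∈ w * w := by
    have : a - a₀ = (1 - a₀) * s := by rw [ha]; linear_combination a₀ * hst
    rw [this]
    exact Ideal.mul_mem_left _ _ hs
  have haw : a ∈ w := by simpa using add_mem ha₀w (Ideal.mul_le_left haa)
  have hane : a ∉ w * w := by
    intro h
    have h0 : a₀ ∈ w * w := by simpa using sub_mem h haa
    have : w * w = w := by
      refine le_antisymm Ideal.mul_le_left ?_
      conv_lhs => rw [← ha₀]
      exact sup_le le_rfl ((Ideal.span_singleton_le_iff_mem _).mpr h0)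
    exact hw.ne_top (Ideal.one_eq_top (R := 𝓞 F) ▸ (mul_eq_left₀ hw0).mp this)
  obtain ⟨J, hJ⟩ := Ideal.dvd_iff_le.mpr ((Ideal.span_singleton_le_iff_mem w).mpr haw)
  have hJ0 : J ≠ ⊥ := by
    rintro rfl
    rw [Ideal.mul_bot, Ideal.span_singleton_eq_bot] at hJ
    exact hane (hJ ▸ zero_mem _)
  have hcopJ : IsCoprime J (Ideal.span {((p : ℕ) : 𝓞 F)}) := by
    rw [Ideal.isCoprime_iff_sup_eq]
    by_contra hne
    obtain ⟨v, hv, hle⟩ := Ideal.exists_le_maximal _ hne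
    have hvJ : J ≤ v := le_sup_left.trans hle
    have hvp : ((p : ℕ) : 𝓞 F) ∈ v := (le_sup_right.trans hle) (Ideal.mem_span_singleton_self _)
    rcases eq_or_ne v w with rfl | hne'
    · exact hane (Ideal.mul_mono_right hvJ (hJ ▸ Ideal.mem_span_singleton_self a))
    · have hv0 : v ≠ ⊥ := fun h0 => by
        rw [h0, Ideal.mem_bot, Nat.cast_eq_zero] at hvp
        exact p.2.ne_zero hvp
      obtain ⟨v', hv', hassoc⟩ := UniqueFactorizationMonoid.exists_mem_normalizedFactors_of_dvd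
        (by simpa using p.2.ne_zero) (Ideal.prime_of_isPrime hv0 hv.isPrime).irreducible
        (Ideal.dvd_iff_le.mpr ((Ideal.span_singleton_le_iff_mem v).mpr hvp))
      rw [associated_iff_eq] at hassoc
      subst hassoc
      have hqv : n * q ≤ v := Ideal.mul_le_right.trans (Ideal.le_of_dvd
        (Finset.dvd_prod_of_mem _ (Finset.mem_erase.mpr ⟨hne', Multiset.mem_toFinset.mpr hv'⟩)))
      have hav : a ∈ v := hvJ (Ideal.le_of_dvd ⟨w, by rw [hJ, mul_comm]⟩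
        (Ideal.mem_span_singleton_self a))
      exact hv.ne_top (v.eq_top_of_isUnit_mem (by simpa using sub_mem hav (hqv ha1)) isUnit_one)
  have hN0 : Ideal.absNorm J ≠ 0 := absNorm_ne_zero hJ0
  set k := (Ideal.absNorm J).factorization p
  obtain ⟨j, hj, x, hx, hjx⟩ := Ideal.isCoprime_iff_exists.mp (hcopJ.pow_right (n := k))
  rw [Ideal.span_singleton_pow, Ideal.mem_span_singleton'] at hx
  obtain ⟨x, rfl⟩ := hx
  refine ⟨a, J, Ideal.absNorm J / (p : ℕ) ^ k, fun h => hane (h ▸ zero_mem _), haw,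
    Ideal.mul_le_left ha1, hJ, Nat.not_dvd_ordCompl p.2 hN0, ?_⟩
  have hN : ((p : ℕ) : 𝓞 F) ^ k * ((Ideal.absNorm J / (p : ℕ) ^ k : ℕ) : 𝓞 F) ∈ J := by
    have := Ideal.absNorm_mem J
    rwa [← Nat.ordProj_mul_ordCompl_eq_self (Ideal.absNorm J) (p : ℕ), Nat.cast_mul,
      Nat.cast_pow] at this
  rw [← mul_one ((Ideal.absNorm J / (p : ℕ) ^ k : ℕ) : 𝓞 F), ← hjx, mul_add]
  refine add_mem (Ideal.mul_mem_left _ _ hj) ?_
  rw [mul_left_comm, mul_comm _ (((p : ℕ) : 𝓞 F) ^ k)]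
  exact Ideal.mul_mem_left _ _ hN

/-- Uniformizers at a prime not dividing `n`. -/
theorem exists_isUniformizerAt_prime (hw : w.IsPrime) (hw0 : w ≠ ⊥) (hwn : ¬ w ∣ n) :
    ∃ π : (AF F)ˣ, IsUniformizerAt n w π := by
  obtain ⟨p, hp⟩ := exists_prime_natCast_mem hw hw0
  obtain ⟨a, J, N, ha0, haw, ha1, hJ, hpN, hNJ⟩ := exists_local_generator hw hw0 hwn hp
  obtain ⟨u, hu⟩ := exists_natCast_mul_eq_deltaZhat p hpN
  obtain ⟨c, hc⟩ := exists_natCast_mul_eq_one_sub_deltaZhat p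
  set e : OH F := 1 ⊗ₜ[ℤ] deltaZhat p with he
  have hee : e * e = e := by
    rw [he, Algebra.TensorProduct.tmul_mul_tmul, one_mul, deltaZhat_mul_self]
  set π₀ : OH F := a ⊗ₜ 1 * e + (1 - e) with hπ₀
  have hinv : intHom F π₀ *
      (toAF F (a : F)⁻¹ * intHom F e + (1 - intHom F e)) = 1 := by
    have h1 : toAF F (a : F) * toAF F (a : F)⁻¹ = 1 := by
      rw [← map_mul, mul_inv_cancel₀ (RingOfIntegers.coe_ne_zero_iff.mpr ha0), map_one]
    have h2 : intHom F e * intHom F e = intHom F e := by rw [← map_mul, hee]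
    rw [hπ₀, map_add, map_mul, map_sub, map_one, intHom_tmul_one]
    linear_combination (intHom F e * intHom F e) * h1 +
      (2 - toAF F (a : F) - toAF F (a : F)⁻¹) * h2
  refine ⟨Units.mkOfMulEqOne _ _ hinv, isUniformizerAt_iff.mpr ⟨π₀, rfl, ?_, ?_⟩⟩
  · have : π₀ - 1 = (a - 1) ⊗ₜ 1 * e := by
      rw [hπ₀, TensorProduct.sub_tmul, ← Algebra.TensorProduct.one_def]; ring
    rw [this]
    exact Ideal.mul_mem_right _ _ (tmul_one_mem_idealOH ha1)
  · refine le_antisymm (Ideal.map_le_iff_le_comap.mpr fun x hx => ?_)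
      ((Ideal.span_singleton_le_iff_mem _).mpr ?_)
    · obtain ⟨d, hd⟩ := Ideal.mem_span_singleton'.mp (show (N : 𝓞 F) * x ∈ Ideal.span {a} by
        rw [hJ, mul_comm w]; exact Ideal.mul_mem_mul hNJ hx)
      refine Ideal.mem_span_singleton'.mpr ⟨d ⊗ₜ u * e + x ⊗ₜ 1 * (1 - e), ?_⟩
      show _ = x ⊗ₜ[ℤ] (1 : Zhat)
      have hde : d ⊗ₜ[ℤ] u * (a ⊗ₜ 1) = x ⊗ₜ 1 * e := by
        rw [he, Algebra.TensorProduct.tmul_mul_tmul, Algebra.TensorProduct.tmul_mul_tmul, hd,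
          mul_one, mul_one, one_mul, ← hu, ← nsmul_eq_mul, ← nsmul_eq_mul, TensorProduct.smul_tmul]
      rw [hπ₀]
      linear_combination (e * e) * hde +
        (x ⊗ₜ[ℤ] (1 : Zhat) * e - d ⊗ₜ[ℤ] u - x ⊗ₜ[ℤ] (1 : Zhat) * (a ⊗ₜ[ℤ] (1 : Zhat)) +
          2 * (x ⊗ₜ[ℤ] (1 : Zhat))) * hee
    · rw [hπ₀]
      refine add_mem (Ideal.mul_mem_right _ _ (tmul_one_mem_idealOH haw)) ?_
      have : (1 : OH F) - e = ((p : ℕ) : OH F) * (1 ⊗ₜ c) := by
        rw [he, ← nsmul_eq_mul, ← TensorProduct.tmul_smul, nsmul_eq_mul, hc, TensorProduct.tmul_sub]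
        rfl
      rw [this]
      exact Ideal.mul_mem_right _ _ (natCast_mem_idealOH hp)

/-- Every nonzero ideal prime to `n` has an idele generator congruent to `1`. -/
theorem exists_isUniformizerAt (hJ : J ≠ ⊥) (hJn : J ⊔ n = ⊤) :
    ∃ π : (AF F)ˣ, IsUniformizerAt n J π := by
  induction J using UniqueFactorizationMonoid.induction_on_prime with
  | h₁ => exact absurd rfl hJ
  | h₂ I hI => rw [Ideal.isUnit_iff.mp hI]; exact ⟨1, isUniformizerAt_one⟩
  | h₃ I P hI hP ih =>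
    have hP' : P.IsPrime := Ideal.isPrime_of_prime hP
    obtain ⟨π₁, h₁⟩ := exists_isUniformizerAt_prime hP' hP.ne_zero fun h => hP'.ne_top
      (top_le_iff.mp (hJn ▸ sup_le Ideal.mul_le_left (Ideal.le_of_dvd h)))
    obtain ⟨π₂, h₂⟩ := ih hI (top_le_iff.mp (hJn ▸ sup_le_sup_right Ideal.mul_le_right n))
    exact ⟨π₁ * π₂, h₁.mul h₂⟩

/-- The extension of a nonzero ideal is principal, generated by an idele. -/
theorem exists_idealOH_eq_span (hJ : J ≠ ⊥) :
    ∃ π₀ : OH F, IsUnit (intHom F π₀) ∧ idealOH J = Ideal.span {π₀} := by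
  obtain ⟨π, h⟩ := exists_isUniformizerAt (n := ⊤) hJ (sup_top_eq _)
  obtain ⟨π₀, hπ, -, hspan⟩ := isUniformizerAt_iff.mp h
  exact ⟨π₀, hπ ▸ π.isUnit, hspan⟩

/-- An integral element which is invertible in `AF F` divides a nonzero integer. -/
theorem exists_natCast_mem_span (π₀ : OH F) (h : IsUnit (intHom F π₀)) :
    ∃ N : ℕ, N ≠ 0 ∧ (N : OH F) ∈ Ideal.span {π₀} := by
  obtain ⟨N, hN, y, hy⟩ := exists_natCast_mul_mem_intAF ((h.unit⁻¹ : (AF F)ˣ) : AF F)
  refine ⟨N, hN, Ideal.mem_span_singleton'.mpr ⟨y, intHom_injective ?_⟩⟩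
  rw [map_mul, intHom_natCast]
  refine (congrArg (· * intHom F π₀) (show intHom F y = _ from hy)).trans ?_
  rw [mul_assoc, IsUnit.val_inv_mul, mul_one]

/-- Every idele is principal up to an idele congruent to `1` generating an ideal prime to `n`. -/
theorem exists_eq_toAF_mul (hn : n ≠ ⊥) (y : (AF F)ˣ) :
    ∃ (f : Fˣ) (J : Ideal (𝓞 F)) (t : (AF F)ˣ), J ≠ ⊥ ∧ J ⊔ n = ⊤ ∧ IsUniformizerAt n J t ∧
      y = Units.map (toAF F : F →* AF F) f * t := by
  obtain ⟨M, hM, z₀, hz₀⟩ := exists_natCast_mul_mem_intAF ((y⁻¹ : (AF F)ˣ) : AF F)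
  have hz₀' : intHom F z₀ = (M : AF F) * ((y⁻¹ : (AF F)ˣ) : AF F) := hz₀
  obtain ⟨N, hN, hNz⟩ := exists_natCast_mem_span z₀
    (hz₀' ▸ (isUnit_natCast_AF hM).mul (y⁻¹).isUnit)
  obtain ⟨v, hv⟩ := Ideal.mem_span_singleton'.mp hNz
  have h2 : (2 : 𝓞 F) ≠ 0 := two_ne_zero
  have hn2 : n * Ideal.span {(2 : 𝓞 F)} ≠ ⊥ := mul_ne_zero hn (by simp [h2])
  have hn2' : n * Ideal.span {(2 : 𝓞 F)} ≠ ⊤ := by
    intro h
    have : (2 : 𝓞 F) ∣ 1 := Ideal.mem_span_singleton.mp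
      (Ideal.mul_le_right (I := n) (h ▸ Submodule.mem_top : (1 : 𝓞 F) ∈ n * Ideal.span {2}))
    have h2u : IsUnit ((Nat.cast 2 : 𝓞 F)) := by
      rw [Nat.cast_ofNat]; exact isUnit_of_dvd_one this
    have := Ideal.absNorm_eq_one_iff.mpr (Ideal.span_singleton_eq_top.mpr h2u)
    rw [Ideal.absNorm_span_natCast] at this
    exact absurd ((pow_eq_one_iff.mp this).resolve_right
      (Module.finrank_pos (R := ℤ) (M := 𝓞 F)).ne') (by norm_num)
  obtain ⟨a, ha⟩ := exists_sub_mem_idealOH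
    (n := Ideal.span {(N : 𝓞 F)} * (n * Ideal.span {(2 : 𝓞 F)}))
    (mul_ne_zero (by simpa using hN) hn2) z₀
  have hmap : idealOH (Ideal.span {(N : 𝓞 F)} * (n * Ideal.span {(2 : 𝓞 F)})) =
      Ideal.span {(N : OH F)} * idealOH (n * Ideal.span {(2 : 𝓞 F)}) := by
    show Ideal.map _ _ = _
    rw [Ideal.map_mul, Ideal.map_span, Set.image_singleton, map_natCast]
  rw [hmap] at ha
  obtain ⟨d, hd, hda⟩ := Ideal.mem_span_singleton_mul.mp ha
  set t₀ : OH F := 1 - v * d with ht₀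
  have hvd : v * d ∈ idealOH (n * Ideal.span {(2 : 𝓞 F)}) := Ideal.mul_mem_left _ v hd
  have hzt : z₀ * t₀ = a ⊗ₜ 1 := by
    rw [ht₀]
    linear_combination -hda - d * hv
  have ha0 : a ≠ 0 := by
    rintro rfl
    rw [TensorProduct.zero_tmul] at hzt
    have h0 : intHom F t₀ = 0 := by
      refine ((hz₀' ▸ (isUnit_natCast_AF hM).mul (y⁻¹).isUnit :
        IsUnit (intHom F z₀))).mul_right_eq_zero.mp ?_
      rw [← map_mul, hzt, map_zero]
    rw [show (0 : AF F) = intHom F 0 from (map_zero _).symm] at h0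
    have h1 : (1 : OH F) ∈ idealOH (n * Ideal.span {(2 : 𝓞 F)}) := by
      rw [sub_eq_zero.mp (intHom_injective h0)]
      exact hvd
    rw [Algebra.TensorProduct.one_def] at h1
    exact hn2' (Ideal.eq_top_of_isUnit_mem _ ((tmul_one_mem_idealOH_iff hn2).mp h1) isUnit_one)
  have hz : intHom F z₀ * intHom F t₀ = toAF F (a : F) := by
    rw [← map_mul, hzt, intHom_tmul_one]
  have htu : IsUnit (intHom F t₀) :=
    isUnit_of_mul_isUnit_right (hz ▸ (Ne.isUnit (RingOfIntegers.coe_ne_zero_iff.mpr ha0)).map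
      (toAF F))
  obtain ⟨N', hN', hN't⟩ := exists_natCast_mem_span t₀ htu
  set J : Ideal (𝓞 F) :=
    (Ideal.span {t₀}).comap (Algebra.TensorProduct.includeLeftRingHom : 𝓞 F →+* OH F) with hJ
  have hJt : idealOH J = Ideal.span {t₀} := idealOH_comap hN' hN't
  have ht1 : t₀ - 1 ∈ idealOH n := by
    rw [ht₀, sub_sub_cancel_left]
    exact neg_mem (Ideal.map_mono Ideal.mul_le_left hvd)
  have hJ0 : J ≠ ⊥ := by
    intro h
    have : (N' : 𝓞 F) ∈ J := by
      rw [hJ, Ideal.mem_comap, map_natCast]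
      exact hN't
    rw [h, Ideal.mem_bot, Nat.cast_eq_zero] at this
    exact hN' this
  have hJn : J ⊔ n = ⊤ := by
    refine Ideal.eq_top_iff_one _ |>.mpr ?_
    have h1 : (1 : OH F) ∈ idealOH (J ⊔ n) := by
      rw [show (1 : OH F) = t₀ - (t₀ - 1) by ring]
      refine sub_mem (Ideal.map_mono le_sup_left ?_) (Ideal.map_mono le_sup_right ht1)
      rw [show Ideal.map _ J = Ideal.span {t₀} from hJt]
      exact Ideal.mem_span_singleton_self _
    rw [Algebra.TensorProduct.one_def] at h1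
    exact (tmul_one_mem_idealOH_iff fun h => hn (le_bot_iff.mp (le_sup_right.trans h.le))).mp h1
  have hf0 : (M : F) / (a : F) ≠ 0 :=
    div_ne_zero (Nat.cast_ne_zero.mpr hM) (RingOfIntegers.coe_ne_zero_iff.mpr ha0)
  refine ⟨Units.mk0 _ hf0, J, htu.unit, hJ0, hJn,
    isUniformizerAt_iff.mpr ⟨t₀, htu.unit_spec.symm, ht1, hJt⟩, Units.ext ?_⟩
  show (y : AF F) = toAF F ((M : F) / (a : F)) * intHom F t₀
  refine ((Ne.isUnit (RingOfIntegers.coe_ne_zero_iff.mpr ha0)).map (toAF F)).mul_right_cancel ?_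
  have hMa : toAF F ((M : F) / (a : F)) * toAF F (a : F) = (M : AF F) := by
    rw [← map_mul, div_mul_cancel₀ _ (RingOfIntegers.coe_ne_zero_iff.mpr ha0), map_natCast]
  rw [mul_right_comm, hMa, ← hz, hz₀', ← mul_assoc, mul_left_comm, Units.mul_inv, mul_one]

end FLTAgent.LanglandsTunnell
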