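import Mathlib

/-!
# The classical model for automorphic functions on `PGL(2)` over a totally complex field

Finite part: cosets of `GL(2, F ⊗ Ẑ)` by congruence subgroups and the centre, as a plain set.
Infinite part: a product of copies of hyperbolic three-space, one for each chosen embedding.
-/

set_option autoImplicit false

noncomputable section

namespace FLTAgent.LanglandsTunnell

open scoped TensorProduct
open NumberField Matrix MeasureTheory

/-! ### Finite adeles -/

instance fact_prime_natPrimes (p : Nat.Primes) : Fact (p : ℕ).Prime := ⟨p.2⟩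

/-- The profinite completion of `ℤ`. -/
abbrev Zhat : Type := (p : Nat.Primes) → ℤ_[(p : ℕ)]

variable (F : Type) [Field F]

/-- The finite adeles of `F`, as `F ⊗ Ẑ`. -/
abbrev AF : Type := F ⊗[ℤ] Zhat

/-- The principal finite adeles. -/
def toAF : F →+* AF F := Algebra.TensorProduct.includeLeftRingHom

/-- `𝓞 F ⊗ Ẑ → F ⊗ Ẑ`. -/
def intHom : (𝓞 F ⊗[ℤ] Zhat) →ₐ[ℤ] AF F :=
  Algebra.TensorProduct.map ((algebraMap (𝓞 F) F).toIntAlgHom) (AlgHom.id ℤ Zhat)

/-- The integral finite adeles. -/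
def intAF : Subring (AF F) := (intHom F).toRingHom.range

/-- The closure of an ideal inside the integral finite adeles. -/
def idealAF (n : Ideal (𝓞 F)) : AddSubgroup (AF F) :=
  (Ideal.map (Algebra.TensorProduct.includeLeftRingHom : 𝓞 F →+* 𝓞 F ⊗[ℤ] Zhat) n).toAddSubgroup.map
    (intHom F).toRingHom.toAddMonoidHom

variable {F}

/-- Functoriality of finite adeles. -/
def mapAF {F' : Type} [Field F'] (f : F →+* F') : AF F →ₐ[ℤ] AF F' :=
  Algebra.TensorProduct.map f.toIntAlgHom (AlgHom.id ℤ Zhat)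

/-- A matrix congruent to `1` modulo `n`. -/
def CongrOne (n : Ideal (𝓞 F)) (M : Matrix (Fin 2) (Fin 2) (AF F)) : Prop :=
  ∀ i j, (M - 1) i j ∈ idealAF F n

/-- Congruence to one modulo `n` is multiplicative. -/
theorem CongrOne.mul {n : Ideal (𝓞 F)} {A B : Matrix (Fin 2) (Fin 2) (AF F)}
    (hA : CongrOne n A) (hB : CongrOne n B) : CongrOne n (A * B) := by
  intro i j
  have hmul : ∀ {x y : AF F}, x ∈ idealAF F n → y ∈ idealAF F n → x * y ∈ idealAF F n := by
    rintro _ _ ⟨a, ha, rfl⟩ ⟨b, _, rfl⟩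
    exact ⟨a * b, Ideal.mul_mem_right b _ ha, map_mul (intHom F) a b⟩
  have he : A * B - 1 = (A - 1) * (B - 1) + (A - 1) + (B - 1) := by
    rw [Matrix.sub_mul, Matrix.mul_sub, Matrix.mul_one, Matrix.one_mul]
    abel
  rw [he, Matrix.add_apply, Matrix.add_apply, Matrix.mul_apply]
  exact add_mem (add_mem (sum_mem fun l _ => hmul (hA i l) (hB l j)) (hA i j)) (hB i j)

/-- The principal congruence subgroup of level `n` of `GL(2)` of the finite adeles. -/
def principalSubgroup (n : Ideal (𝓞 F)) : Subgroup (GL (Fin 2) (AF F)) where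
  carrier := {g | CongrOne n g.1 ∧ CongrOne n (g⁻¹).1}
  one_mem' := by
    refine ⟨fun i j => ?_, fun i j => ?_⟩ <;> simp
  mul_mem' {a b} ha hb := by
    refine ⟨?_, ?_⟩
    · rw [Units.val_mul]; exact ha.1.mul hb.1
    · rw [_root_.mul_inv_rev, Units.val_mul]; exact hb.2.mul ha.2
  inv_mem' {a} ha := ⟨ha.2, by rw [inv_inv]; exact ha.1⟩

/-- The level group: congruence subgroup times centre. -/
def levelGroup (n : Ideal (𝓞 F)) : Subgroup (GL (Fin 2) (AF F)) :=
  principalSubgroup n ⊔ Subgroup.center (GL (Fin 2) (AF F))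

variable (F)

/-- The finite part of the space at level `n`. -/
abbrev FinPt (n : Ideal (𝓞 F)) : Type := GL (Fin 2) (AF F) ⧸ levelGroup n

variable {F}

/-- An element `π` of the finite ideles that generates `w` and is `1` modulo `n`. -/
def IsUniformizerAt (n : Ideal (𝓞 F)) (w : Ideal (𝓞 F)) (π : (AF F)ˣ) : Prop :=
  (π : AF F) - 1 ∈ idealAF F n ∧
    idealAF F w = (intAF F).toAddSubgroup.map (AddMonoidHom.mulLeft (π : AF F))

/-- `diag(π, 1)`. -/
def diagUnit {R : Type} [CommRing R] (π : Rˣ) : GL (Fin 2) R where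
  val := !![(π : R), 0; 0, 1]
  inv := !![((π⁻¹ : Rˣ) : R), 0; 0, 1]
  val_inv := by ext i j; fin_cases i <;> fin_cases j <;> simp
  inv_val := by ext i j; fin_cases i <;> fin_cases j <;> simp

/-- Unipotent upper triangular matrix. -/
def upperUnip {R : Type} [CommRing R] (x : R) : GL (Fin 2) R where
  val := !![1, x; 0, 1]
  inv := !![1, -x; 0, 1]
  val_inv := by ext i j; fin_cases i <;> fin_cases j <;> simp
  inv_val := by ext i j; fin_cases i <;> fin_cases j <;> simp

/-- The Hecke neighbours of a coset at the prime `w`. -/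
def nbrs (n w : Ideal (𝓞 F)) (v : FinPt F n) : Set (FinPt F n) :=
  {v' | ∃ (g k : GL (Fin 2) (AF F)) (π : (AF F)ˣ), (g : FinPt F n) = v ∧ k ∈ principalSubgroup n ∧
    IsUniformizerAt n w π ∧ ((g * k * diagUnit π : GL (Fin 2) (AF F)) : FinPt F n) = v'}

/-! ### Hyperbolic three-space -/

/-- Upper half space model of hyperbolic three-space. -/
@[ext] structure H3 : Type where
  z : ℂ
  t : ℝ
  t_pos : 0 < t

namespace H3

/-- The coordinates. -/
def coords (P : H3) : ℂ × ℝ := (P.z, P.t)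

instance instMeasurableSpaceH3 : MeasurableSpace H3 := MeasurableSpace.comap coords inferInstance

instance instTopologicalSpaceH3 : TopologicalSpace H3 :=
  TopologicalSpace.induced coords inferInstance

/-- The invariant measure `dz dt / t³`. -/
def volH3 : Measure H3 :=
  ((volume : Measure (ℂ × ℝ)).withDensity fun x => ENNReal.ofReal (1 / x.2 ^ 3)).comap coords

/-- The hyperbolic cosine of the distance. -/
def coshDist (P Q : H3) : ℝ :=
  (‖P.z - Q.z‖ ^ 2 + P.t ^ 2 + Q.t ^ 2) / (2 * P.t * Q.t)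

theorem den_pos (g : GL (Fin 2) ℂ) (P : H3) :
    0 < ‖g 1 0 * P.z + g 1 1‖ ^ 2 + ‖g 1 0‖ ^ 2 * P.t ^ 2 := by
  rcases eq_or_ne (g 1 0) 0 with hc | hc
  · have hd : g 1 1 ≠ 0 := by
      intro hd
      have := (g.isUnit.map Matrix.detMonoidHom).ne_zero
      simp [Matrix.detMonoidHom, Matrix.det_fin_two, hc, hd] at this
    rw [hc]
    simp [hd]
  · have h1 : 0 < ‖g 1 0‖ ^ 2 * P.t ^ 2 := by
      have := P.t_pos
      positivity
    positivity

/-- The action of `GL(2, ℂ)`. -/
def moebius (g : GL (Fin 2) ℂ) (P : H3) : H3 where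
  z := ((g 0 0 * P.z + g 0 1) * (starRingEnd ℂ) (g 1 0 * P.z + g 1 1)
    + g 0 0 * (starRingEnd ℂ) (g 1 0) * (P.t : ℂ) ^ 2) /
      ((‖g 1 0 * P.z + g 1 1‖ ^ 2 + ‖g 1 0‖ ^ 2 * P.t ^ 2 : ℝ) : ℂ)
  t := ‖(g : Matrix (Fin 2) (Fin 2) ℂ).det‖ * P.t /
      (‖g 1 0 * P.z + g 1 1‖ ^ 2 + ‖g 1 0‖ ^ 2 * P.t ^ 2)
  t_pos := div_pos (mul_pos (norm_pos_iff.mpr (g.isUnit.map Matrix.detMonoidHom).ne_zero) P.t_pos)
    (den_pos g P)

/-- Horizontal translation. -/
def shift (x : ℂ) (P : H3) : H3 := ⟨P.z + x, P.t, P.t_pos⟩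

end H3

/-- The eigenvalue of a spherical kernel on the spherical function `r / sinh r`. -/
def sphValue (k : ℝ → ℝ) : ℝ :=
  4 * Real.pi * ∫ r in Set.Ioi (0 : ℝ), k (Real.cosh r) * r * Real.sinh r

/-! ### Automorphic functions -/

variable (F) in
/-- One embedding for each infinite place. -/
structure PlaceChoice (ι : Type) : Type where
  emb : ι → (F →+* ℂ)
  bijective : Function.Bijective fun i => InfinitePlace.mk (emb i)
  isComplex : ∀ i, (InfinitePlace.mk (emb i)).IsComplex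

variable (F) in
/-- Points of level `n`. -/
abbrev Pt (ι : Type) (n : Ideal (𝓞 F)) : Type := FinPt F n × (ι → H3)

variable {ι : Type} {n : Ideal (𝓞 F)}

/-- The action of `GL(2, F)` on points. -/
def act (Φ : PlaceChoice F ι) (γ : GL (Fin 2) F) (x : Pt F ι n) : Pt F ι n :=
  (Matrix.GeneralLinearGroup.map (toAF F) γ • x.1,
    fun i => H3.moebius (Matrix.GeneralLinearGroup.map (Φ.emb i) γ) (x.2 i))

/-- Left invariant, continuous, bounded. -/
structure IsAutomorphic (Φ : PlaceChoice F ι) (φ : Pt F ι n → ℂ) : Prop where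
  invariant : ∀ γ x, φ (act Φ γ x) = φ x
  continuous : ∀ v, Continuous fun P : ι → H3 => φ (v, P)
  bounded : ∃ C : ℝ, ∀ x, ‖φ x‖ ≤ C

/-- Vanishing constant terms: for every period lattice `m • 𝓞 F` fixing a coset, the mean over a
period cube is zero. -/
def IsCuspidal [NumberField F] (Φ : PlaceChoice F ι) (φ : Pt F ι n → ℂ) : Prop :=
  ∀ (v : FinPt F n) (P : ι → H3) (m : ℕ), m ≠ 0 →
    (∀ a : 𝓞 F, upperUnip (toAF F (m * (a : F))) • v = v) →
    ∫ s in Set.univ.pi (fun _ : Module.Free.ChooseBasisIndex ℤ (𝓞 F) => Set.Icc (0 : ℝ) 1),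
      φ (v, fun i => H3.shift
        (∑ j, (s j : ℂ) * (m * Φ.emb i (RingOfIntegers.basis F j : 𝓞 F))) (P i)) = 0

/-- Eigenfunction of the Hecke operator at `w` with normalised eigenvalue `a`. -/
def HeckeEigen [NumberField F] (φ : Pt F ι n → ℂ) (w : Ideal (𝓞 F)) (a : ℂ) : Prop :=
  ∀ v P, ∑ᶠ v' ∈ nbrs n w v, φ (v', P) = (Real.sqrt (Ideal.absNorm w) : ℂ) * a * φ (v, P)

/-- Spherical eigenfunction with spectral parameter `0` at every infinite place. -/
def SphericalZero [DecidableEq ι] (φ : Pt F ι n → ℂ) : Prop :=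
  ∀ (i : ι) (k : ℝ → ℝ), Continuous k → HasCompactSupport k → ∀ v P,
    ∫ Q, (k (H3.coshDist (P i) Q) : ℂ) * φ (v, Function.update P i Q) ∂H3.volH3 =
      (sphValue k : ℂ) * φ (v, P)

/-- A cuspidal spherical eigenform with eigenvalue system `a` outside `n`. -/
structure IsEigenform [NumberField F] [DecidableEq ι] (Φ : PlaceChoice F ι) (φ : Pt F ι n → ℂ)
    (a : Ideal (𝓞 F) → ℂ) : Prop where
  automorphic : IsAutomorphic Φ φ
  cuspidal : IsCuspidal Φ φ
  ne_zero : ∃ x, φ x ≠ 0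
  spherical : SphericalZero φ
  eigen : ∀ w : Ideal (𝓞 F), w.IsPrime → w ≠ ⊥ → ¬ w ∣ n → HeckeEigen φ w (a w)

end FLTAgent.LanglandsTunnell
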