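import Fermat.Agent.LanglandsTunnell.Datum

/-!
# Hecke kernels

The measure on the points, fundamental domains, kernels built from words in the Hecke operators
and point pair invariants, their convolution, and the automorphic kernel.
-/

set_option autoImplicit false

noncomputable section

namespace FLTAgent.LanglandsTunnell

open scoped TensorProduct
open NumberField MeasureTheory Matrix

instance instMeasurableSpaceFinPt {F : Type} [Field F] (n : Ideal (𝓞 F)) :
    MeasurableSpace (FinPt F n) := ⊤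

instance instMeasurableSingletonFinPt {F : Type} [Field F] (n : Ideal (𝓞 F)) :
    MeasurableSingletonClass (FinPt F n) := ⟨fun _ => trivial⟩

variable {F : Type} [Field F] {ι : Type} {n : Ideal (𝓞 F)}

/-- Counting measure times hyperbolic volume. -/
def volPt [Fintype ι] : Measure (Pt F ι n) :=
  (Measure.count : Measure (FinPt F n)).prod (Measure.pi fun _ : ι => H3.volH3)

variable (F) in
/-- `GL(2, F)` modulo scalars. -/
abbrev PGLF : Type := GL (Fin 2) F ⧸ Subgroup.center (GL (Fin 2) F)

/-- A fundamental domain for `GL(2, F)` modulo scalars. -/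
structure IsFundDomain [Fintype ι] (Φ : PlaceChoice F ι) (D : Set (Pt F ι n)) : Prop where
  measurable : MeasurableSet D
  finite_volume : volPt D < ⊤
  unique : ∀ᵐ x ∂(volPt : Measure (Pt F ι n)), ∃! γ : PGLF F, act Φ γ.out x ∈ D

/-- A kernel on points. -/
abbrev Kernel (F : Type) [Field F] (ι : Type) (n : Ideal (𝓞 F)) : Type :=
  Pt F ι n → Pt F ι n → ℂ

/-- The operator of a kernel. -/
def Kernel.op [Fintype ι] (κ : Kernel F ι n) (φ : Pt F ι n → ℂ) (x : Pt F ι n) : ℂ :=
  ∫ y, κ x y * φ y ∂volPt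

/-- Composition of kernels. -/
def Kernel.comp [Fintype ι] (κ μ : Kernel F ι n) : Kernel F ι n :=
  fun x z => ∫ y, κ x y * μ y z ∂volPt

/-- The kernel periodised over `GL(2, F)` modulo scalars. -/
def Kernel.periodise (Φ : PlaceChoice F ι) (κ : Kernel F ι n) : Kernel F ι n :=
  fun x y => ∑' γ : PGLF F, κ x (act Φ γ.out y)

/-- Number of Hecke paths of a word. -/
def wordKernel (n : Ideal (𝓞 F)) : List (Ideal (𝓞 F)) → FinPt F n → FinPt F n → ℂ
  | [], v, v' => by classical exact if v = v' then 1 else 0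
  | w :: ws, v, v' => ∑ᶠ u ∈ nbrs n w v, wordKernel n ws u v'

variable (F) in
/-- One term: a scalar, a word in Hecke operators, point pair invariants at infinity. -/
structure Term (ι : Type) : Type where
  coeff : ℂ
  word : List (Ideal (𝓞 F))
  inf : ι → ℝ → ℂ

variable (F) in
/-- A formal combination. -/
abbrev Comb (ι : Type) : Type := List (Term F ι)

/-- The kernel of a term. -/
def Term.kernel [Fintype ι] (n : Ideal (𝓞 F)) (T : Term F ι) : Kernel F ι n :=
  fun x y => T.coeff * wordKernel n T.word x.1 y.1 * ∏ i, T.inf i (H3.coshDist (x.2 i) (y.2 i))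

/-- The kernel of a combination. -/
def Comb.kernel [Fintype ι] (n : Ideal (𝓞 F)) (C : Comb F ι) : Kernel F ι n :=
  fun x y => (C.map fun T => T.kernel n x y).sum

/-- All weights at infinity are continuous with compact support, all primes satisfy `ok`. -/
def Comb.Good (ok : Ideal (𝓞 F) → Prop) (C : Comb F ι) : Prop :=
  ∀ T ∈ C, (∀ i, Continuous (T.inf i) ∧ HasCompactSupport (T.inf i)) ∧ ∀ w ∈ T.word, ok w

/-- The cut-off `0` on `(-∞, 0]`, `1` on `[1, ∞)`. -/
def unitClamp (c : ℝ) : ℝ := max 0 (min 1 c)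

theorem unitClamp_of_one_le {c : ℝ} (h : 1 ≤ c) : unitClamp c = 1 := by
  simp [unitClamp, min_eq_left h]

theorem unitClamp_of_nonpos {c : ℝ} (h : c ≤ 0) : unitClamp c = 0 :=
  max_eq_left (le_trans (min_le_right _ _) h)

theorem unitClamp_nonneg (c : ℝ) : 0 ≤ unitClamp c := le_max_left _ _

theorem continuous_unitClamp : Continuous unitClamp :=
  continuous_const.max (continuous_const.min continuous_id)

/-- Convolution of two point pair invariants: for `c ≥ 1` the composite invariant at hyperbolic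
cosine `c`, cut off continuously to `0` on `(-∞, 0]`. -/
def h3conv (k l : ℝ → ℂ) (c : ℝ) : ℂ :=
  (unitClamp c : ℂ) * ∫ Q : H3, k (H3.coshDist ⟨0, 1, one_pos⟩ Q) *
    l (H3.coshDist Q ⟨0, Real.exp (Real.arcosh (max c 1)), Real.exp_pos _⟩) ∂H3.volH3

theorem h3conv_of_one_le (k l : ℝ → ℂ) {c : ℝ} (h : 1 ≤ c) :
    h3conv k l c = ∫ Q : H3, k (H3.coshDist ⟨0, 1, one_pos⟩ Q) *
      l (H3.coshDist Q ⟨0, Real.exp (Real.arcosh (max c 1)), Real.exp_pos _⟩) ∂H3.volH3 := by
  rw [h3conv, unitClamp_of_one_le h, Complex.ofReal_one, one_mul]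

/-- Product of two combinations. -/
def Comb.mul (C C' : Comb F ι) : Comb F ι :=
  C.flatMap fun T => C'.map fun T' =>
    ⟨T.coeff * T'.coeff, T.word ++ T'.word, fun i => h3conv (T.inf i) (T'.inf i)⟩

/-! ### Descending a combination from `M` to `E` -/

variable (D : Datum)

/-- The prime of `E` under a prime of `M`. -/
def Datum.under (w : Ideal (𝓞 D.M)) : Ideal (𝓞 D.E) :=
  w.comap (RingOfIntegers.mapRingHom D.incl)

/-- A prime of `M` of residue degree one over `E`. -/
def Datum.DegreeOne (w : Ideal (𝓞 D.M)) : Prop :=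
  w.IsPrime ∧ w ≠ ⊥ ∧ Ideal.absNorm w = Ideal.absNorm (D.under w)

/-- A prime of `M` of residue degree three over `E`. -/
def Datum.DegreeThree (w : Ideal (𝓞 D.M)) : Prop :=
  w.IsPrime ∧ w ≠ ⊥ ∧ Ideal.absNorm w = Ideal.absNorm (D.under w) ^ 3

open scoped Classical in
/-- The image of `T_w`: `T_v` in degree one, `T_v ^ 3 - 3 N(v) T_v` in degree three. -/
def Datum.descPrime (w : Ideal (𝓞 D.M)) : List (ℂ × List (Ideal (𝓞 D.E))) :=
  if D.DegreeOne w then [(1, [D.under w])]
  else [(1, [D.under w, D.under w, D.under w]),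
    (-3 * (Ideal.absNorm (D.under w) : ℂ), [D.under w])]

/-- The image of a word. -/
def Datum.descWord : List (Ideal (𝓞 D.M)) → List (ℂ × List (Ideal (𝓞 D.E)))
  | [] => [(1, [])]
  | w :: ws => (D.descPrime w).flatMap fun a =>
      (Datum.descWord ws).map fun b => (a.1 * b.1, a.2 ++ b.2)

/-- The image of a combination. -/
def Datum.descComb (C : Comb D.M (Fin 3)) : Comb D.E Unit :=
  C.flatMap fun T => (D.descWord T.word).map fun a =>
    ⟨T.coeff * a.1, a.2, fun _ => h3conv (h3conv (T.inf 0) (T.inf 1)) (T.inf 2)⟩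

/-! ### The test element at ramified primes -/

/-- The component at a rational prime. -/
def compAF {F : Type} [Field F] (p : Nat.Primes) : AF F →ₐ[ℤ] F ⊗[ℤ] ℤ_[(p : ℕ)] :=
  Algebra.TensorProduct.map (AlgHom.id ℤ F)
    (Pi.evalAlgHom ℤ (fun q : Nat.Primes => ℤ_[(q : ℕ)]) p)

open scoped Classical in
/-- At the primes in `R`: `k y σ(k)⁻¹` with `k` of level `N₀` over `M` and `y` of level `N` 
over `E`; elsewhere level `N'`. -/
def ramElement (σ : D.M ≃ₐ[ℚ] D.M) (R : Finset Nat.Primes) (N₀ N N' : ℕ)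
    (ω : GL (Fin 2) (AF D.M)) : Prop :=
  (∀ p ∈ R, ∃ k ∈ principalSubgroup (Ideal.span {(N₀ : 𝓞 D.M)}),
    ∃ y ∈ principalSubgroup (Ideal.span {(N : 𝓞 D.E)}),
      Matrix.GeneralLinearGroup.map (compAF p).toRingHom ω =
        Matrix.GeneralLinearGroup.map (compAF p).toRingHom
          (k * Matrix.GeneralLinearGroup.map (mapAF D.incl).toRingHom y *
            (Matrix.GeneralLinearGroup.map (mapAF σ.toAlgHom.toRingHom).toRingHom k)⁻¹)) ∧
  (∀ p ∉ R, ∃ k ∈ principalSubgroup (Ideal.span {(N' : 𝓞 D.M)}),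
    Matrix.GeneralLinearGroup.map (compAF p).toRingHom ω =
      Matrix.GeneralLinearGroup.map (compAF p).toRingHom k)

open scoped Classical in
/-- The kernel of the test element, trivial at infinity (used under a composition). -/
def ramKernel (σ : D.M ≃ₐ[ℚ] D.M) (R : Finset Nat.Primes) (N₀ N N' : ℕ)
    (v v' : FinPt D.M (Ideal.span {(N' : 𝓞 D.M)})) : ℂ :=
  if ∃ g ω : GL (Fin 2) (AF D.M), ramElement D σ R N₀ N N' ω ∧
      (g : FinPt D.M (Ideal.span {(N' : 𝓞 D.M)})) = v ∧
      ((g * ω : GL (Fin 2) (AF D.M)) : FinPt D.M (Ideal.span {(N' : 𝓞 D.M)})) = v'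
  then 1 else 0

/-- The defining equations of `wordKernel`, stated next to the definition. -/
theorem wordKernel_defEq (F : Type) [Field F] (n : Ideal (𝓞 F)) :
    type_of% (@wordKernel.eq_def F _ n) := @wordKernel.eq_def F _ n

/-- The defining equations of `Datum.descWord`, stated next to the definition. -/
theorem descWord_defEq : type_of% (@Datum.descWord.eq_def) := @Datum.descWord.eq_def

end FLTAgent.LanglandsTunnell
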