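import Fermat.Agent.LanglandsTunnell.Kernels

/-!
# Words of primes under the descent from `M` to `E`

Elementary facts on `Datum.descWord` shared by the isolation, killing, local and trace modules.
-/

set_option autoImplicit false

noncomputable section

namespace FLTAgent.LanglandsTunnell

open NumberField

/-- Summation over a concatenation. -/
theorem sum_flatMap_map {α β : Type} (L : List α) (f : α → List β) (h : β → ℂ) :
    ((L.flatMap f).map h).sum = (L.map fun a => ((f a).map h).sum).sum := by
  induction L <;> simp [*]

variable (D : Datum)

/-- The primes of a descended word lie under primes of the word. -/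
theorem mem_descWord {ws : List (Ideal (𝓞 D.M))} {a : ℂ × List (Ideal (𝓞 D.E))}
    (ha : a ∈ D.descWord ws) : ∀ v ∈ a.2, ∃ w ∈ ws, v = D.under w := by
  induction ws generalizing a with
  | nil =>
    simp only [Datum.descWord, List.mem_singleton] at ha
    subst ha
    simp
  | cons w ws ih =>
    simp only [Datum.descWord, List.mem_flatMap, List.mem_map] at ha
    obtain ⟨x, hx, y, hy, rfl⟩ := ha
    intro v hv
    rcases List.mem_append.mp hv with h | h
    · refine ⟨w, List.mem_cons_self, ?_⟩
      unfold Datum.descPrime at hx
      split_ifs at hx <;> simp only [List.mem_cons, List.not_mem_nil, or_false] at hx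
      · subst hx; simpa using h
      · rcases hx with rfl | rfl <;> simpa using h
    · obtain ⟨w', hw', e⟩ := ih hy v h
      exact ⟨w', List.mem_cons_of_mem _ hw', e⟩

variable {D}

/-- A word of primes of degree one descends to the word below it. -/
theorem descWord_degreeOne {ws : List (Ideal (𝓞 D.M))} (h : ∀ w ∈ ws, D.DegreeOne w) :
    D.descWord ws = [(1, ws.map D.under)] := by
  induction ws with
  | nil => rfl
  | cons w ws ih =>
    simp [Datum.descWord, Datum.descPrime, h w List.mem_cons_self,
      ih fun x hx => h x (List.mem_cons_of_mem _ hx)]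

/-- A prime of degree one is not of degree three. -/
theorem not_degreeThree {w : Ideal (𝓞 D.M)} (h1 : D.DegreeOne w) : ¬ D.DegreeThree w := fun h3 => by
  have e : Ideal.absNorm (D.under w) = Ideal.absNorm (D.under w) ^ 3 := h1.2.2.symm.trans h3.2.2
  have hprime : (D.under w).IsPrime := h1.1.comap _
  have hne1 : Ideal.absNorm (D.under w) ≠ 1 := fun h =>
    hprime.ne_top (Ideal.absNorm_eq_one_iff.mp h)
  have hne0 : Ideal.absNorm (D.under w) ≠ 0 := fun h => h1.2.1 (Ideal.absNorm_eq_zero_iff.mp
    (h1.2.2.trans h))
  have hlt : Ideal.absNorm (D.under w) < Ideal.absNorm (D.under w) ^ 3 := by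
    conv_lhs => rw [← pow_one (Ideal.absNorm (D.under w))]
    exact Nat.pow_lt_pow_right (by omega) (by norm_num)
  omega

end FLTAgent.LanglandsTunnell
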