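import Fermat.Agent.LanglandsTunnell.AdelicNbrs
import Fermat.Agent.LanglandsTunnell.Kernels
import Fermat.Agent.LanglandsTunnell.Geom.Domain
import Fermat.Agent.LanglandsTunnell.Killing.Operators

/-!
# Symmetry of the Hecke operators

The Hecke operators are self-adjoint on a fundamental domain, so eigenvalues of eigenforms are real.
-/

set_option autoImplicit false

noncomputable section

namespace FLTAgent.LanglandsTunnell

open NumberField MeasureTheory
open scoped ENNReal ComplexConjugate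

variable {F : Type} [Field F] [NumberField F] {ι : Type} [Fintype ι] {n w : Ideal (𝓞 F)}

/-- The neighbour relation is symmetric. -/
theorem mem_nbrs_comm (hw : w.IsPrime) (hw0 : w ≠ ⊥) (hwn : ¬ w ∣ n) (v u : FinPt F n) :
    u ∈ nbrs n w v ↔ v ∈ nbrs n w u :=
  ⟨Killing.mem_nbrs_symm ⟨hw, hw0, hwn⟩, Killing.mem_nbrs_symm ⟨hw, hw0, hwn⟩⟩

/-- There are `N w + 1` neighbours. -/
theorem ncard_nbrs (hw : w.IsPrime) (hw0 : w ≠ ⊥) (hwn : ¬ w ∣ n) (v : FinPt F n) :
    (nbrs n w v).ncard = Ideal.absNorm w + 1 := by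
  have hcop : w ⊔ n = ⊤ := (hw.isMaximal hw0).out.2 _ (lt_of_le_of_ne le_sup_left fun h =>
    hwn (Ideal.dvd_iff_le.mpr (h ▸ le_sup_right)))
  obtain ⟨π, hπ⟩ := exists_isUniformizerAt_prime hw hw0 hwn
  obtain ⟨c, hc⟩ := exists_isResidueSection hw0 hcop
  obtain ⟨g, rfl⟩ := QuotientGroup.mk_surjective v
  obtain ⟨h1, h2⟩ := nbrs_eq_range hw hw0 hwn hπ hc g (one_mem (principalSubgroup (F := F) ⊤))
  rw [mul_one] at h1
  have : Finite (𝓞 F ⧸ w) := Ideal.finiteQuotientOfFreeOfNeBot w hw0
  rw [h1, Set.ncard_range_of_injective h2, Finite.card_option, Ideal.absNorm_apply]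
  rfl

/-- The pair measure. -/
def volPair (ι : Type) [Fintype ι] (n : Ideal (𝓞 F)) : Measure (Pt F ι n × FinPt F n) :=
  (volPt : Measure (Pt F ι n)).prod Measure.count

/-- Exchange of the two finite coordinates. -/
def pairSwap (ι : Type) (n : Ideal (𝓞 F)) (p : Pt F ι n × FinPt F n) : Pt F ι n × FinPt F n :=
  ((p.2, p.1.2), p.1.1)

omit [NumberField F] [Fintype ι] in
theorem measurable_pairSwap : Measurable (pairSwap ι n) :=
  (measurable_snd.prodMk (measurable_snd.comp measurable_fst)).prodMk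
    (measurable_fst.comp measurable_fst)

omit [NumberField F] [Fintype ι] in
theorem pairSwap_pairSwap (p : Pt F ι n × FinPt F n) : pairSwap ι n (pairSwap ι n p) = p := rfl

/-- The pair integral as an iterated sum. -/
theorem lintegral_volPair (hn : n ≠ ⊥) {f : Pt F ι n × FinPt F n → ℝ≥0∞} (hf : Measurable f) :
    ∫⁻ p, f p ∂volPair ι n =
      ∑' v : FinPt F n, ∑' u : FinPt F n,
        ∫⁻ P, f ((v, P), u) ∂Measure.pi fun _ : ι => H3.volH3 := by
  have := LanglandsTunnell.Geom.countable_finPt (F := F) hn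
  have : SigmaFinite H3.volH3 := H3.sigmaFinite_volH3
  rw [volPair, lintegral_prod f hf.aemeasurable]
  simp only [lintegral_count]
  have hts : Measurable fun x : Pt F ι n => ∑' u, f (x, u) :=
    Measurable.tsum fun u => hf.comp (measurable_id.prodMk measurable_const)
  rw [volPt, lintegral_prod _ hts.aemeasurable, lintegral_count]
  exact tsum_congr fun v => lintegral_tsum fun u => (hf.comp
    ((measurable_const.prodMk measurable_id).prodMk measurable_const)).aemeasurable

theorem measurePreserving_pairSwap (hn : n ≠ ⊥) :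
    MeasurePreserving (pairSwap (F := F) ι n) (volPair ι n) (volPair ι n) := by
  refine ⟨measurable_pairSwap, Measure.ext fun s hs => ?_⟩
  rw [Measure.map_apply measurable_pairSwap hs, ← lintegral_indicator_one (measurable_pairSwap hs),
    ← lintegral_indicator_one hs, lintegral_volPair hn (measurable_one.indicator
      (measurable_pairSwap hs)), lintegral_volPair hn (measurable_one.indicator hs),
    ENNReal.tsum_comm]
  exact tsum_congr fun v => tsum_congr fun u => lintegral_congr fun P => rfl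

omit [NumberField F] [Fintype ι] in
theorem measurableEmbedding_pairSwap : MeasurableEmbedding (pairSwap (F := F) ι n) :=
  ({ toFun := pairSwap ι n
     invFun := pairSwap ι n
     left_inv := pairSwap_pairSwap
     right_inv := pairSwap_pairSwap
     measurable_toFun := measurable_pairSwap
     measurable_invFun := measurable_pairSwap } :
      Pt F ι n × FinPt F n ≃ᵐ Pt F ι n × FinPt F n).measurableEmbedding

theorem integral_count_eq_sum {α : Type} [MeasurableSpace α] [MeasurableSingletonClass α]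
    [Countable α] (s : Finset α) {f : α → ℂ} (hf : ∀ a ∉ s, f a = 0) :
    ∫ a, f a ∂Measure.count = ∑ a ∈ s, f a := by
  classical
  have e : f = fun a => ∑ b ∈ s, Set.indicator {b} (fun _ => f b) a := by
    funext a
    by_cases ha : a ∈ s
    · rw [Finset.sum_eq_single_of_mem a ha fun b _ hb => Set.indicator_of_notMem
        (by simpa using Ne.symm hb) _]
      simp
    · rw [hf a ha]
      exact (Finset.sum_eq_zero fun b hb => Set.indicator_of_notMem (fun h => ha (by
        rw [Set.mem_singleton_iff] at h; rwa [h])) _).symm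
  conv_lhs => rw [e]
  rw [integral_finsetSum _ fun b _ => (integrable_indicator_iff (measurableSet_singleton b)).mpr
    (integrableOn_const (by simp))]
  refine Finset.sum_congr rfl fun b _ => ?_
  rw [integral_indicator_const _ (measurableSet_singleton b)]
  simp [measureReal_def]

/-- **The Hecke operator is self-adjoint on a fundamental domain.** -/
theorem hecke_symm (Φ : PlaceChoice F ι) (hn : n ≠ ⊥) (hw : w.IsPrime) (hw0 : w ≠ ⊥)
    (hwn : ¬ w ∣ n) {S : Set (Pt F ι n)} (hS : IsFundDomain Φ S) {φ ψ : Pt F ι n → ℂ}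
    (hφ : ∀ γ x, φ (act Φ γ x) = φ x) (hψ : ∀ γ x, ψ (act Φ γ x) = ψ x)
    (hφm : Measurable φ) (hψm : Measurable ψ) (hφb : ∃ C : ℝ, ∀ x, ‖φ x‖ ≤ C)
    (hψb : ∃ C : ℝ, ∀ x, ‖ψ x‖ ≤ C) :
    ∫ x in S, (∑ᶠ u ∈ nbrs n w x.1, φ (u, x.2)) * conj (ψ x) ∂volPt =
      ∫ x in S, φ x * conj (∑ᶠ u ∈ nbrs n w x.1, ψ (u, x.2)) ∂volPt := by
  classical
  have := LanglandsTunnell.Geom.countable_finPt (F := F) hn
  have : SigmaFinite H3.volH3 := H3.sigmaFinite_volH3
  have : SFinite (volPt : Measure (Pt F ι n)) := by rw [volPt]; infer_instance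
  have hfin : ∀ v : FinPt F n, (nbrs n w v).Finite :=
    fun v => LanglandsTunnell.Geom.finite_nbrs hn hw0 v
  obtain ⟨Cφ, hCφ⟩ := hφb
  obtain ⟨Cψ, hCψ⟩ := hψb
  let E : Set (Pt F ι n × FinPt F n) := {p | p.2 ∈ nbrs n w p.1.1 ∧ (p.2, p.1.2) ∈ S}
  have hsw : Measurable fun p : Pt F ι n × FinPt F n => ((p.2, p.1.2) : Pt F ι n) :=
    measurable_fst.comp measurable_pairSwap
  have hE : MeasurableSet E := by
    refine MeasurableSet.inter ?_ (hsw hS.measurable)
    show MeasurableSet ((fun p : Pt F ι n × FinPt F n => (p.1.1, p.2)) ⁻¹'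
      {q : FinPt F n × FinPt F n | q.2 ∈ nbrs n w q.1})
    exact ((measurable_fst.comp measurable_fst).prodMk measurable_snd)
      (Set.to_countable _).measurableSet
  let G : Pt F ι n × FinPt F n → ℂ := E.indicator fun p => φ (p.2, p.1.2) * conj (ψ p.1)
  have hGm : Measurable G := ((hφm.comp hsw).mul
    (Complex.continuous_conj.measurable.comp (hψm.comp measurable_fst))).indicator hE
  have hGint : Integrable G (volPair ι n) := by
    have hfinE : volPair ι n E < ⊤ := by
      rw [← (measurePreserving_pairSwap hn).measure_preimage hE.nullMeasurableSet,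
        ← lintegral_indicator_one (measurable_pairSwap hE),
        lintegral_volPair hn (measurable_one.indicator (measurable_pairSwap hE))]
      refine lt_of_le_of_lt (b := ((Ideal.absNorm w + 1 : ℕ) : ℝ≥0∞) * volPt S) ?_
        (ENNReal.mul_lt_top (ENNReal.natCast_lt_top _) hS.finite_volume)
      rw [← lintegral_indicator_one hS.measurable, volPt,
        lintegral_prod _ (measurable_one.indicator hS.measurable).aemeasurable, lintegral_count,
        ← ENNReal.tsum_mul_left]
      refine ENNReal.tsum_le_tsum fun v => ?_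
      rw [tsum_eq_sum (s := (hfin v).toFinset) fun u hu => ?_]
      · refine (Finset.sum_le_card_nsmul _ _ (∫⁻ P, S.indicator (1 : Pt F ι n → ℝ≥0∞) (v, P)
          ∂Measure.pi fun _ : ι => H3.volH3) fun u _ => lintegral_mono fun P => ?_).trans_eq ?_
        · by_cases h : ((v, P), u) ∈ pairSwap ι n ⁻¹' E
          · have hS' : ((v, P) : Pt F ι n) ∈ S := h.2
            simp [h, hS']
          · simp [h]
        · rw [← Set.ncard_eq_toFinset_card _ (hfin v), ncard_nbrs hw hw0 hwn, nsmul_eq_mul]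
      · refine lintegral_eq_zero_of_ae_eq_zero (Filter.Eventually.of_forall fun P => ?_)
        refine Set.indicator_of_notMem (fun h => hu ?_) _
        rw [(hfin v).mem_toFinset, mem_nbrs_comm hw hw0 hwn]
        exact h.1
    refine Integrable.mono' ((integrable_indicator_iff hE).mpr (integrableOn_const hfinE.ne))
      (g := E.indicator fun _ => |Cφ| * |Cψ|) hGm.aestronglyMeasurable
      (Filter.Eventually.of_forall fun p => ?_)
    by_cases hp : p ∈ E
    · simp only [G, Set.indicator_of_mem hp, norm_mul, Complex.norm_conj]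
      exact mul_le_mul ((hCφ _).trans (le_abs_self _)) ((hCψ _).trans (le_abs_self _))
        (norm_nonneg _) (abs_nonneg _)
    · simp [G, hp]
  have hGint' : Integrable (fun p => G (pairSwap ι n p)) (volPair ι n) :=
    (measurePreserving_pairSwap hn).integrable_comp_of_integrable hGint
  have h1 : ∀ x : Pt F ι n, ∫ u, G (x, u) ∂Measure.count =
      conj (ψ x) * ∑ u ∈ (hfin x.1).toFinset,
        S.indicator (fun y => φ y) (u, x.2) := fun x => by
    rw [integral_count_eq_sum (hfin x.1).toFinset fun u hu => Set.indicator_of_notMem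
      (fun h => hu ((hfin x.1).mem_toFinset.mpr h.1)) _, Finset.mul_sum]
    refine Finset.sum_congr rfl fun u hu => ?_
    by_cases hs : ((u, x.2) : Pt F ι n) ∈ S
    · have he : (x, u) ∈ E := ⟨(hfin x.1).mem_toFinset.mp hu, hs⟩
      simp [he, hs, mul_comm]
    · have he : (x, u) ∉ E := fun h => hs h.2
      simp [he, hs]
  have h2 : ∀ x : Pt F ι n, ∫ v, G (pairSwap ι n (x, v)) ∂Measure.count =
      S.indicator (fun x => φ x * conj (∑ᶠ v ∈ nbrs n w x.1, ψ (v, x.2))) x := fun x => by
    rw [integral_count_eq_sum (hfin x.1).toFinset fun v hv => Set.indicator_of_notMem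
      (fun h => hv ((hfin x.1).mem_toFinset.mpr ((mem_nbrs_comm hw hw0 hwn _ _).mp h.1))) _]
    by_cases hx : x ∈ S
    · rw [Set.indicator_of_mem hx, finsum_mem_eq_finite_toFinset_sum _ (hfin x.1), map_sum,
        Finset.mul_sum]
      refine Finset.sum_congr rfl fun v hv => ?_
      have he : pairSwap ι n (x, v) ∈ E :=
        ⟨(mem_nbrs_comm hw hw0 hwn _ _).mp ((hfin x.1).mem_toFinset.mp hv), hx⟩
      show E.indicator _ (pairSwap ι n (x, v)) = _
      rw [Set.indicator_of_mem he]
      rfl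
    · rw [Set.indicator_of_notMem hx]
      refine Finset.sum_eq_zero fun v _ => Set.indicator_of_notMem (fun h => hx h.2) _
  have key : ∫ x, (∫ u, G (x, u) ∂Measure.count) ∂volPt =
      ∫ x, (∫ v, G (pairSwap ι n (x, v)) ∂Measure.count) ∂volPt := by
    rw [← integral_prod G hGint, ← integral_prod (fun p => G (pairSwap ι n p)) hGint']
    exact ((measurePreserving_pairSwap hn).integral_comp measurableEmbedding_pairSwap G).symm
  have hh : Integrable (fun x => ∫ u, G (x, u) ∂Measure.count) volPt := hGint.integral_prod_left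
  have hrhs : ∫ x, (∫ v, G (pairSwap ι n (x, v)) ∂Measure.count) ∂volPt =
      ∫ x in S, φ x * conj (∑ᶠ u ∈ nbrs n w x.1, ψ (u, x.2)) ∂volPt := by
    simp only [h2]
    exact integral_indicator hS.measurable
  rw [← hrhs, ← key, LanglandsTunnell.Geom.integral_unfold_fundDomain Φ hn hS hh]
  refine setIntegral_congr_ae hS.measurable ?_
  have hu' := hS.unique
  rw [volPt] at hu'
  have hall : ∀ u : FinPt F n, ∀ᵐ P ∂(Measure.pi fun _ : ι => H3.volH3),
      ∃! γ : PGLF F, act Φ γ.out ((u, P) : Pt F ι n) ∈ S :=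
    (Measure.ae_count_iff).mp (Measure.ae_ae_of_ae_prod hu')
  have hall2 : ∀ᵐ P ∂(Measure.pi fun _ : ι => H3.volH3), ∀ u : FinPt F n,
      ∃! γ : PGLF F, act Φ γ.out ((u, P) : Pt F ι n) ∈ S := ae_all_iff.mpr hall
  have hall3 : ∀ᵐ x ∂(volPt : Measure (Pt F ι n)), ∀ u : FinPt F n,
      ∃! γ : PGLF F, act Φ γ.out ((u, x.2) : Pt F ι n) ∈ S := by
    rw [volPt]
    exact Measure.quasiMeasurePreserving_snd.ae hall2
  filter_upwards [hall3] with x hx _
  have hterm : ∀ γ : PGLF F, ∫ u, G (act Φ γ.out x, u) ∂Measure.count =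
      conj (ψ x) * ∑ u ∈ (hfin x.1).toFinset,
        S.indicator (fun _ => φ (u, x.2)) (act Φ γ.out (u, x.2)) := by
    intro γ
    rw [h1, hψ]
    refine congrArg (conj (ψ x) * ·) ?_
    rw [← finsum_mem_eq_finite_toFinset_sum _ (hfin (act Φ γ.out x).1),
      ← finsum_mem_eq_finite_toFinset_sum _ (hfin x.1)]
    show ∑ᶠ u ∈ nbrs n w (Matrix.GeneralLinearGroup.map (toAF F) γ.out • x.1), _ = _
    rw [LanglandsTunnell.Geom.nbrs_smul, finsum_mem_image (MulAction.injective _).injOn]
    refine finsum_mem_congr rfl fun u _ => ?_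
    show S.indicator _ (act Φ γ.out (u, x.2)) = _
    simp only [Set.indicator_apply, hφ]
  simp only [hterm]
  rw [finsum_mem_eq_finite_toFinset_sum _ (hfin x.1), tsum_mul_left, mul_comm]
  congr 1
  rw [Summable.tsum_finsetSum]
  · refine Finset.sum_congr rfl fun u _ => ?_
    obtain ⟨γ₀, hγ₀, huniq⟩ := hx u
    rw [tsum_eq_single γ₀ fun γ hγ => Set.indicator_of_notMem (fun h => hγ (huniq γ h)) _,
      Set.indicator_of_mem hγ₀]
  · intro u _
    obtain ⟨γ₀, hγ₀, huniq⟩ := hx u
    exact summable_of_ne_finset_zero (s := {γ₀}) fun γ hγ =>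
      Set.indicator_of_notMem (fun h => hγ (Finset.mem_singleton.mpr (huniq γ h))) _

theorem isOpenPosMeasure_volH3 : Measure.IsOpenPosMeasure (H3.volH3 : Measure H3) := by
  constructor
  intro U hU hne h0
  have himg : IsOpen (H3.coords '' U) := H3.isOpenEmbedding_coords.isOpenMap U hU
  rw [H3.volH3, H3.measurableEmbedding_coords.comap_apply,
    withDensity_apply_eq_zero H3.measurable_density] at h0
  refine himg.measure_pos volume (hne.image _) |>.ne' (measure_mono_null ?_ h0)
  rintro _ ⟨P, hP, rfl⟩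
  refine ⟨?_, ⟨P, hP, rfl⟩⟩
  have hpos : (0 : ℝ) < 1 / P.t ^ 3 := div_pos one_pos (pow_pos P.t_pos 3)
  exact (ENNReal.ofReal_pos.mpr hpos).ne'

/-- An invariant continuous function which vanishes almost everywhere on a domain is zero. -/
theorem eq_zero_of_ae_domain (Φ : PlaceChoice F ι) (hn : n ≠ ⊥) {S : Set (Pt F ι n)}
    (hS : IsFundDomain Φ S) {φ : Pt F ι n → ℂ} (hinv : ∀ γ x, φ (act Φ γ x) = φ x)
    (hc : ∀ v, Continuous fun P : ι → H3 => φ (v, P)) (hm : Measurable φ)
    (h : ∀ᵐ x ∂(volPt : Measure (Pt F ι n)), x ∈ S → φ x = 0) : φ = 0 := by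
  have := LanglandsTunnell.Geom.countable_finPt (F := F) hn
  have : SigmaFinite H3.volH3 := H3.sigmaFinite_volH3
  have := isOpenPosMeasure_volH3
  have hfm : Measurable fun x => ENNReal.ofReal ‖φ x‖ := hm.norm.ennreal_ofReal
  have hall : ∫⁻ x, ENNReal.ofReal ‖φ x‖ ∂(volPt : Measure (Pt F ι n)) = 0 := by
    rw [LanglandsTunnell.Geom.lintegral_unfold_fundDomain Φ hn hS hfm]
    refine (lintegral_eq_zero_of_ae_eq_zero ?_)
    refine (ae_restrict_iff' hS.measurable).mpr (h.mono fun x hx hxS => ?_)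
    simp [hinv, hx hxS]
  rw [lintegral_eq_zero_iff hfm, volPt] at hall
  have hv := Measure.ae_count_iff.mp (Measure.ae_ae_of_ae_prod hall)
  funext ⟨v, P⟩
  have hae : (fun P : ι → H3 => φ (v, P)) =ᵐ[Measure.pi fun _ : ι => H3.volH3] fun _ => 0 :=
    (hv v).mono fun P hP => by simpa using hP
  exact congrFun (Measure.eq_of_ae_eq hae (hc v) continuous_const) P

/-- Eigenvalues of eigenforms are real. -/
theorem IsEigenform.im_eigenvalue [DecidableEq ι] {Φ : PlaceChoice F ι} {φ : Pt F ι n → ℂ}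
    {a : Ideal (𝓞 F) → ℂ} (h : IsEigenform Φ φ a) (hn : n ≠ ⊥) (hw : w.IsPrime) (hw0 : w ≠ ⊥)
    (hwn : ¬ w ∣ n) : (a w).im = 0 := by
  have := LanglandsTunnell.Geom.countable_finPt (F := F) hn
  obtain ⟨S, hS⟩ := LanglandsTunnell.Geom.exists_isFundDomain Φ hn
  have hm : Measurable φ :=
    measurable_from_prod_countable_right fun v => (h.automorphic.continuous v).measurable
  obtain ⟨C, hC⟩ := h.automorphic.bounded
  have hsymm := hecke_symm Φ hn hw hw0 hwn hS h.automorphic.invariant h.automorphic.invariant hm hm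
    h.automorphic.bounded h.automorphic.bounded
  have he : ∀ x : Pt F ι n, ∑ᶠ u ∈ nbrs n w x.1, φ (u, x.2) =
      (Real.sqrt (Ideal.absNorm w) : ℂ) * a w * φ x := fun x => h.eigen w hw hw0 hwn x.1 x.2
  set s : ℝ := Real.sqrt (Ideal.absNorm w) with hs_def
  have hs : 0 < s := Real.sqrt_pos.mpr (Nat.cast_pos.mpr (Nat.pos_of_ne_zero fun h0 =>
    hw0 (Ideal.absNorm_eq_zero_iff.mp h0)))
  have hsq : Integrable (fun x => ‖φ x‖ ^ 2) (volPt.restrict S) := by
    have : IsFiniteMeasure ((volPt : Measure (Pt F ι n)).restrict S) :=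
      ⟨by rw [Measure.restrict_apply_univ]; exact hS.finite_volume⟩
    refine Integrable.mono' (integrable_const (C ^ 2)) (hm.norm.pow_const 2).aestronglyMeasurable
      (Filter.Eventually.of_forall fun x => ?_)
    rw [Real.norm_of_nonneg (sq_nonneg _)]
    exact pow_le_pow_left₀ (norm_nonneg _) (hC x) 2
  set I : ℝ := ∫ x in S, ‖φ x‖ ^ 2 ∂volPt with hI
  have hI0 : I ≠ 0 := by
    intro h0
    rw [hI, integral_eq_zero_iff_of_nonneg (fun x => sq_nonneg _) hsq] at h0
    obtain ⟨x, hx⟩ := h.ne_zero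
    refine hx (congrFun (eq_zero_of_ae_domain Φ hn hS h.automorphic.invariant
      h.automorphic.continuous hm ?_) x)
    exact ((ae_restrict_iff' hS.measurable).mp h0).mono fun y hy hyS => by simpa using hy hyS
  have hI' : (I : ℂ) = ∫ x in S, φ x * conj (φ x) ∂volPt := by
    rw [hI, ← integral_complex_ofReal]
    exact integral_congr_ae (Filter.Eventually.of_forall fun x => by
      simp [Complex.mul_conj'])
  have h1 : ∀ x : Pt F ι n, (s : ℂ) * a w * φ x * conj (φ x) =
      (s : ℂ) * a w * (φ x * conj (φ x)) := fun x => by ring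
  have h2 : ∀ x : Pt F ι n, φ x * conj ((s : ℂ) * a w * φ x) =
      conj ((s : ℂ) * a w) * (φ x * conj (φ x)) := fun x => by rw [map_mul]; ring
  simp only [he, h1, h2, integral_const_mul, ← hI'] at hsymm
  have h3 := mul_right_cancel₀ (Complex.ofReal_ne_zero.mpr hI0) hsymm
  have h4 := congrArg Complex.im h3
  simp [Complex.mul_im] at h4
  have h5 : s * (a w).im = 0 := by linarith
  exact (mul_eq_zero.mp h5).resolve_left hs.ne'

omit [Fintype ι] in
/-- The trivial bound on eigenvalues: the number of neighbours. -/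
theorem IsEigenform.norm_eigenvalue_le [DecidableEq ι] {Φ : PlaceChoice F ι} {φ : Pt F ι n → ℂ}
    {a : Ideal (𝓞 F) → ℂ} (h : IsEigenform Φ φ a) (hn : n ≠ ⊥) (hw : w.IsPrime) (hw0 : w ≠ ⊥)
    (hwn : ¬ w ∣ n) :
    ‖a w‖ ≤ Real.sqrt (Ideal.absNorm w) + 1 / Real.sqrt (Ideal.absNorm w) := by
  obtain ⟨C, hC⟩ := h.automorphic.bounded
  obtain ⟨x₀, hx₀⟩ := h.ne_zero
  have : Nonempty (Pt F ι n) := ⟨x₀⟩
  have hb : BddAbove (Set.range fun x => ‖φ x‖) := ⟨C, by rintro _ ⟨x, rfl⟩; exact hC x⟩
  set M := ⨆ x, ‖φ x‖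
  have hM : ∀ x, ‖φ x‖ ≤ M := fun x => le_ciSup hb x
  have hM0 : 0 < M := lt_of_lt_of_le (norm_pos_iff.mpr hx₀) (hM x₀)
  set s : ℝ := Real.sqrt (Ideal.absNorm w) with hs_def
  have hs : 0 < s := Real.sqrt_pos.mpr (Nat.cast_pos.mpr (Nat.pos_of_ne_zero fun h0 =>
    hw0 (Ideal.absNorm_eq_zero_iff.mp h0)))
  have h2 : s * s = (Ideal.absNorm w : ℝ) := Real.mul_self_sqrt (Nat.cast_nonneg _)
  have key : ∀ x : Pt F ι n, s * ‖a w‖ * ‖φ x‖ ≤ ((Ideal.absNorm w : ℝ) + 1) * M := fun x => by
    have hfin := LanglandsTunnell.Geom.finite_nbrs hn hw0 x.1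
    have he : ∑ u ∈ hfin.toFinset, φ (u, x.2) = (s : ℂ) * a w * φ x := by
      rw [← finsum_mem_eq_finite_toFinset_sum _ hfin]
      exact h.eigen w hw hw0 hwn x.1 x.2
    calc s * ‖a w‖ * ‖φ x‖ = ‖∑ u ∈ hfin.toFinset, φ (u, x.2)‖ := by
          rw [he, norm_mul, norm_mul, Complex.norm_real, Real.norm_of_nonneg hs.le]
      _ ≤ ∑ _u ∈ hfin.toFinset, M := norm_sum_le_of_le _ fun u _ => hM _
      _ = ((Ideal.absNorm w : ℝ) + 1) * M := by
          rw [Finset.sum_const, ← Set.ncard_eq_toFinset_card _ hfin, ncard_nbrs hw hw0 hwn,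
            nsmul_eq_mul, Nat.cast_add, Nat.cast_one]
  have h3 : s * ‖a w‖ ≤ (Ideal.absNorm w : ℝ) + 1 := by
    have h4 : M ≤ ((Ideal.absNorm w : ℝ) + 1) * M / (s * ‖a w‖) ∨ s * ‖a w‖ = 0 := by
      by_cases h0 : s * ‖a w‖ = 0
      · exact Or.inr h0
      · have h0' : 0 < s * ‖a w‖ := lt_of_le_of_ne (by positivity) (Ne.symm h0)
        refine Or.inl (ciSup_le fun x => ?_)
        rw [le_div_iff₀ h0', mul_comm]
        exact key x
    rcases h4 with h4 | h4
    · by_cases h0 : s * ‖a w‖ = 0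
      · rw [h0]; positivity
      · have h0' : 0 < s * ‖a w‖ := lt_of_le_of_ne (by positivity) (Ne.symm h0)
        rw [le_div_iff₀ h0'] at h4
        exact le_of_mul_le_mul_right (by linarith) hM0
    · rw [h4]; positivity
  rw [← sub_nonneg]
  have h5 : 0 ≤ ((Ideal.absNorm w : ℝ) + 1 - s * ‖a w‖) / s := div_nonneg (by linarith) hs.le
  refine h5.trans_eq ?_
  rw [← h2]
  field_simp

end FLTAgent.LanglandsTunnell
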