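import Fermat.Agent.LanglandsTunnell.Kernels

/-!
# Statements of the steps inside the cubic descent

Reduction theory, nondegeneracy of the seed, killing pairs of kernels (`KillingSpec`) and the
twisted trace identity (`TraceSpec`).
-/

set_option autoImplicit false

noncomputable section

namespace FLTAgent.LanglandsTunnell

open NumberField MeasureTheory Matrix

/-- Reduction theory. -/
def ReductionSpec : Prop :=
  ∀ (F : Type) [Field F] [NumberField F] (ι : Type) [Fintype ι] (Φ : PlaceChoice F ι)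
    (n : Ideal (𝓞 F)), n ≠ ⊥ → ∃ S : Set (Pt F ι n), IsFundDomain Φ S

/-- Primes allowed in killing operators. -/
def Datum.SplitOK (D : Datum) (N' : ℕ) (w : Ideal (𝓞 D.M)) : Prop :=
  D.DegreeOne w ∧ (Ideal.absNorm w).Prime ∧ ¬ w ∣ Ideal.span {(N' : 𝓞 D.M)}

/-- Primes allowed in test operators. -/
def Datum.TestOK (D : Datum) (N' : ℕ) (w : Ideal (𝓞 D.M)) : Prop :=
  (D.DegreeOne w ∨ D.DegreeThree w) ∧ ¬ w ∣ Ideal.span {(N' : 𝓞 D.M)} ∧
    ¬ D.under w ∣ Ideal.span {(N' : 𝓞 D.E)}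

section Killing

variable {F : Type} [Field F] [NumberField F] {ι : Type} [Fintype ι] {n : Ideal (𝓞 F)}

/-- Cuspidal image and a uniform square integral of the periodised kernel. -/
structure IsKillingKernel (Φ : PlaceChoice F ι) (S : Set (Pt F ι n)) (κ : Kernel F ι n) :
    Prop where
  symm : ∀ x y, κ y x = (starRingEnd ℂ) (κ x y)
  cuspidal : ∀ φ : Pt F ι n → ℂ, (∀ γ x, φ (act Φ γ x) = φ x) → Measurable φ →
    IntegrableOn (fun x => ‖φ x‖ ^ 2) S volPt → IsCuspidal Φ (Kernel.op κ φ)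
  square : ∃ B : ℝ, ∀ x, IntegrableOn (fun y => ‖Kernel.periodise Φ κ x y‖ ^ 2) S volPt ∧
    ∫ y in S, ‖Kernel.periodise Φ κ x y‖ ^ 2 ∂volPt ≤ B

end Killing

/-- A killing combination for both sides. -/
structure IsKillingPair {D : Datum} (P : ExtPlaces D) (N N' : ℕ)
    (SM : Set (Pt D.M (Fin 3) (Ideal.span {(N' : 𝓞 D.M)})))
    (SE : Set (Pt D.E Unit (Ideal.span {(N : 𝓞 D.E)}))) (K : Comb D.M (Fin 3)) : Prop where
  good : K.Good (D.SplitOK N')
  sideM : IsKillingKernel P.placesM SM (K.kernel (Ideal.span {(N' : 𝓞 D.M)}))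
  sideE : IsKillingKernel P.placesE SE ((D.descComb K).kernel (Ideal.span {(N : 𝓞 D.E)}))
  boundedM : ∀ C : Comb D.M (Fin 3), C.Good (D.TestOK N') →
    ∃ B : ℝ, ∀ x y, ‖Kernel.periodise P.placesM
      (((K.mul C).mul K).kernel (Ideal.span {(N' : 𝓞 D.M)})) x y‖ ≤ B
  boundedE : ∀ C : Comb D.E Unit,
    C.Good (fun v => v.IsPrime ∧ v ≠ ⊥ ∧ ¬ v ∣ Ideal.span {(N : 𝓞 D.E)}) →
    ∃ B : ℝ, ∀ x y, ‖Kernel.periodise P.placesE
      ((((D.descComb K).mul C).mul (D.descComb K)).kernel (Ideal.span {(N : 𝓞 D.E)})) x y‖ ≤ B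

/-- The seed avoids the degenerate parameters of every ray class character. -/
def NondegSpec : Prop :=
  ∀ (D : Datum) (N' : ℕ), N' ≠ 0 → ∀ ψ : Ideal (𝓞 D.M) → ℂ,
    (∀ I J, ψ (I * J) = ψ I * ψ J) →
    (∀ I, I ⊔ Ideal.span {(N' : 𝓞 D.M)} = ⊤ → ψ I ≠ 0) →
    (∀ a b : 𝓞 D.M, a ≠ 0 → b ≠ 0 → Ideal.span {a} ⊔ Ideal.span {(N' : 𝓞 D.M)} = ⊤ →
      a - b ∈ Ideal.span {(N' : 𝓞 D.M)} → ψ (Ideal.span {a}) = ψ (Ideal.span {b})) →
    {w : Ideal (𝓞 D.M) | D.SplitOK N' w ∧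
      ∀ g, IsFrobOver D.M w g → trLift (D.ρ g) ≠ ψ w + (ψ w)⁻¹}.Infinite

/-- Existence of killing pairs that do not annihilate the given form. -/
def KillingSpec : Prop :=
  ∀ (D : Datum) (P : ExtPlaces D) (N N' : ℕ), N' ≠ 0 → N ∣ N' →
    ∀ SM SE, IsFundDomain P.placesM SM → IsFundDomain P.placesE SE →
    ∀ (φ : Pt D.M (Fin 3) (Ideal.span {(N' : 𝓞 D.M)}) → ℂ) (a : Ideal (𝓞 D.M) → ℂ),
      IsEigenform P.placesM φ a →
      (∀ w, D.SplitOK N' w → ∀ g, IsFrobOver D.M w g → a w = trLift (D.ρ g)) →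
      ∃ K : Comb D.M (Fin 3), IsKillingPair P N N' SM SE K ∧
        ∃ l : ℂ, l ≠ 0 ∧ ∀ x, Kernel.op (K.kernel (Ideal.span {(N' : 𝓞 D.M)})) φ x = l * φ x

/-- The twist of a point by an automorphism. -/
def sigmaPt {F : Type} [Field F] {ι : Type} {n : Ideal (𝓞 F)} (σ : F →+* F) (e : ι ≃ ι)
    (x : Pt F ι n) : Pt F ι n :=
  ((Matrix.GeneralLinearGroup.map (mapAF σ).toRingHom x.1.out : FinPt F n), fun i => x.2 (e i))

/-- The integrand of the twisted trace. -/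
def twistedDiag {D : Datum} (P : ExtPlaces D) (σ : D.M ≃ₐ[ℚ] D.M) (e : Fin 3 ≃ Fin 3)
    (R : Finset Nat.Primes) (N₀ N₁ N' : ℕ) (C : Comb D.M (Fin 3))
    (x : Pt D.M (Fin 3) (Ideal.span {(N' : 𝓞 D.M)})) : ℂ :=
  ∑ᶠ u, ramKernel D σ R N₀ N₁ N' x.1 u *
    Kernel.periodise P.placesM (C.kernel (Ideal.span {(N' : 𝓞 D.M)})) (u, x.2)
      (sigmaPt σ.toAlgHom.toRingHom e x)

/-- The levels and the test element. -/
structure IsTestLevel (D : Datum) (σ : D.M ≃ₐ[ℚ] D.M) (k B : ℕ) (R : Finset Nat.Primes)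
    (N₀ N₁ N N' : ℕ) : Prop where
  /-- The level `N'` over `M` is nonzero. -/
  ne_zero : N' ≠ 0
  /-- The level `N` over `E` divides the level over `M`. -/
  dvd : N ∣ N'
  /-- The level `N₀` of the conjugating element at `R` divides the level over `M`. -/
  dvd₀ : N₀ ∣ N'
  /-- The two levels have the same prime factors. -/
  same_primes : ∀ q : ℕ, q.Prime → (q ∣ N' ↔ q ∣ N)
  /-- The primes in `R` divide the level. -/
  ram_dvd : ∀ p ∈ R, (p : ℕ) ∣ N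
  /-- `3` divides the level unless the datum is split at `3`. -/
  three_dvd : ¬ D.SplitAtThree → 3 ∣ N
  /-- `3` does not divide the level when the datum is split at `3`. -/
  three_not_dvd : D.SplitAtThree → ¬ 3 ∣ N
  /-- The test element is invariant on both sides under level `N'`. -/
  ram_invariant : ∀ ω k, ramElement D σ R N₀ N₁ N' ω →
    k ∈ principalSubgroup (Ideal.span {(N' : 𝓞 D.M)}) →
    ramElement D σ R N₀ N₁ N' (ω * k) ∧ ramElement D σ R N₀ N₁ N' (k * ω)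
  /-- The level over `M` is deep enough for the seed. -/
  seed : 3 ^ k * D.badPart ^ B ∣ N'
  /-- Away from `3` and the bad primes the level is squarefree. -/
  squarefree_away : ∀ q : ℕ, q.Prime → q ^ 2 ∣ N → q = 3 ∨ D.IsBad q
  /-- At the bad primes in `R`, `N₀` and `N₁` have depth at least `B` and `N'` at most `B`. -/
  deep : ∀ p ∈ R, D.IsBad p → (p : ℕ) ^ B ∣ N₀ ∧ (p : ℕ) ^ B ∣ N₁ ∧ ¬ (p : ℕ) ^ (B + 1) ∣ N'
  /-- `R` consists of the primes under the primes of `M` ramified over `E`. -/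
  mem_R : ∀ p : Nat.Primes, p ∈ R ↔ ∃ w : Ideal (𝓞 D.M), w.IsPrime ∧ ((p : ℕ) : 𝓞 D.M) ∈ w ∧
    Ideal.map (RingOfIntegers.mapRingHom D.incl) (D.under w) ≤ w ^ 2
  /-- A prime factor of the level is `3`, bad, or in `R`. -/
  support : ∀ q : ℕ, q.Prime → q ∣ N → q = 3 ∨ D.IsBad q ∨ ∃ p ∈ R, (p : ℕ) = q

/-- The twisted trace identity. -/
def TraceSpec : Prop :=
  ∀ (D : Datum) (P : ExtPlaces D) (σ : D.M ≃ₐ[ℚ] D.M) (e : Fin 3 ≃ Fin 3),
    σ ≠ AlgEquiv.refl → (∀ x, σ (D.incl x) = D.incl x) →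
    (∀ i, P.placesM.emb (e i) = (P.placesM.emb i).comp σ.toAlgHom.toRingHom) →
    ∀ k B : ℕ, 0 < B →
      ((∀ A : ValuationSubring QB, A.LiesOverPrime 3 → LineShape D.ρ A) → k = 0) →
      ∃ (R : Finset Nat.Primes) (N₀ N₁ N N' : ℕ) (c : ℂ), c ≠ 0 ∧
        IsTestLevel D σ k B R N₀ N₁ N N' ∧
        ∀ SM SE, IsFundDomain P.placesM SM → IsFundDomain P.placesE SE →
        ∀ K : Comb D.M (Fin 3), IsKillingPair P N N' SM SE K →
        ∀ u₀ : Ideal (𝓞 D.M), D.SplitOK N' u₀ →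
          (∀ T ∈ K, ∀ w ∈ T.word, D.under w ≠ D.under u₀) →
        ∀ C : Comb D.M (Fin 3), C.Good (D.TestOK N') →
          (∀ T ∈ C, ∃ ws : List (Ideal (𝓞 D.M)), T.word = u₀ :: ws ∧
            (∀ w ∈ ws, D.under w ≠ D.under u₀) ∧
            ∀ w ∈ ws, D.DegreeThree w → ws.count w ≤ 1) →
          ∫ x in SM, twistedDiag P σ e R N₀ N₁ N' ((K.mul C).mul K) x ∂volPt =
            c * ∫ y in SE, Kernel.periodise P.placesE
              ((((D.descComb K).mul (D.descComb C)).mul (D.descComb K)).kernel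
                (Ideal.span {(N : 𝓞 D.E)})) y y ∂volPt

end FLTAgent.LanglandsTunnell
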